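import Fermat.Agent.MordellWeil.Assembly
import Fermat.Agent.GaloisAttach.Stabilizer
import Fermat.Agent.Jacobian.General
import Fermat.Prelude.Def_ModularCurve_ArithmeticGalois
import Mathlib.Algebra.Ring.Action.Submonoid

/-!
# Mordell–Weil for `J₀(N)`

`jZero_fg_invariants`: the Galois invariant points of `J₀(N)(ℚ̄)` form a finitely generated
group; used by S17.
-/

set_option autoImplicit false

noncomputable section

open AlgebraicCurve ModularCurve

namespace FLTAgent.MordellWeil

/-- Mordell–Weil: the rational points of `J₀(N)` are finitely generated. -/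
theorem jZero_fg_invariants (N : ℕ) [NeZero N] :
    AddGroup.FG ↥(FixedPoints.addSubgroup ((AlgebraicClosure ℚ) ≃ₐ[ℚ] (AlgebraicClosure ℚ))
      (JZero N)) := by
  have := FLTAgent.GaloisAttach.isFunctionField_bar N
  refine fg_of_fixed (arithmeticGalois (modularFunctionFieldFull N)) (fun σ a => ?_) (fun f => ?_)
    (fun x => Jacobian.exists_nsmul_eq _ _ two_ne_zero x) (Jacobian.finite_torsion _ _ two_ne_zero)
    _ fun x hx σ => ?_
  · rw [baseAut_arithmeticGalois]; rfl
  · obtain ⟨L, hL, h⟩ := FLTAgent.GaloisAttach.fixedByOpen N f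
    exact ⟨L, hL, fun σ hσ => h σ fun y hy =>
      (IntermediateField.mem_fixingSubgroup_iff _ _).mp hσ y hy⟩
  · rw [← galois_smul_pic0_def]
    exact hx σ

end FLTAgent.MordellWeil
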