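import Mathlib.NumberTheory.RamificationInertia.Galois
import Mathlib.NumberTheory.RamificationInertia.Valuation
import Mathlib.FieldTheory.Galois.IsGaloisGroup
import Mathlib.NumberTheory.NumberField.Ideal.Basic

/-!
# Inertia and square roots

`exists_inertia_moves_sqrt`: in a Galois extension of number fields a square root of an element
of odd valuation at a prime is moved by an inertia element there.
-/

set_option autoImplicit false

noncomputable section

open NumberField IsDedekindDomain WithZero

open scoped Pointwise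

namespace FLTAgent.MordellWeil

section Finite

variable {K N : Type*} [Field K] [NumberField K] [Field N] [NumberField N] [Algebra K N]
  [IsGalois K N]

/-- The prime below. -/
def primeUnder (Q : HeightOneSpectrum (𝓞 N)) : HeightOneSpectrum (𝓞 K) :=
  Q.under (𝓞 K)

omit [NumberField K] [NumberField N] [IsGalois K N] in
theorem liesOver_primeUnder (Q : HeightOneSpectrum (𝓞 N)) :
    Q.asIdeal.LiesOver (primeUnder (K := K) Q).asIdeal := ⟨rfl⟩

theorem card_inertia_eq_ramificationIdx (Q : HeightOneSpectrum (𝓞 N)) :
    Nat.card (Q.asIdeal.inertia (N ≃ₐ[K] N)) = Q.asIdeal.ramificationIdx (𝓞 K) := by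
  have := liesOver_primeUnder (K := K) Q
  have : Finite (𝓞 K ⧸ (primeUnder (K := K) Q).asIdeal) :=
    Ideal.finiteQuotientOfFreeOfNeBot _ (primeUnder (K := K) Q).ne_bot
  have : (primeUnder (K := K) Q).asIdeal.IsMaximal := (primeUnder (K := K) Q).isMaximal
  rw [Ideal.card_inertia_eq_ramificationIdxIn (primeUnder (K := K) Q).asIdeal Q.asIdeal,
    Ideal.ramificationIdxIn_eq_ramificationIdx (primeUnder (K := K) Q).asIdeal Q.asIdeal
      (N ≃ₐ[K] N)]

omit [IsGalois K N] in
theorem log_valuation_algebraMap (Q : HeightOneSpectrum (𝓞 N)) (x : K) :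
    log (Q.valuation N (algebraMap K N x))
      = Q.asIdeal.ramificationIdx (𝓞 K) * log ((primeUnder (K := K) Q).valuation K x) := by
  have := liesOver_primeUnder (K := K) Q
  rw [← HeightOneSpectrum.valuation_liesOver N (primeUnder (K := K) Q) Q x, log_pow,
    Ideal.ramificationIdx'_eq_ramificationIdx _ _ (primeUnder (K := K) Q).ne_bot, nsmul_eq_mul]

/-- Inertia moves a square root of an element of odd valuation. -/
theorem exists_inertia_moves_sqrt (Q : HeightOneSpectrum (𝓞 N)) {α : K} (hα : α ≠ 0) {β : N}
    (hβ : β ^ 2 = algebraMap K N α)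
    (hodd : Odd (log ((primeUnder (K := K) Q).valuation K α))) :
    ∃ g : N ≃ₐ[K] N, (∀ y : 𝓞 N, g • y - y ∈ Q.asIdeal) ∧ g β ≠ β := by
  classical
  by_contra hne
  push Not at hne
  set M : IntermediateField K N := IntermediateField.adjoin K {β} with hM
  have hfix : ∀ g ∈ Q.asIdeal.inertia (N ≃ₐ[K] N), ∀ m : M, g (m : N) = m := by
    intro g hg m
    have hgβ : g β = β := hne g hg
    have hmem : g ∈ M.fixingSubgroup := by
      have hle : Subgroup.zpowers g ≤ M.fixingSubgroup := by
        rw [← IntermediateField.le_iff_le, hM, IntermediateField.adjoin_le_iff]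
        intro x hx ⟨σ, hσ⟩
        rw [Set.mem_singleton_iff.mp hx]
        change σ β = β
        obtain ⟨i, rfl⟩ := Subgroup.mem_zpowers_iff.mp hσ
        induction i using Int.induction_on with
        | zero => simp
        | succ i ih =>
          rw [zpow_add_one, AlgEquiv.mul_apply, hgβ]
          exact ih (Subgroup.zpow_mem_zpowers g _)
        | pred i ih =>
          have h1 : g⁻¹ β = β := by
            conv_lhs => rw [← hgβ]
            exact g.symm_apply_apply β
          rw [zpow_sub_one, AlgEquiv.mul_apply, h1]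
          exact ih (Subgroup.zpow_mem_zpowers g _)
      exact hle (Subgroup.mem_zpowers g)
    exact hmem m
  -- restriction of scalars identifies the two inertia groups
  let res : (N ≃ₐ[M] N) →* (N ≃ₐ[K] N) :=
    { toFun := fun g => g.restrictScalars K
      map_one' := rfl
      map_mul' := fun _ _ => rfl }
  have hres : ∀ (g : N ≃ₐ[M] N) (y : 𝓞 N), res g • y = g • y := fun g y => Subtype.ext rfl
  have hcard : Nat.card (Q.asIdeal.inertia (N ≃ₐ[M] N))
      = Nat.card (Q.asIdeal.inertia (N ≃ₐ[K] N)) := by
    refine Nat.card_congr (Equiv.ofBijective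
      (fun g => ⟨res g.1, fun y => by
        have h : (g : N ≃ₐ[M] N) • y - y ∈ Q.asIdeal := g.2 y
        rw [hres]; exact h⟩) ⟨?_, ?_⟩)
    · intro g g' h
      have h' : res g.1 = res g'.1 := congrArg Subtype.val h
      exact Subtype.ext (AlgEquiv.ext fun x => DFunLike.congr_fun h' x)
    · rintro ⟨g, hg⟩
      refine ⟨⟨AlgEquiv.ofRingEquiv (f := g.toRingEquiv) (fun m => hfix g hg m), fun y => ?_⟩, ?_⟩
      · have h : g • y - y ∈ Q.asIdeal := hg y
        exact h
      · exact Subtype.ext (AlgEquiv.ext fun x => rfl)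
  rw [card_inertia_eq_ramificationIdx, card_inertia_eq_ramificationIdx] at hcard
  have hβmem : β ∈ M := IntermediateField.mem_adjoin_simple_self K β
  have hβ0 : (⟨β, hβmem⟩ : M) ≠ 0 := fun h => by
    have h0 : β = 0 := congrArg Subtype.val h
    rw [h0, zero_pow two_ne_zero, eq_comm, map_eq_zero] at hβ
    exact hα hβ
  have h1 := log_valuation_algebraMap (K := K) Q α
  rw [← hβ, map_pow, log_pow] at h1
  have h2 := log_valuation_algebraMap (K := M) Q ⟨β, hβmem⟩
  change log (Q.valuation N β) = _ at h2
  rw [h2, nsmul_eq_mul, hcard] at h1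
  have hpos : (Q.asIdeal.ramificationIdx (𝓞 K) : ℤ) ≠ 0 := by
    have := liesOver_primeUnder (K := K) Q
    rw [← card_inertia_eq_ramificationIdx (K := K) Q]
    exact Int.natCast_ne_zero.mpr Nat.card_pos.ne'
  have h3 : (2 : ℤ) * log ((primeUnder (K := M) Q).valuation M ⟨β, hβmem⟩)
      = log ((primeUnder (K := K) Q).valuation K α) := by
    refine mul_left_cancel₀ hpos ?_
    rw [← h1]
    push_cast
    ring
  obtain ⟨r, hr⟩ := hodd
  omega

end Finite

end FLTAgent.MordellWeil
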