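import Fermat.Agent.MordellWeil.AbsValue

/-!
# Absolute heights

`hgt x` is the absolute logarithmic height of a tuple of algebraic numbers, computed in any
number field containing it (`hgt_eq_of_ringHom`), with its behaviour under scaling, reindexing
and products.
-/

set_option autoImplicit false

noncomputable section

open NumberField Height Module

namespace FLTAgent.MordellWeil

section Invariance

variable {L M : Type*} [Field L] [NumberField L] [Field M] [NumberField M]

theorem prod_infinitePlace_pow_mult (g : InfinitePlace M → ℝ) :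
    ∏ w : InfinitePlace M, g w ^ w.mult = ∏ φ : M →+* ℂ, g (InfinitePlace.mk φ) := by
  classical
  rw [← Finset.prod_fiberwise Finset.univ InfinitePlace.mk (fun φ => g (InfinitePlace.mk φ))]
  refine Finset.prod_congr rfl fun w _ => ?_
  rw [Finset.prod_congr rfl (fun φ hφ => congrArg g (Finset.mem_filter.mp hφ).2),
    Finset.prod_const, InfinitePlace.card_filter_mk_eq]

theorem prod_embeddings_comp [Algebra L M] (g : (L →+* ℂ) → ℝ) :
    ∏ φ : M →+* ℂ, g (φ.comp (algebraMap L M)) =
      (∏ ψ : L →+* ℂ, g ψ) ^ finrank L M := by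
  classical
  have : Module.Finite L M := Module.Finite.right ℚ L M
  rw [← Finset.prod_fiberwise Finset.univ (fun φ : M →+* ℂ => φ.comp (algebraMap L M))
    (fun φ => g (φ.comp (algebraMap L M))), ← Finset.prod_pow]
  refine Finset.prod_congr rfl fun ψ _ => ?_
  rw [Finset.prod_congr rfl (fun φ hφ => congrArg g (Finset.mem_filter.mp hφ).2),
    Finset.prod_const]
  congr 1
  let := ψ.toAlgebra
  rw [← AlgHom.card (F := L) (E := M) ℂ, ← Fintype.card_subtype]
  exact Fintype.card_congr
    { toFun := fun φ => { φ.1 with commutes' := fun x => RingHom.congr_fun φ.2 x }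
      invFun := fun a => ⟨a.toRingHom, RingHom.ext fun x => a.commutes x⟩
      left_inv := fun φ => rfl
      right_inv := fun a => rfl }

theorem mulHeight_eq_div {ι : Type*} [Finite ι] {z : ι → 𝓞 M} (hz : z ≠ 0) :
    mulHeight (fun i => (z i : M)) =
      (∏ φ : M →+* ℂ, ⨆ i, ‖φ (z i)‖) / (Ideal.span (Set.range z)).absNorm := by
  have hz' : (fun i => (z i : M)) ≠ 0 := by
    obtain ⟨i, hi⟩ := Function.ne_iff.mp hz
    exact Function.ne_iff.mpr ⟨i, by simpa using hi⟩
  rw [NumberField.mulHeight_eq hz', prod_infinitePlace_pow_mult]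
  have h := NumberField.absNorm_mul_finprod_finitePlace_eq_one (K := M) hz
  have h0 : ((Ideal.span (Set.range z)).absNorm : ℝ) ≠ 0 := fun e => by simp [e] at h
  rw [eq_div_iff h0]
  simp only [InfinitePlace.apply]
  linear_combination (∏ φ : M →+* ℂ, ⨆ i, ‖φ (z i)‖) * h

theorem two_pow_finrank : ((2 : ℕ) : ℝ) ^ finrank ℚ M =
    (Ideal.span ({(2 : 𝓞 M)} : Set (𝓞 M))).absNorm := by
  rw [show (2 : 𝓞 M) = ((2 : ℕ) : 𝓞 M) by norm_num, Ideal.absNorm_span_singleton,
    Algebra.norm_natCast, RingOfIntegers.rank]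
  simp

theorem mulHeight_algebraMap_comp [Algebra L M] {ι : Type*} [Finite ι] (x : ι → L) :
    mulHeight (algebraMap L M ∘ x) = mulHeight x ^ finrank L M := by
  rcases eq_or_ne x 0 with rfl | hx
  · rw [show (algebraMap L M ∘ (0 : ι → L)) = 0 from funext fun _ => map_zero _,
      mulHeight_zero, mulHeight_zero, one_pow]
  cases nonempty_fintype ι
  obtain ⟨b, hb⟩ := IsLocalization.exist_integer_multiples_of_finite
    (nonZeroDivisors (𝓞 L)) x
  choose z hz using hb
  have hb0 : ((b : 𝓞 L) : L) ≠ 0 := by simp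
  have hzx : (fun i => (z i : L)) = ((b : 𝓞 L) : L) • x := by
    funext i
    rw [Pi.smul_apply]
    exact hz i
  have hz0 : z ≠ 0 := by
    intro e
    apply hx
    funext i
    have := congrFun hzx i
    rw [e] at this
    simpa [hb0] using this.symm
  let z' : ι → 𝓞 M := algebraMap (𝓞 L) (𝓞 M) ∘ z
  have hcoe : ∀ i, (z' i : M) = algebraMap L M (z i : L) := fun i => rfl
  have hz0' : z' ≠ 0 := by
    obtain ⟨i, hi⟩ := Function.ne_iff.mp hz0
    refine Function.ne_iff.mpr ⟨i, fun e => hi ?_⟩
    have := congrArg (fun t : 𝓞 M => (t : M)) e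
    simpa [hcoe] using this
  have e1 : algebraMap L M ∘ x = (algebraMap L M ((b : 𝓞 L) : L))⁻¹ • fun i => (z' i : M) := by
    funext i
    rw [Pi.smul_apply, hcoe, congrFun hzx i, Pi.smul_apply, smul_eq_mul, smul_eq_mul, map_mul,
      inv_mul_cancel_left₀ ((map_ne_zero _).mpr hb0), Function.comp_apply]
  rw [e1, mulHeight_smul_eq_mulHeight _ (inv_ne_zero ((map_ne_zero _).mpr hb0)),
    ← mulHeight_smul_eq_mulHeight x hb0, ← hzx, mulHeight_eq_div hz0', mulHeight_eq_div hz0,
    div_pow]
  congr 1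
  · rw [← prod_embeddings_comp (M := M) (fun ψ : L →+* ℂ => ⨆ i, ‖ψ (z i : L)‖)]
    rfl
  · have hr : finrank (𝓞 L) (𝓞 M) = finrank L M := by
      have h2 := two_pow_finrank (M := M)
      rw [show (Ideal.span ({(2 : 𝓞 M)} : Set (𝓞 M))) =
        (Ideal.span ({(2 : 𝓞 L)} : Set (𝓞 L))).map (algebraMap (𝓞 L) (𝓞 M)) by
          rw [Ideal.map_span, Set.image_singleton, map_ofNat],
        Ideal.absNorm_algebraMap, Nat.cast_pow, ← two_pow_finrank, ← pow_mul,
        ← Module.finrank_mul_finrank ℚ L M] at h2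
      have h3 := pow_right_injective₀ (by norm_num : (0 : ℝ) < ((2 : ℕ) : ℝ))
        (by norm_num) h2
      exact (Nat.eq_of_mul_eq_mul_left finrank_pos h3).symm
    rw [Set.range_comp, ← Ideal.map_span, Ideal.absNorm_algebraMap, hr, Nat.cast_pow]

theorem logHeight_map (f : L →+* M) {ι : Type*} [Finite ι] (x : ι → L) :
    (finrank ℚ L : ℝ) * logHeight (f ∘ x) = (finrank ℚ M : ℝ) * logHeight x := by
  let := f.toAlgebra
  have : IsScalarTower ℚ L M := IsScalarTower.of_algebraMap_eq fun q => by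
    show algebraMap ℚ M q = f (algebraMap ℚ L q)
    simp
  rw [logHeight_eq_log_mulHeight, logHeight_eq_log_mulHeight, ← Module.finrank_mul_finrank ℚ L M,
    show f ∘ x = algebraMap L M ∘ x from rfl, mulHeight_algebraMap_comp, Real.log_pow,
    Nat.cast_mul]
  ring

end Invariance

section Definition

variable {ι κ : Type*} [Finite ι] [Finite κ]

/-- The number field generated by a tuple. -/
abbrev coordField (x : ι → Qb) : IntermediateField ℚ Qb := IntermediateField.adjoin ℚ (Set.range x)

theorem finiteDimensional_adjoin {S : Set Qb} (hS : S.Finite) :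
    FiniteDimensional ℚ (IntermediateField.adjoin ℚ S) :=
  haveI := hS.to_subtype
  IntermediateField.finiteDimensional_adjoin fun s _ =>
    (Algebra.IsAlgebraic.isAlgebraic (R := ℚ) s).isIntegral

theorem numberField_of_finiteDimensional (L : IntermediateField ℚ Qb) [h : FiniteDimensional ℚ L] :
    NumberField L := by
  have h2 : ∀ i : Algebra ℚ L, @Module.Finite ℚ L _ _ i.toModule := fun i => by
    rw [Subsingleton.elim i (IntermediateField.algebra' L)]
    exact h
  exact { to_charZero := inferInstance, to_finiteDimensional := h2 _ }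

instance numberField_coordField (x : ι → Qb) : NumberField (coordField x) :=
  haveI := finiteDimensional_adjoin (Set.finite_range x)
  numberField_of_finiteDimensional _

/-- The coordinates of a tuple in the field they generate. -/
def coordLift (x : ι → Qb) (i : ι) : coordField x :=
  ⟨x i, IntermediateField.subset_adjoin ℚ _ ⟨i, rfl⟩⟩

/-- The absolute logarithmic height of a tuple of algebraic numbers. -/
def hgt (x : ι → Qb) : ℝ := logHeight (coordLift x) / finrank ℚ (coordField x)

/-- The height can be computed in any number field containing the coordinates. -/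
theorem hgt_eq_of_ringHom {L : Type*} [Field L] [NumberField L] (i : L →+* Qb) (y : ι → L) :
    hgt (i ∘ y) = logHeight y / finrank ℚ L := by
  let a : L →ₐ[ℚ] Qb := i.toRatAlgHom
  have hle : coordField (i ∘ y) ≤ a.fieldRange :=
    IntermediateField.adjoin_le_iff.mpr (by rintro _ ⟨j, rfl⟩; exact ⟨y j, rfl⟩)
  let f : coordField (i ∘ y) →+* L :=
    ((AlgEquiv.ofInjectiveField a).symm.toAlgHom.comp (IntermediateField.inclusion hle)).toRingHom
  have hf : ∀ j, f (coordLift (i ∘ y) j) = y j := fun j => by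
    apply a.injective
    show a ((AlgEquiv.ofInjectiveField a).symm _) = _
    exact congrArg Subtype.val ((AlgEquiv.ofInjectiveField a).apply_symm_apply _)
  have h := logHeight_map f (coordLift (i ∘ y))
  rw [show f ∘ coordLift (i ∘ y) = y from funext hf] at h
  rw [hgt, div_eq_div_iff (Nat.cast_ne_zero.mpr finrank_pos.ne')
    (Nat.cast_ne_zero.mpr finrank_pos.ne'), mul_comm _ (finrank ℚ L : ℝ),
    mul_comm (logHeight y)]
  exact h.symm

theorem hgt_eq_of_mem (L : IntermediateField ℚ Qb) [NumberField L] (x : ι → Qb)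
    (h : ∀ i, x i ∈ L) :
    hgt x = logHeight (fun i => (⟨x i, h i⟩ : L)) / finrank ℚ L :=
  hgt_eq_of_ringHom (algebraMap L Qb) fun i => (⟨x i, h i⟩ : L)

theorem exists_ringHom_of_finite (S : Set Qb) (hS : S.Finite) :
    ∃ L : IntermediateField ℚ Qb, NumberField L ∧ S ⊆ L :=
  haveI := finiteDimensional_adjoin hS
  ⟨IntermediateField.adjoin ℚ S, numberField_of_finiteDimensional _,
    IntermediateField.subset_adjoin ℚ S⟩

theorem hgt_nonneg (x : ι → Qb) : 0 ≤ hgt x :=
  div_nonneg (logHeight_nonneg _) (Nat.cast_nonneg _)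

theorem hgt_smul {c : Qb} (hc : c ≠ 0) (x : ι → Qb) : hgt (c • x) = hgt x := by
  obtain ⟨L, hL, hS⟩ := exists_ringHom_of_finite (insert c (Set.range x))
    ((Set.finite_range x).insert c)
  have hcL : c ∈ L := hS (Set.mem_insert _ _)
  have hxL : ∀ i, x i ∈ L := fun i => hS (Set.mem_insert_of_mem _ ⟨i, rfl⟩)
  rw [hgt_eq_of_mem L x hxL, hgt_eq_of_mem L (c • x) fun i => mul_mem hcL (hxL i)]
  congr 1
  exact logHeight_smul_eq_logHeight (fun i => (⟨x i, hxL i⟩ : L)) (c := ⟨c, hcL⟩)
    fun e => hc (congrArg Subtype.val e)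

theorem hgt_comp_equiv (e : κ ≃ ι) (x : ι → Qb) : hgt (x ∘ e) = hgt x := by
  obtain ⟨L, hL, hS⟩ := exists_ringHom_of_finite (Set.range x) (Set.finite_range x)
  rw [hgt_eq_of_mem L x (fun i => hS ⟨i, rfl⟩),
    hgt_eq_of_mem L (x ∘ e) fun i => hS ⟨e i, rfl⟩]
  congr 1
  exact logHeight_comp_equiv e (fun i => (⟨x i, hS ⟨i, rfl⟩⟩ : L))

theorem hgt_pair {x : ι → Qb} {y : κ → Qb} (hx : x ≠ 0) (hy : y ≠ 0) :
    hgt (fun a : ι × κ => x a.1 * y a.2) = hgt x + hgt y := by
  obtain ⟨L, hL, hS⟩ := exists_ringHom_of_finite (Set.range x ∪ Set.range y)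
    ((Set.finite_range x).union (Set.finite_range y))
  have hxL : ∀ i, x i ∈ L := fun i => hS (Or.inl ⟨i, rfl⟩)
  have hyL : ∀ i, y i ∈ L := fun i => hS (Or.inr ⟨i, rfl⟩)
  rw [hgt_eq_of_mem L x hxL, hgt_eq_of_mem L y hyL,
    hgt_eq_of_mem L (fun a : ι × κ => x a.1 * y a.2) (fun a => mul_mem (hxL a.1) (hyL a.2)),
      ← add_div]
  congr 1
  refine logHeight_fun_mul_eq (x := fun i => (⟨x i, hxL i⟩ : L))
    (y := fun i => (⟨y i, hyL i⟩ : L)) ?_ ?_
  · exact fun e => hx (funext fun i => congrArg Subtype.val (congrFun e i))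
  · exact fun e => hy (funext fun i => congrArg Subtype.val (congrFun e i))

theorem hgt_pi {α : Type*} [Fintype α] {μ : α → Type*} [∀ a, Finite (μ a)]
    (x : ∀ a, μ a → Qb) (hx : ∀ a, x a ≠ 0) :
    hgt (fun I : (∀ a, μ a) => ∏ a, x a (I a)) = ∑ a, hgt (x a) := by
  obtain ⟨L, hL, hS⟩ := exists_ringHom_of_finite (⋃ a, Set.range (x a))
    (Set.finite_iUnion fun a => Set.finite_range (x a))
  have hxL : ∀ a i, x a i ∈ L := fun a i => hS (Set.mem_iUnion.mpr ⟨a, i, rfl⟩)
  have hy := hgt_eq_of_ringHom (algebraMap L Qb)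
    (fun I : (∀ a, μ a) => ∏ a, (⟨x a (I a), hxL a (I a)⟩ : L))
  rw [show (algebraMap L Qb ∘ fun I : (∀ a, μ a) => ∏ a, (⟨x a (I a), hxL a (I a)⟩ : L)) =
    fun I => ∏ a, x a (I a) from funext fun I => map_prod (algebraMap L Qb) _ _,
    logHeight_fun_prod_eq (x := fun a i => (⟨x a i, hxL a i⟩ : L))
      (fun a e => hx a (funext fun i => congrArg Subtype.val (congrFun e i))),
    Finset.sum_div] at hy
  rw [hy]
  exact Finset.sum_congr rfl fun a _ => (hgt_eq_of_mem L (x a) (hxL a)).symm

end Definition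

end FLTAgent.MordellWeil
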