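import Mathlib

/-!
# Absolute values of the algebraic numbers

Places of number fields extend to absolute values of `AlgebraicClosure ℚ`; `supNorm v x` is the
sup norm of a tuple at such an absolute value.
-/

set_option autoImplicit false

noncomputable section

open NumberField Height

namespace FLTAgent.MordellWeil

/-- The algebraic closure of `ℚ`. -/
abbrev Qb : Type := AlgebraicClosure ℚ

instance isAlgebraic_Qb : Algebra.IsAlgebraic ℚ Qb := by
  have h : ∀ i : Algebra ℚ Qb, i = AlgebraicClosure.instAlgebra ℚ →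
      @Algebra.IsAlgebraic ℚ Qb _ _ i := fun i hi => by
    subst hi
    exact AlgebraicClosure.isAlgebraic ℚ
  exact h _ (Subsingleton.elim _ _)

/-- The completion at a finite place is nontrivially normed. -/
@[instance_reducible]
def completionNormed {L : Type*} [Field L] [NumberField L]
    (P : IsDedekindDomain.HeightOneSpectrum (𝓞 L)) :
    NontriviallyNormedField (P.adicCompletion L) :=
  NontriviallyNormedField.ofNormNeOne (by
    obtain ⟨π, hπ, hπ0⟩ := Submodule.exists_mem_ne_zero_of_ne_bot P.ne_bot
    refine ⟨FinitePlace.embedding P (algebraMap _ L π), ?_, ?_⟩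
    · exact (map_ne_zero _).mpr (by simpa using hπ0)
    · exact ne_of_lt ((FinitePlace.norm_lt_one_iff_mem L P π).mpr hπ))

theorem isAlgebraic_of_ringHom {L : Type*} [Field L] [NumberField L] (i : L →+* Qb) :
    @Algebra.IsAlgebraic L Qb _ _ i.toAlgebra := by
  let := i.toAlgebra
  have : IsScalarTower ℚ L Qb := IsScalarTower.of_algebraMap_eq fun x => by
    simp
  exact Algebra.IsAlgebraic.tower_top (K := ℚ) L

theorem exists_extension_finitePlace {L : Type*} [Field L] [NumberField L] (i : L →+* Qb)
    (w : FinitePlace L) :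
    ∃ v : AbsoluteValue Qb ℝ, IsNonarchimedean v ∧ ∀ x, v (i x) = w x := by
  let P := FinitePlace.maximalIdeal w
  let := completionNormed P
  let : NormedField (AlgebraicClosure (P.adicCompletion L)) :=
    spectralNorm.normedField (P.adicCompletion L) (AlgebraicClosure (P.adicCompletion L))
  have : IsUltrametricDist (AlgebraicClosure (P.adicCompletion L)) :=
    IsUltrametricDist.isUltrametricDist_of_isNonarchimedean_norm
      (isNonarchimedean_spectralNorm (K := P.adicCompletion L)
        (L := AlgebraicClosure (P.adicCompletion L)))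
  let := i.toAlgebra
  let : Algebra L (AlgebraicClosure (P.adicCompletion L)) :=
    ((algebraMap (P.adicCompletion L) (AlgebraicClosure (P.adicCompletion L))).comp
      (FinitePlace.embedding P)).toAlgebra
  have := isAlgebraic_of_ringHom i
  let j : Qb →ₐ[L] AlgebraicClosure (P.adicCompletion L) := IsAlgClosed.lift
  refine ⟨(NormedField.toAbsoluteValue (AlgebraicClosure (P.adicCompletion L))).comp
    (f := j.toRingHom)
    j.injective, fun x y => ?_,
    fun x => ?_⟩
  · change ‖j (x + y)‖ ≤ max ‖j x‖ ‖j y‖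
    rw [map_add]
    exact IsUltrametricDist.norm_add_le_max _ _
  · change ‖j (algebraMap L Qb x)‖ = w x
    rw [j.commutes]
    change spectralNorm (P.adicCompletion L) (AlgebraicClosure (P.adicCompletion L))
      (algebraMap (P.adicCompletion L) _ (FinitePlace.embedding P x)) = w x
    rw [spectralNorm_extends]
    exact FinitePlace.norm_embedding_eq w x

theorem exists_extension_infinitePlace {L : Type*} [Field L] [NumberField L] (i : L →+* Qb)
    (w : InfinitePlace L) :
    ∃ v : AbsoluteValue Qb ℝ, ¬ IsNonarchimedean v ∧ ∀ x, v (i x) = w x := by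
  let := i.toAlgebra
  let : Algebra L ℂ := w.embedding.toAlgebra
  have := isAlgebraic_of_ringHom i
  let j : Qb →ₐ[L] ℂ := IsAlgClosed.lift
  refine ⟨(NormedField.toAbsoluteValue ℂ).comp (f := j.toRingHom) j.injective, fun h => ?_,
    fun x => ?_⟩
  · have h1 := h 1 1
    change ‖j (1 + 1)‖ ≤ max ‖j 1‖ ‖j 1‖ at h1
    simp at h1
    norm_num at h1
  · change ‖j (algebraMap L Qb x)‖ = w x
    rw [j.commutes]
    exact InfinitePlace.norm_embedding_eq w x

/-- The sup norm of a tuple. -/
def supNorm (v : AbsoluteValue Qb ℝ) {ι : Type*} (x : ι → Qb) : ℝ := ⨆ i, v (x i)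

variable {ι κ : Type*} [Finite ι] [Finite κ] (v : AbsoluteValue Qb ℝ)

theorem le_supNorm (x : ι → Qb) (i : ι) : v (x i) ≤ supNorm v x :=
  Finite.le_ciSup_of_le i le_rfl

omit [Finite ι] in
theorem supNorm_nonneg (x : ι → Qb) : 0 ≤ supNorm v x :=
  Real.iSup_nonneg fun _ => v.nonneg _

omit [Finite ι] in
theorem supNorm_le {x : ι → Qb} {B : ℝ} (hB : 0 ≤ B) (h : ∀ i, v (x i) ≤ B) :
    supNorm v x ≤ B := by
  rcases isEmpty_or_nonempty ι with hι | hι
  · simpa [supNorm, Real.iSup_of_isEmpty] using hB
  · exact ciSup_le h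

theorem exists_eq_supNorm [Nonempty ι] (x : ι → Qb) : ∃ i, v (x i) = supNorm v x :=
  exists_eq_ciSup_of_finite

theorem supNorm_eq_zero_iff {x : ι → Qb} : supNorm v x = 0 ↔ x = 0 := by
  refine ⟨fun h => funext fun i => ?_, fun h => ?_⟩
  · exact v.eq_zero.mp (le_antisymm ((le_supNorm v x i).trans h.le) (v.nonneg _))
  · exact le_antisymm (supNorm_le v le_rfl fun i => by simp [h]) (supNorm_nonneg v x)

theorem supNorm_pos {x : ι → Qb} (h : x ≠ 0) : 0 < supNorm v x :=
  (supNorm_nonneg v x).lt_of_ne fun e => h ((supNorm_eq_zero_iff v).mp e.symm)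

omit [Finite ι] in
theorem supNorm_smul (c : Qb) (x : ι → Qb) : supNorm v (c • x) = v c * supNorm v x := by
  simp only [supNorm, Pi.smul_apply, smul_eq_mul, map_mul]
  exact (Real.mul_iSup_of_nonneg (v.nonneg c) _).symm

theorem supNorm_pair (x : ι → Qb) (y : κ → Qb) :
    supNorm v (fun a : ι × κ => x a.1 * y a.2) = supNorm v x * supNorm v y :=
  Real.iSup_fun_mul_eq_iSup_mul_iSup_of_nonneg v x y

theorem supNorm_pi {α : Type*} [Fintype α] {μ : α → Type*} [∀ a, Finite (μ a)]
    (x : ∀ a, μ a → Qb) :
    supNorm v (fun I : (∀ a, μ a) => ∏ a, x a (I a)) = ∏ a, supNorm v (x a) := by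
  simp only [supNorm, map_prod]
  exact Real.iSup_prod_eq_prod_iSup_of_nonnegHomClass v

theorem supNorm_one_pair (t : Qb) : supNorm v ![1, t] = max 1 (v t) := by
  refine le_antisymm (supNorm_le v (by positivity) fun i => ?_) ?_
  · fin_cases i <;> simp
  · refine max_le ?_ ?_
    · simpa using le_supNorm v ![1, t] 0
    · simpa using le_supNorm v ![1, t] 1

end FLTAgent.MordellWeil
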