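import Fermat.Agent.MordellWeil.WeakMW
import Mathlib.GroupTheory.Descent

/-!
# Mordell–Weil for divisor class groups

`fg_of_fixed`: for a function field over the algebraic numbers with a continuous semilinear
Galois action, divisible class group and finite two-torsion, the classes fixed by Galois are
finitely generated.  Descent from weak Mordell–Weil and the quadratic height.
-/

set_option autoImplicit false

noncomputable section

open AlgebraicCurve FLTAgent.FFRiemannRoch FLTAgent.FFBasic NumberField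

namespace FLTAgent.MordellWeil

variable {F : Type*} [Field F] [Algebra Qb F] [IsFunctionField Qb F]
  (ρ : (Qb ≃ₐ[ℚ] Qb) →* SemilinearAut Qb F)

theorem fg_fixedClasses (hρ : ∀ σ a, SemilinearAut.baseAut (ρ σ) a = σ a)
    (hopen : FixedFunctions ρ) (hdiv : ∀ x : Pic0 Qb F, ∃ y, 2 • y = x)
    (hfin : {x : Pic0 Qb F | 2 • x = 0}.Finite)
    (L : IntermediateField ℚ Qb) [NumberField L] {E : Divisor Qb F}
    (hE : 4 * (genusFF Qb F : ℤ) + 2 ≤ Divisor.degree E) (O : Place Qb F)
    (hφ : ∀ σ ∈ L.fixingSubgroup, ∀ j, ρ σ • secBasis E j = secBasis E j)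
    (hgE : ∀ σ ∈ L.fixingSubgroup, ρ σ • E = E) (hgO : ∀ σ ∈ L.fixingSubgroup, ρ σ • O = O)
    (htor : ∀ x : Pic0 Qb F, 2 • x = 0 → x ∈ fixedClasses ρ L) :
    AddGroup.FG (fixedClasses ρ L) := by
  obtain ⟨C, hC⟩ := exists_qf_parallelogram hE O
  have hfinle : ∀ B : ℝ, {x : fixedClasses ρ L | qf E O x.1 ≤ B}.Finite := fun B =>
    (((finite_setOf_qf_le ρ hρ L hE O hφ hgE hgO B).preimage
      Subtype.val_injective.injOn)).subset fun x hx => ⟨x.2, hx⟩
  set C' : ℝ := ∑ x ∈ (hfinle 0).toFinset, |qf E O x.1| with hC'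
  set h : fixedClasses ρ L → ℝ := fun x => qf E O x.1 + C' with hh
  have : Northcott h :=
    ⟨fun {b} => (hfinle (b - C')).subset fun x (hx : h x ≤ b) => show qf E O x.1 ≤ b - C' by
      simp only [hh] at hx; linarith⟩
  refine AddCommGroup.fg_of_descent' (h := h) (C := C + 2 * |C'|) ?_ (fun x => ?_) fun x y => ?_
  · obtain ⟨S, hS, hSsub, hrep⟩ := exists_finite_mod_two ρ hρ hopen hdiv hfin L hE O hφ hgE hgO htor
    have := hS.to_subtype
    have hsurj : Function.Surjective fun s : S =>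
        (QuotientAddGroup.mk (⟨s.1, hSsub s.2⟩ : fixedClasses ρ L) :
          fixedClasses ρ L ⧸ (nsmulAddMonoidHom (α := fixedClasses ρ L) 2).range) := fun q => by
      obtain ⟨x, rfl⟩ := QuotientAddGroup.mk_surjective q
      obtain ⟨s, hs, w, hw, hx⟩ := hrep x.1 x.2
      refine ⟨⟨s, hs⟩, QuotientAddGroup.eq_iff_sub_mem.mpr ⟨-⟨w, hw⟩, Subtype.ext ?_⟩⟩
      simp [hx]
    have := Finite.of_surjective _ hsurj
    exact AddSubgroup.finiteIndex_of_finite_quotient
  · simp only [hh]
    by_cases hx : qf E O x.1 ≤ 0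
    · have := Finset.single_le_sum (f := fun y : fixedClasses ρ L => |qf E O y.1|)
        (fun y _ => abs_nonneg _) ((hfinle 0).mem_toFinset.mpr hx)
      have := neg_abs_le (qf E O x.1)
      linarith
    · have : 0 ≤ C' := Finset.sum_nonneg fun y _ => abs_nonneg _
      linarith
  · have h1 := abs_le.mp (hC x.1 y.1)
    simp only [hh, AddSubgroup.coe_add, AddSubgroup.coe_sub]
    have h2 := le_abs_self C'
    have h3 := neg_abs_le C'
    exact abs_le.mpr ⟨by linarith, by linarith⟩

/-- **Mordell–Weil**: the classes fixed by the whole Galois group form a finitely generated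
group. -/
theorem fg_of_fixed (hρ : ∀ σ a, SemilinearAut.baseAut (ρ σ) a = σ a)
    (hopen : FixedFunctions ρ) (hdiv : ∀ x : Pic0 Qb F, ∃ y, 2 • y = x)
    (hfin : {x : Pic0 Qb F | 2 • x = 0}.Finite)
    (K : AddSubgroup (Pic0 Qb F)) (hK : ∀ x ∈ K, ∀ σ, ρ σ • x = x) : AddGroup.FG K := by
  classical
  obtain ⟨O⟩ := (inferInstance : Nonempty (Place Qb F))
  set E : Divisor Qb F := Finsupp.single O ((4 * genusFF Qb F + 2 : ℕ) : ℤ) with hEdef
  have hE : 4 * (genusFF Qb F : ℤ) + 2 ≤ Divisor.degree E := by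
    rw [hEdef, Divisor.degree_single, deg_eq_one]
    push_cast
    linarith
  have := hfin.to_subtype
  obtain ⟨L1, hL1, f1⟩ := exists_field_fixing (fun (j : Fin (ell Qb F E)) σ =>
    ρ σ • secBasis E j = secBasis E j) fun j => hopen _
  obtain ⟨L2, hL2, f2⟩ := exists_field_fixing (fun (x : {x : Pic0 Qb F | 2 • x = 0}) σ =>
    ρ σ • x.1 = x.1) fun x => hopen.cls x.1
  obtain ⟨L3, hL3, f3⟩ := hopen.place O
  set L := L1 ⊔ L2 ⊔ L3 with hL
  have : FiniteDimensional ℚ L := inferInstance
  have : NumberField L := {}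
  have m1 : L.fixingSubgroup ≤ L1.fixingSubgroup :=
    IntermediateField.fixingSubgroup_antitone (le_sup_left.trans le_sup_left)
  have m2 : L.fixingSubgroup ≤ L2.fixingSubgroup :=
    IntermediateField.fixingSubgroup_antitone (le_sup_right.trans le_sup_left)
  have m3 : L.fixingSubgroup ≤ L3.fixingSubgroup :=
    IntermediateField.fixingSubgroup_antitone le_sup_right
  have := fg_fixedClasses ρ hρ hopen hdiv hfin L hE O (fun σ hσ j => f1 σ (m1 hσ) j)
    (fun σ hσ => by rw [hEdef, SemilinearAut.smul_single, f3 σ (m3 hσ)])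
    (fun σ hσ => f3 σ (m3 hσ)) (fun x hx σ hσ => f2 σ (m2 hσ) ⟨x, hx⟩)
  have : Module.Finite ℤ (fixedClasses ρ L) := Module.Finite.iff_addGroup_fg.mpr inferInstance
  have hle : K ≤ fixedClasses ρ L := fun x hx σ _ => hK x hx σ
  have : Module.Finite ℤ K := Module.Finite.of_injective
    (AddSubgroup.inclusion hle).toIntLinearMap (AddSubgroup.inclusion_injective hle)
  exact Module.Finite.iff_addGroup_fg.mp inferInstance

end FLTAgent.MordellWeil
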