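import Fermat.Agent.MordellWeil.Positivity

/-!
# The height on divisor classes

Reduced representatives `rep O x` of classes of degree zero and the height `qf E O x`, which
satisfies the parallelogram law up to a bounded error (`exists_qf_parallelogram`) and is
bounded below by the heights of the places of the representative (`exists_qf_lower_bound`).
-/

set_option autoImplicit false

noncomputable section

open AlgebraicCurve FLTAgent.FFRiemannRoch FLTAgent.FFBasic

namespace FLTAgent.MordellWeil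

variable {F : Type*} [Field F] [Algebra Qb F] [IsFunctionField Qb F]

/-- `D - n•O` lies in the class `x`. -/
def Represents (O : Place Qb F) (x : Pic0 Qb F) (n : ℕ) (D : Divisor Qb F) : Prop :=
  0 ≤ D ∧ Divisor.degree D = n ∧
    ∃ h : D - Finsupp.single O (n : ℤ) ∈ Divisor.degZero (K := Qb) (F := F),
      Pic0.mk ⟨_, h⟩ = x

theorem degree_sub_single {O : Place Qb F} {n : ℕ} {D : Divisor Qb F}
    (h : Divisor.degree D = n) :
    D - Finsupp.single O (n : ℤ) ∈ Divisor.degZero (K := Qb) (F := F) := by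
  rw [Divisor.mem_degZero, map_sub, h, Divisor.degree_single, deg_eq_one]
  simp

omit [IsFunctionField Qb F] in
theorem mk_eq_mk_of_sub_mem {X Y : Divisor.degZero (K := Qb) (F := F)}
    (h : (X : Divisor Qb F) - Y ∈ Divisor.principal (K := Qb) (F := F)) :
    Pic0.mk X = Pic0.mk Y :=
  QuotientAddGroup.eq_iff_sub_mem.mpr (by simpa [AddSubgroup.mem_addSubgroupOf] using h)

omit [IsFunctionField Qb F] in
theorem sub_mem_of_mk_eq {X Y : Divisor.degZero (K := Qb) (F := F)}
    (h : Pic0.mk X = Pic0.mk Y) :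
    (X : Divisor Qb F) - Y ∈ Divisor.principal (K := Qb) (F := F) := by
  simpa [AddSubgroup.mem_addSubgroupOf] using QuotientAddGroup.eq_iff_sub_mem.mp h

theorem exists_represents (O : Place Qb F) (x : Pic0 Qb F) :
    ∃ n, n ≤ genusFF Qb F ∧ ∃ D, Represents O x n D := by
  obtain ⟨⟨X, hX⟩, rfl⟩ := Pic0.mk_surjective x
  obtain ⟨D, hD, hdeg, hprin⟩ := exists_effective_sub_single O (Divisor.mem_degZero.mp hX)
  refine ⟨genusFF Qb F, le_rfl, D, hD, hdeg, degree_sub_single hdeg, mk_eq_mk_of_sub_mem ?_⟩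
  simpa using neg_mem hprin

open Classical in
/-- The degree of the reduced representative. -/
def rdeg (O : Place Qb F) (x : Pic0 Qb F) : ℕ :=
  Nat.find (p := fun n => ∃ D, Represents O x n D)
    ⟨_, (exists_represents O x).choose_spec.2⟩

theorem rdeg_spec (O : Place Qb F) (x : Pic0 Qb F) : ∃ D, Represents O x (rdeg O x) D := by
  classical
  exact Nat.find_spec (p := fun n => ∃ D, Represents O x n D) _

theorem rdeg_le_of_represents {O : Place Qb F} {x : Pic0 Qb F} {n : ℕ} {D : Divisor Qb F}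
    (h : Represents O x n D) : rdeg O x ≤ n := by
  classical
  exact Nat.find_min' _ ⟨D, h⟩

theorem rdeg_le_genus (O : Place Qb F) (x : Pic0 Qb F) : rdeg O x ≤ genusFF Qb F := by
  obtain ⟨n, hn, D, hD⟩ := exists_represents O x
  exact (rdeg_le_of_represents hD).trans hn

/-- The reduced representative. -/
def rdiv (O : Place Qb F) (x : Pic0 Qb F) : Divisor Qb F := (rdeg_spec O x).choose

theorem rdiv_spec (O : Place Qb F) (x : Pic0 Qb F) : Represents O x (rdeg O x) (rdiv O x) :=
  (rdeg_spec O x).choose_spec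

theorem ell_rdiv_sub_single (O : Place Qb F) (x : Pic0 Qb F) :
    ell Qb F (rdiv O x - Finsupp.single O 1) = 0 := by
  by_contra hne
  obtain ⟨f, hf, hf0⟩ := exists_ne_zero_of_ell_pos (Nat.pos_of_ne_zero hne)
  obtain ⟨hD, hdeg, hcl⟩ := rdiv_spec O x
  have heff := (mem_riemannRochSpace_iff_divOf hf0).mp hf
  have hdeg' : Divisor.degree (divOf f + (rdiv O x - Finsupp.single O 1))
      = (rdeg O x : ℤ) - 1 := by
    rw [map_add, degree_divOf, map_sub, hdeg, Divisor.degree_single, deg_eq_one]
    simp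
  have hpos : 1 ≤ rdeg O x := by
    have := degree_nonneg heff
    omega
  have hrep : Represents O x (rdeg O x - 1) (divOf f + (rdiv O x - Finsupp.single O 1)) := by
    have hd : Divisor.degree (divOf f + (rdiv O x - Finsupp.single O 1))
        = ((rdeg O x - 1 : ℕ) : ℤ) := by rw [hdeg']; omega
    obtain ⟨hmem, hx⟩ := hcl
    refine ⟨heff, hd, degree_sub_single hd, (mk_eq_mk_of_sub_mem ?_).trans hx⟩
    simp only
    rw [show divOf f + (rdiv O x - Finsupp.single O 1)
          - Finsupp.single O (((rdeg O x - 1 : ℕ) : ℤ))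
          - (rdiv O x - Finsupp.single O (rdeg O x : ℤ)) = divOf f by
      rw [Nat.cast_sub hpos, Nat.cast_one, Finsupp.single_sub]; abel]
    exact divOf_mem_principal hf0
  have := rdeg_le_of_represents hrep
  omega

theorem ell_rdiv (O : Place Qb F) (x : Pic0 Qb F) : ell Qb F (rdiv O x) = 1 := by
  have h0 := ell_rdiv_sub_single O x
  have hle := degree_sub_ell_mono
    (sub_le_self (rdiv O x) (single_nonneg O zero_le_one) : rdiv O x - Finsupp.single O 1 ≤ _)
  rw [map_sub, Divisor.degree_single, deg_eq_one] at hle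
  have hpos : 0 < ell Qb F (rdiv O x) :=
    ell_pos_iff.mpr ⟨1, one_ne_zero, fun Q => by
      simpa [divOf_apply] using (rdiv_spec O x).1 Q⟩
  omega

theorem rdiv_apply_base (O : Place Qb F) (x : Pic0 Qb F) : rdiv O x O = 0 := by
  by_contra hne
  have h := (rdiv_spec O x).1
  refine (ell_pos_iff.mpr ⟨1, one_ne_zero, fun Q => ?_⟩).ne' (ell_rdiv_sub_single O x)
  have hQ : 0 ≤ rdiv O x Q := h Q
  rcases eq_or_ne Q O with rfl | hQO
  · have : 1 ≤ rdiv Q x Q := by omega
    simpa [divOf_apply] using this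
  · simpa [divOf_apply, hQO] using hQ

theorem eq_of_effective_equiv {D D' : Divisor Qb F} (hD : 0 ≤ D) (hell : ell Qb F D = 1)
    (hD' : 0 ≤ D') (h : D' - D ∈ Divisor.principal (K := Qb) (F := F)) : D' = D := by
  obtain ⟨f, hf, hfD⟩ := h
  have hdiv : divOf f + D = D' := Finsupp.ext fun Q => by
    rw [Finsupp.add_apply, divOf_apply, ← hfD Q, Finsupp.sub_apply]; ring
  have hfL : f ∈ riemannRochSpace D := (mem_riemannRochSpace_iff_divOf hf).mpr (hdiv ▸ hD')
  have h1L : (1 : F) ∈ riemannRochSpace D :=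
    (mem_riemannRochSpace_iff_divOf one_ne_zero).mpr fun Q => by
      simpa [divOf_apply] using hD Q
  obtain ⟨c, hc⟩ := (finrank_eq_one_iff_of_nonzero' (⟨1, h1L⟩ : riemannRochSpace D)
    (fun e => one_ne_zero (congrArg Subtype.val e))).mp hell ⟨f, hfL⟩
  have hfc : f = algebraMap Qb F c := by
    have := congrArg Subtype.val hc
    simpa [Algebra.smul_def] using this.symm
  rw [← hdiv]
  refine Finsupp.ext fun Q => ?_
  rw [Finsupp.add_apply, divOf_apply, hfc, FFBasic.ord_algebraMap, zero_add]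

/-- The divisor of degree zero attached to a class. -/
def rep (O : Place Qb F) (x : Pic0 Qb F) : Divisor Qb F :=
  rdiv O x - Finsupp.single O (rdeg O x : ℤ)

theorem exists_mk_rep (O : Place Qb F) (x : Pic0 Qb F) :
    ∃ h : rep O x ∈ Divisor.degZero (K := Qb) (F := F), Pic0.mk ⟨_, h⟩ = x :=
  (rdiv_spec O x).2.2

theorem degree_rep (O : Place Qb F) (x : Pic0 Qb F) : Divisor.degree (rep O x) = 0 :=
  (exists_mk_rep O x).choose

theorem normD_rep (O : Place Qb F) (x : Pic0 Qb F) :
    normD (rep O x) ≤ 2 * (genusFF Qb F : ℤ) := by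
  obtain ⟨hD, hdeg, -⟩ := rdiv_spec O x
  have h := normD_sub_le (rdiv O x) (Finsupp.single O (rdeg O x : ℤ))
  rw [normD_eq_degree hD, hdeg, normD_single, abs_of_nonneg (Int.natCast_nonneg _)] at h
  have := rdeg_le_genus O x
  rw [rep]
  omega

theorem rep_add_sub_mem (O : Place Qb F) (x y : Pic0 Qb F) :
    rep O (x + y) - (rep O x + rep O y) ∈ Divisor.principal (K := Qb) (F := F) ∧
      rep O (x - y) - (rep O x - rep O y) ∈ Divisor.principal (K := Qb) (F := F) := by
  obtain ⟨hx, ex⟩ := exists_mk_rep O x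
  obtain ⟨hy, ey⟩ := exists_mk_rep O y
  obtain ⟨hs, es⟩ := exists_mk_rep O (x + y)
  obtain ⟨hd, ed⟩ := exists_mk_rep O (x - y)
  constructor
  · have := sub_mem_of_mk_eq (X := ⟨_, hs⟩) (Y := ⟨_, hx⟩ + ⟨_, hy⟩)
      (by rw [es, Pic0.mk_add, ex, ey])
    simpa using this
  · have := sub_mem_of_mk_eq (X := ⟨_, hd⟩) (Y := ⟨_, hx⟩ - ⟨_, hy⟩)
      (by rw [ed]; conv_lhs => rw [← ex, ← ey]
          exact (QuotientAddGroup.mk_sub _ _ _).symm)
    simpa using this

/-- The quadratic height. -/
def qf (E : Divisor Qb F) (O : Place Qb F) (x : Pic0 Qb F) : ℝ :=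
  pairing E (rep O x) (rep O x)

theorem exists_qf_parallelogram {E : Divisor Qb F}
    (hE : 4 * (genusFF Qb F : ℤ) + 2 ≤ Divisor.degree E) (O : Place Qb F) :
    ∃ C : ℝ, ∀ x y, |qf E O (x + y) + qf E O (x - y) - 2 * (qf E O x + qf E O y)| ≤ C := by
  obtain ⟨C, hC⟩ := exists_pairing_self_bound hE (4 * genusFF Qb F)
  refine ⟨2 * C, fun x y => ?_⟩
  obtain ⟨hs, hd⟩ := rep_add_sub_mem O x y
  have hx := normD_rep O x
  have hy := normD_rep O y
  have hxy := normD_rep O (x + y)
  have hxy' := normD_rep O (x - y)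
  have h1 := hC _ _ (degree_rep O (x + y)) (by rw [map_add, degree_rep, degree_rep, add_zero])
    (by push_cast; omega)
    (by push_cast; exact (normD_add_le _ _).trans (by omega)) hs
  have h2 := hC _ _ (degree_rep O (x - y)) (by rw [map_sub, degree_rep, degree_rep, sub_zero])
    (by push_cast; omega)
    (by push_cast; exact (normD_sub_le _ _).trans (by omega)) hd
  have key : pairing E (rep O x + rep O y) (rep O x + rep O y)
      + pairing E (rep O x - rep O y) (rep O x - rep O y)
      = 2 * (pairing E (rep O x) (rep O x) + pairing E (rep O y) (rep O y)) := by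
    simp only [map_add, map_sub, AddMonoidHom.add_apply, AddMonoidHom.sub_apply]
    ring
  simp only [qf] at *
  rw [← key]
  have ha := abs_le.mp h1
  have hb := abs_le.mp h2
  exact abs_le.mpr ⟨by linarith, by linarith⟩

theorem exists_qf_lower_bound {E : Divisor Qb F}
    (hE : 4 * (genusFF Qb F : ℤ) + 2 ≤ Divisor.degree E) (O : Place Qb F) :
    ∃ (N : ℕ) (C : ℝ), 0 < N ∧ ∀ x, ∃ P : Fin (rdeg O x) → Place Qb F,
      rdiv O x = ∑ i, Finsupp.single (P i) 1 ∧ ∑ i, hD E (P i) ≤ N * qf E O x + C := by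
  obtain ⟨N, C, hN, h⟩ := exists_pairing_ge hE O
  refine ⟨N, C, hN, fun x => ?_⟩
  obtain ⟨hD, hdeg, -⟩ := rdiv_spec O x
  obtain ⟨P, hP⟩ := exists_places_eq (rdeg O x) hD hdeg
  refine ⟨P, hP, ?_⟩
  have hPO : ∀ i, P i ≠ O := fun i hi => by
    have h0 := rdiv_apply_base O x
    rw [hP, sum_incid_eq] at h0
    have := Finset.single_le_sum (f := fun j => incid (P j) O)
      (fun j _ => by unfold incid; split_ifs <;> omega) (Finset.mem_univ i)
    simp only [hi, incid_self] at this
    omega
  have := h _ (rdeg_le_genus O x) P hPO (by rw [← hP]; exact ell_rdiv O x)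
  rwa [← hP] at this

end FLTAgent.MordellWeil
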