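import Fermat.Agent.MordellWeil.Point
import Mathlib.RingTheory.Valuation.LocalSubring
import Mathlib.RingTheory.MvPolynomial.Homogeneous
import Mathlib.RingTheory.Polynomial.Basic

/-!
# The projective model of a function field

The model given by a very ample divisor `E`: forms representing the bases of its multiples
(`exists_formPoly`), generators of the equations (`exists_curve_generators`), and every nonzero
common zero is the image of a place (`exists_place_of_common_zero`).
-/

set_option autoImplicit false

noncomputable section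

open AlgebraicCurve FLTAgent.FFRiemannRoch FLTAgent.FFBasic MvPolynomial

namespace FLTAgent.MordellWeil

variable {K F : Type*} [Field K] [Field F] [Algebra K F] [IsAlgClosed K] [IsFunctionField K F]

omit [IsAlgClosed K] [IsFunctionField K F] in
theorem nsmul_mem_space {E : Divisor K F} {k : ℕ} (f : Fin k → F)
    (hf : ∀ i, f i ∈ riemannRochSpace E) : ∏ i, f i ∈ riemannRochSpace (k • E) := by
  induction k with
  | zero =>
    simp only [Finset.univ_eq_empty, Finset.prod_empty, zero_smul]
    rw [mem_riemannRochSpace_iff]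
    intro v; right; simp
  | succ k ih =>
    rw [Fin.prod_univ_castSucc, succ_nsmul]
    exact mul_mem_riemannRochSpace (ih _ fun i => hf i.castSucc) (hf _)

theorem evAt_monomial (E : Divisor K F) {k : ℕ} (s : Fin k → Fin (ell K F E)) (P : Place K F) :
    evAt (k • E) P (∏ i, secBasis E (s i)) = ∏ i, evVec E P (s i) := by
  have h := evAt_prod Finset.univ (fun _ : Fin k => E) (fun i => secBasis E (s i))
    (fun i _ => secBasis_mem E (s i)) P
  simpa [evVec] using h

omit [IsAlgClosed K] in
theorem pow_space_le_span (E : Divisor K F) (k : ℕ) :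
    riemannRochSpace E ^ (k + 1) ≤ Submodule.span K
      (Set.range fun s : Fin (k + 1) → Fin (ell K F E) => ∏ i, secBasis E (s i)) := by
  induction k with
  | zero =>
    intro f hf
    rw [pow_one] at hf
    obtain ⟨t, rfl⟩ := exists_eq_sum_secBasis hf
    exact sum_mem fun i _ => Submodule.smul_mem _ _ (Submodule.subset_span ⟨fun _ => i, by simp⟩)
  | succ k ih =>
    rw [pow_succ]
    refine Submodule.mul_le.mpr fun a ha b hb => ?_
    obtain ⟨t, rfl⟩ := exists_eq_sum_secBasis hb
    rw [Finset.mul_sum]
    refine sum_mem fun j _ => ?_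
    rw [mul_smul_comm]
    refine Submodule.smul_mem _ _ ?_
    have hmap : a * secBasis E j ∈ Submodule.map (LinearMap.mulRight K (secBasis E j))
        (Submodule.span K (Set.range fun s : Fin (k + 1) → Fin (ell K F E) =>
          ∏ i, secBasis E (s i))) := ⟨a, ih ha, rfl⟩
    rw [Submodule.map_span] at hmap
    refine Submodule.span_mono ?_ hmap
    rintro _ ⟨_, ⟨s, rfl⟩, rfl⟩
    exact ⟨Fin.snoc s j, by simp [Fin.prod_univ_castSucc]⟩

/-- Sections of positive multiples are spanned by monomials in the sections of `E`. -/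
theorem space_le_span_monomials {E : Divisor K F}
    (hE : 4 * (genusFF K F : ℤ) + 2 ≤ Divisor.degree E) (k : ℕ) :
    riemannRochSpace ((k + 1) • E) ≤ Submodule.span K
      (Set.range fun s : Fin (k + 1) → Fin (ell K F E) => ∏ i, secBasis E (s i)) := by
  suffices riemannRochSpace ((k + 1) • E) ≤ riemannRochSpace E ^ (k + 1) from
    this.trans (pow_space_le_span E k)
  obtain ⟨P₀⟩ := (inferInstance : Nonempty (Place K F))
  set E1 : Divisor K F := Finsupp.single P₀ (2 * (genusFF K F : ℤ)) with hE1
  have hd1 : Divisor.degree E1 = 2 * (genusFF K F : ℤ) := by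
    rw [hE1, Divisor.degree_single, deg_eq_one, Nat.cast_one, mul_one]
  have hstep : riemannRochSpace (E + E) ≤ riemannRochSpace E ^ 2 := by
    have h1 : riemannRochSpace E * riemannRochSpace E1 = riemannRochSpace (E + E1) :=
      span_mul_eq (by omega) (by omega)
    have h2 : riemannRochSpace (E + E1) * riemannRochSpace (E - E1)
        = riemannRochSpace (E + E1 + (E - E1)) :=
      span_mul_eq (by rw [map_sub]; omega) (by rw [map_sub, map_add]; omega)
    rw [show E + E = E + E1 + (E - E1) by abel, ← h2, ← h1, mul_assoc, pow_two]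
    refine mul_le_mul_right (Submodule.mul_le.mpr fun a ha b hb => ?_) _
    have := mul_mem_riemannRochSpace ha hb
    rwa [show E1 + (E - E1) = E by abel] at this
  induction k with
  | zero => simp
  | succ k ih =>
    rcases Nat.eq_zero_or_pos k with rfl | hk
    · simpa [two_nsmul] using hstep
    · rw [succ_nsmul, pow_succ]
      have hdeg : Divisor.degree ((k + 1) • E) = ((k + 1 : ℕ) : ℤ) * Divisor.degree E := by
        rw [map_nsmul, nsmul_eq_mul]
      have : 2 * Divisor.degree E ≤ ((k + 1 : ℕ) : ℤ) * Divisor.degree E :=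
        mul_le_mul_of_nonneg_right (by omega) (by omega)
      rw [← span_mul_eq (D := (k + 1) • E) (E := E) (by omega) (by rw [hdeg]; omega)]
      exact mul_le_mul_left ih _

/-- Forms representing the fixed bases of the multiples of `E`. -/
theorem exists_formPoly {E : Divisor K F}
    (hE : 4 * (genusFF K F : ℤ) + 2 ≤ Divisor.degree E) {k : ℕ} (hk : 1 ≤ k) :
    ∃ f : Fin (ell K F (k • E)) → MvPolynomial (Fin (ell K F E)) K,
      ∀ (P : Place K F) (c : K) (j : Fin (ell K F (k • E))),
        eval (c • evVec E P) (f j) = c ^ k * evVec (k • E) P j := by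
  classical
  obtain ⟨k, rfl⟩ : ∃ l, k = l + 1 := ⟨k - 1, by omega⟩
  choose t ht using fun j => (Submodule.mem_span_range_iff_exists_fun K).mp
    (space_le_span_monomials hE k (secBasis_mem ((k + 1) • E) j))
  refine ⟨fun j => ∑ s, C (t j s) * ∏ i, X (s i), fun P c j => ?_⟩
  conv_rhs => rw [evVec, ← ht j]
  simp [evAt_monomial, Finset.prod_mul_distrib, Finset.mul_sum, mul_left_comm]

/-! ### The equations of the curve -/

/-- `X j ↦ φ j • T`. -/
def curveHom (E : Divisor K F) : MvPolynomial (Fin (ell K F E)) K →ₐ[K] Polynomial F :=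
  aeval fun j => Polynomial.C (secBasis E j) * Polynomial.X

omit [IsAlgClosed K] in
theorem curveHom_monomial (E : Divisor K F) (s : Fin (ell K F E) →₀ ℕ) (a : K) :
    curveHom E (monomial s a)
      = Polynomial.C (algebraMap K F a * ∏ j, secBasis E j ^ s j) * Polynomial.X ^ (∑ j, s j) := by
  rw [curveHom, aeval_monomial, Finsupp.prod_fintype _ _ (fun _ => pow_zero _)]
  simp only [mul_pow, Finset.prod_mul_distrib, ← Polynomial.C_pow, ← map_prod,
    Finset.prod_pow_eq_pow_sum, Polynomial.algebraMap_apply]
  rw [← mul_assoc, ← map_mul]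

omit [IsAlgClosed K] in
theorem coeff_curveHom (E : Divisor K F) (p : MvPolynomial (Fin (ell K F E)) K) (n : ℕ) :
    (curveHom E p).coeff n = ∑ s ∈ p.support.filter (fun s => ∑ j, s j = n),
      algebraMap K F (p.coeff s) * ∏ j, secBasis E j ^ s j := by
  conv_lhs => rw [p.as_sum]
  rw [map_sum, Polynomial.finsetSum_coeff, Finset.sum_filter]
  refine Finset.sum_congr rfl fun s _ => ?_
  rw [curveHom_monomial, Polynomial.coeff_C_mul_X_pow]
  simp only [eq_comm]

theorem eval_eq_zero_of_curveHom_eq_zero (E : Divisor K F)
    {p : MvPolynomial (Fin (ell K F E)) K} (hp : curveHom E p = 0) (P : Place K F) (c : K) :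
    eval (c • evVec E P) p = 0 := by
  classical
  rw [eval_eq', ← Finset.sum_fiberwise_of_maps_to
    (fun s hs => Finset.mem_image_of_mem (fun s : Fin (ell K F E) →₀ ℕ => ∑ j, s j) hs)]
  refine Finset.sum_eq_zero fun n _ => ?_
  have h := congrArg (coefAt P ((n : ℤ) * -E P)) (coeff_curveHom E p n)
  rw [hp, Polynomial.coeff_zero, map_zero, map_sum] at h
  calc ∑ s ∈ p.support.filter (fun s => ∑ j, s j = n),
        p.coeff s * ∏ j, (c • evVec E P) j ^ s j
      = c ^ n * ∑ s ∈ p.support.filter (fun s => ∑ j, s j = n),
          p.coeff s * ∏ j, evVec E P j ^ s j := by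
        rw [Finset.mul_sum]
        refine Finset.sum_congr rfl fun s hs => ?_
        rw [← (Finset.mem_filter.mp hs).2, ← Finset.prod_pow_eq_pow_sum]
        simp only [Pi.smul_apply, smul_eq_mul, mul_pow, Finset.prod_mul_distrib]
        ring
    _ = 0 := by
        rw [show (∑ s ∈ p.support.filter (fun s => ∑ j, s j = n),
          p.coeff s * ∏ j, evVec E P j ^ s j) = 0 from ?_, mul_zero]
        rw [h]
        refine Finset.sum_congr rfl fun s hs => ?_
        rw [← Algebra.smul_def, map_smul, smul_eq_mul]
        congr 1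
        have hsum : (n : ℤ) * -E P = ∑ j, (s j : ℤ) * -E P := by
          rw [← Finset.sum_mul, ← Nat.cast_sum, (Finset.mem_filter.mp hs).2]
        have hpow : ∀ j, coefAt P ((s j : ℤ) * -E P) (secBasis E j ^ s j)
            = evVec E P j ^ s j := fun j => by
          have h2 := coefAt_prod (Finset.range (s j)) (P := P) (fun _ => -E P)
            (fun _ => secBasis E j) fun i _ => mem_filt_of_mem_space (secBasis_mem E j) P
          simpa [evVec, evAt] using h2
        rw [hsum, coefAt_prod Finset.univ _ _ fun j _ =>
          pow_mem_filt (mem_filt_of_mem_space (secBasis_mem E j) P) (s j)]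
        exact (Finset.prod_congr rfl fun j _ => (hpow j).symm)

omit [IsAlgClosed K] in
theorem exists_curve_generators (E : Divisor K F) :
    ∃ (N : ℕ) (p : Fin N → MvPolynomial (Fin (ell K F E)) K),
      Ideal.span (Set.range p) = RingHom.ker (curveHom E).toRingHom :=
  Submodule.fg_iff_exists_fin_generating_family.mp (IsNoetherian.noetherian _)

omit [IsAlgClosed K] in
theorem exists_homogenisation (E : Divisor K F) (k : Fin (ell K F E))
    (hk : secBasis E k ≠ 0) (f : MvPolynomial (Fin (ell K F E)) K)
    (hf : aeval (fun j => secBasis E j / secBasis E k) f = 0) :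
    ∃ (h : MvPolynomial (Fin (ell K F E)) K) (n : ℕ), curveHom E h = 0 ∧
      ∀ z : Fin (ell K F E) → K, z k ≠ 0 → eval z h = z k ^ n * eval (fun j => z j / z k) f := by
  classical
  set n := f.totalDegree with hn
  have hle : ∀ s ∈ f.support, ∑ j, s j ≤ n := fun s hs => by
    have := le_totalDegree hs
    rwa [Finsupp.sum_fintype _ _ (fun _ => rfl)] at this
  refine ⟨∑ s ∈ f.support, monomial (s + Finsupp.single k (n - ∑ j, s j)) (f.coeff s), n,
    ?_, fun z hz => ?_⟩
  · have hdeg : ∀ s ∈ f.support, ∑ j, (s + Finsupp.single k (n - ∑ j, s j)) j = n := by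
      intro s hs
      simp only [Finsupp.add_apply, Finset.sum_add_distrib]
      rw [Finsupp.univ_sum_single_apply k]
      have := hle s hs
      omega
    calc curveHom E _ = ∑ s ∈ f.support,
          Polynomial.C (secBasis E k ^ n * (algebraMap K F (f.coeff s) *
            ∏ j, (secBasis E j / secBasis E k) ^ s j)) * Polynomial.X ^ n := by
          rw [map_sum]
          refine Finset.sum_congr rfl fun s hs => ?_
          rw [curveHom_monomial, hdeg s hs]
          congr 2
          simp only [Finsupp.add_apply, pow_add, Finset.prod_mul_distrib, div_pow,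
            Finset.prod_div_distrib, Finset.prod_pow_eq_pow_sum]
          rw [Finset.prod_eq_single (f := fun j => secBasis E j ^
              (Finsupp.single k (n - ∑ j, s j)) j) k (fun j _ hj => by simp [hj]) (by simp),
            Finsupp.single_eq_same]
          have hpow : secBasis E k ^ n
              = secBasis E k ^ (∑ j, s j) * secBasis E k ^ (n - ∑ j, s j) := by
            rw [← pow_add, Nat.add_sub_cancel' (hle s hs)]
          rw [hpow]
          field_simp
      _ = 0 := by
          rw [← Finset.sum_mul, ← map_sum, ← Finset.mul_sum]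
          rw [aeval_def, eval₂_eq'] at hf
          simp [hf]
  · rw [map_sum, eval_eq', Finset.mul_sum]
    refine Finset.sum_congr rfl fun s hs => ?_
    rw [eval_monomial, Finsupp.prod_fintype _ _ (fun _ => pow_zero _)]
    simp only [Finsupp.add_apply, pow_add, Finset.prod_mul_distrib, div_pow,
      Finset.prod_div_distrib, Finset.prod_pow_eq_pow_sum]
    rw [Finset.prod_eq_single (f := fun j => z j ^
        (Finsupp.single k (n - ∑ j, s j)) j) k (fun j _ hj => by simp [hj]) (by simp),
      Finsupp.single_eq_same]
    have hpow : z k ^ n = z k ^ (∑ j, s j) * z k ^ (n - ∑ j, s j) := by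
      rw [← pow_add, Nat.add_sub_cancel' (hle s hs)]
    rw [hpow]
    field_simp

/-- Every nonzero common zero of the equations is a multiple of the image of a place. -/
theorem exists_place_of_common_zero {E : Divisor K F}
    (hE : 4 * (genusFF K F : ℤ) + 2 ≤ Divisor.degree E) {z : Fin (ell K F E) → K} (hz : z ≠ 0)
    (h : ∀ p, curveHom E p = 0 → eval z p = 0) :
    ∃ (P : Place K F) (c : K), c ≠ 0 ∧ z = c • evVec E P := by
  classical
  obtain ⟨k, hk⟩ := Function.ne_iff.mp hz
  simp only [Pi.zero_apply] at hk
  have hφ : ∀ j, secBasis E j ≠ 0 := fun j => (linearIndependent_secBasis E).ne_zero j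
  set φ := fun j => secBasis E j / secBasis E k with hφdef
  set R : Subalgebra K F := (aeval φ : MvPolynomial (Fin (ell K F E)) K →ₐ[K] F).range with hR
  have hker : RingHom.ker (aeval φ).toRingHom
      ≤ RingHom.ker (eval fun j => z j / z k : MvPolynomial (Fin (ell K F E)) K →+* K) := by
    intro f hf
    obtain ⟨p, n, hp, hev⟩ := exists_homogenisation E k (hφ k) f hf
    have h2 := h p hp
    rw [hev z hk, mul_eq_zero, or_iff_right (pow_ne_zero n hk)] at h2
    exact h2
  set M : Ideal (MvPolynomial (Fin (ell K F E)) K) :=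
    RingHom.ker (eval fun j => z j / z k : MvPolynomial (Fin (ell K F E)) K →+* K) with hM
  have : M.IsPrime := RingHom.ker_isPrime _
  let π : MvPolynomial (Fin (ell K F E)) K →+* R.toSubring :=
    (aeval φ).toRingHom.codRestrict R.toSubring fun f => ⟨f, rfl⟩
  have hπ : Function.Surjective π := fun ⟨_, f, hf⟩ => ⟨f, Subtype.ext hf⟩
  have hkerπ : RingHom.ker π ≤ M := fun f hf => hker (congrArg Subtype.val hf)
  have hP : (M.map π).IsPrime := Ideal.map_isPrime_of_surjective hπ hkerπ
  obtain ⟨A, hA⟩ := LocalSubring.exists_le_valuationSubring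
    (LocalSubring.ofPrime R.toSubring (M.map π))
  have hRA : ∀ f, aeval φ f ∈ A := fun f =>
    hA.1 (LocalSubring.le_ofPrime R.toSubring (M.map π) ⟨f, rfl⟩)
  have hnu : ∀ f ∈ M, aeval φ f ∈ A.nonunits := by
    intro f hf
    have hmem : aeval φ f ∈ (LocalSubring.ofPrime R.toSubring (M.map π)).toSubring :=
      LocalSubring.le_ofPrime R.toSubring (M.map π) ⟨f, rfl⟩
    change ((⟨_, hRA f⟩ : A) : F) ∈ A.nonunits
    rw [ValuationSubring.coe_mem_nonunits_iff, IsLocalRing.mem_maximalIdeal, mem_nonunits_iff]
    intro hu
    have : IsLocalHom (Subring.inclusion hA.1) := hA.2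
    have h1 : IsUnit (⟨_, hmem⟩ : (LocalSubring.ofPrime R.toSubring (M.map π)).toSubring) :=
      (isUnit_map_iff (Subring.inclusion hA.1) _).mp hu
    have h2 := (IsLocalization.AtPrime.isUnit_to_map_iff
      (LocalSubring.ofPrime R.toSubring (M.map π)).toSubring (M.map π) (π f)).mp h1
    exact h2 (Ideal.mem_map_of_mem π hf)
  have hK : ∀ a : K, algebraMap K F a ∈ A := fun a => by simpa using hRA (C a)
  have hnc : ∃ j, φ j - algebraMap K F (z j / z k) ≠ 0 := by
    by_contra! hall
    have hr : 2 ≤ ell K F E := by
      have := ell_ge (K := K) (F := F) E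
      omega
    obtain ⟨j, hj⟩ : ∃ j : Fin (ell K F E), j ≠ k :=
      Fintype.exists_ne_of_one_lt_card (by simp; omega) k
    have h0 := sub_eq_zero.mp (hall j)
    simp only [hφdef] at h0
    rw [div_eq_iff (hφ k), ← Algebra.smul_def] at h0
    have hpair : LinearIndependent K ![secBasis E j, secBasis E k] := by
      have := (linearIndependent_secBasis E).comp ![j, k] (by
        intro a b hab; fin_cases a <;> fin_cases b <;> simp [hj, hj.symm] at hab ⊢)
      convert this using 1
      funext a; fin_cases a <;> rfl
    have := LinearIndependent.pair_iff.mp hpair (-1) (z j / z k) (by rw [← h0]; simp)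
    simp at this
  obtain ⟨j₀, hj₀⟩ := hnc
  have hcoord : ∀ j, φ j - algebraMap K F (z j / z k) ∈ A.nonunits := fun j => by
    have := hnu (X j - C (z j / z k)) (by simp [hM, RingHom.mem_ker])
    simpa using this
  have hne : A ≠ ⊤ := by
    intro htop
    refine (A.mem_nonunits_iff_or.mp (hcoord j₀)).resolve_left hj₀ ?_
    rw [htop]; trivial
  set P := placeOfValuationSubring A hK hne with hPdef
  have hordk : P.ord (secBasis E k) = -E P := by
    obtain ⟨j, hj⟩ : ∃ j, evVec E P j ≠ 0 := Function.ne_iff.mp (evVec_ne_zero (by omega) P)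
    have hjord := ((coefAt_ne_zero_iff_ord_eq (mem_filt_of_mem_space (secBasis_mem E j) P)).mp hj).2
    have hge := le_ord_of_mem_filt (mem_filt_of_mem_space (secBasis_mem E k) P) (hφ k)
    have hAj : 0 ≤ P.ord (φ j) := by
      refine ord_nonneg_of_mem P ?_
      rw [hPdef, placeOfValuationSubring_toValuationSubring]
      simpa using hRA (X j)
    simp only [hφdef] at hAj
    rw [div_eq_mul_inv, P.ord_mul (hφ j) (inv_ne_zero (hφ k)), P.ord_inv] at hAj
    omega
  have hk0 : evVec E P k ≠ 0 := by
    rw [evVec, evAt, ← hordk]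
    exact coefAt_ord_ne_zero P (hφ k)
  refine ⟨P, z k / evVec E P k, div_ne_zero hk hk0, funext fun j => ?_⟩
  have hfilt : φ j - algebraMap K F (z j / z k) ∈ filt P 1 := by
    rcases eq_or_ne (φ j - algebraMap K F (z j / z k)) 0 with h0 | h0
    · rw [h0]; exact zero_mem _
    · refine mem_filt_of_le ?_
      have hmem : φ j - algebraMap K F (z j / z k) ∈ P.toValuationSubring := by
        rw [hPdef, placeOfValuationSubring_toValuationSubring]
        exact A.nonunits_subset (hcoord j)
      have h0' := ord_nonneg_of_mem P hmem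
      by_contra hlt
      have hzero : P.ord (φ j - algebraMap K F (z j / z k)) = 0 := by omega
      refine (A.mem_nonunits_iff_or.mp (hcoord j)).resolve_left h0 ?_
      have := mem_of_ord_nonneg P (f := (φ j - algebraMap K F (z j / z k))⁻¹)
        (by rw [P.ord_inv, hzero]; omega)
      rwa [hPdef, placeOfValuationSubring_toValuationSubring] at this
  have hmul := mul_mem_filt hfilt (mem_filt_of_mem_space (secBasis_mem E k) P)
  have h0 := coefAt_eq_zero_of_mem_filt hmul (m := -E P) (by omega)
  simp only [hφdef] at h0
  rw [sub_mul, div_mul_cancel₀ _ (hφ k), ← Algebra.smul_def, map_sub, map_smul,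
    smul_eq_mul, sub_eq_zero] at h0
  simp only [Pi.smul_apply, smul_eq_mul]
  change z j = z k / evVec E P k * coefAt P (-E P) (secBasis E j)
  rw [h0]
  change z j = z k / evVec E P k * (z j / z k * evVec E P k)
  field_simp

end FLTAgent.MordellWeil
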