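import Fermat.Agent.MordellWeil.ClassHeight
import Fermat.Prelude.Def_AlgebraicCurve_BaseChangeGalois
import Fermat.Agent.Density.Frobenius
import Mathlib.FieldTheory.Galois.Infinite
import Mathlib.NumberTheory.Height.Northcott

/-!
# Northcott property

`finite_setOf_qf_le`: there are only finitely many classes fixed by an open subgroup with
bounded height `qf`, from Northcott for tuples (`finite_of_hgt_le`) and the coordinate ratios of
the places of a reduced representative.
-/

set_option autoImplicit false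

noncomputable section

open AlgebraicCurve FLTAgent.FFRiemannRoch FLTAgent.FFBasic NumberField

namespace FLTAgent.MordellWeil

section Algebraic

theorem finite_of_hgt_le (L : IntermediateField ℚ Qb) [NumberField L] (B : ℝ) :
    {c : Qb | c ∈ L ∧ hgt ![1, c] ≤ B}.Finite := by
  refine ((finite_setOfPred_logHeight₁_le L
    (B * Module.finrank ℚ L)).image (algebraMap L Qb)).subset ?_
  rintro c ⟨hcL, hc⟩
  refine ⟨⟨c, hcL⟩, ?_, rfl⟩
  have h1 : hgt ![1, c] = hgt (algebraMap L Qb ∘ ![(⟨c, hcL⟩ : L), 1]) := by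
    rw [← hgt_comp_equiv (Equiv.swap (0 : Fin 2) 1) ![1, c]]
    congr 1
    funext i
    fin_cases i <;> simp
  rw [h1, hgt_eq_of_ringHom (algebraMap L Qb), div_le_iff₀ (Nat.cast_pos.mpr Module.finrank_pos)]
    at hc
  show Height.logHeight₁ (⟨c, hcL⟩ : L) ≤ _
  rw [Height.logHeight₁_eq_logHeight]
  exact hc

open Polynomial in
theorem exists_hgt_coeff_prod_le (m : ℕ) :
    ∃ C₀ : ℝ, ∀ n, n ≤ m → ∀ (τ : Fin n → Qb) (t : ℕ),
      hgt ![1, (∏ i, (X - C (τ i))).coeff t] ≤ (∑ i, hgt ![1, τ i]) + C₀ := by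
  classical
  set G := Gauge.ofFamily ![(1 : Qb), -1] with hG
  have hbound : ∀ (v : AbsoluteValue Qb ℝ) n (τ : Fin n → Qb) (t : ℕ),
      v ((∏ i, (Polynomial.X - Polynomial.C (τ i))).coeff t)
        ≤ G.val v ^ n * ∏ i, max 1 (v (τ i)) := by
    intro v n
    induction n with
    | zero =>
      intro τ t
      simp only [Finset.univ_eq_empty, Finset.prod_empty, pow_zero, one_mul,
        Polynomial.coeff_one]
      split_ifs <;> simp
    | succ n ih =>
      intro τ t
      set B := G.val v ^ n * ∏ i : Fin n, max 1 (v (τ i.succ)) with hB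
      have hB0 : 0 ≤ B := mul_nonneg (pow_nonneg (G.val_nonneg v) _)
        (Finset.prod_nonneg fun i _ => le_trans zero_le_one (le_max_left _ _))
      have hm : (1 : ℝ) ≤ max 1 (v (τ 0)) := le_max_left _ _
      rw [Fin.prod_univ_succ, sub_mul, Polynomial.coeff_sub, Polynomial.coeff_C_mul,
        Fin.prod_univ_succ]
      set p := ∏ i : Fin n, (Polynomial.X - Polynomial.C (τ i.succ))
      have h1 : v ((Polynomial.X * p).coeff t) ≤ max 1 (v (τ 0)) * B := by
        rcases t with _ | t
        · simp only [Polynomial.coeff_X_mul_zero, map_zero]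
          exact mul_nonneg (le_trans zero_le_one hm) hB0
        · rw [Polynomial.coeff_X_mul]
          exact (ih (fun i => τ i.succ) t).trans (le_mul_of_one_le_left hB0 hm)
      have h2 : v (τ 0 * p.coeff t) ≤ max 1 (v (τ 0)) * B := by
        rw [map_mul]
        exact mul_le_mul (le_max_right _ _) (ih (fun i => τ i.succ) t) (v.nonneg _)
          (le_trans zero_le_one hm)
      have := Gauge.apply_sum_le_ofFamily ![(1 : Qb), -1]
        ![(Polynomial.X * p).coeff t, τ 0 * p.coeff t] v
        (mul_nonneg (le_trans zero_le_one hm) hB0) fun i => by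
          fin_cases i
          · exact h1
          · exact h2
      calc v ((Polynomial.X * p).coeff t - τ 0 * p.coeff t)
          ≤ G.val v * (max 1 (v (τ 0)) * B) := by
            simpa [Fin.sum_univ_two, sub_eq_add_neg, hG] using this
        _ = _ := by rw [hB]; ring
  refine ⟨(G.pow m).logConst, fun n hn τ t => ?_⟩
  set y := fun I : Fin n → Fin 2 => ∏ i, ![1, τ i] (I i) with hydef
  have hτ : ∀ i, (![1, τ i] : Fin 2 → Qb) ≠ 0 := fun i e => one_ne_zero (congrFun e 0)
  have hy : y ≠ 0 := Function.ne_iff.mpr ⟨fun _ => 0, by simp [hydef]⟩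
  have hx : (![1, (∏ i, (Polynomial.X - Polynomial.C (τ i))).coeff t] : Fin 2 → Qb) ≠ 0 :=
    fun e => one_ne_zero (congrFun e 0)
  have h := hgt_le_of_forall_supNorm_le hx hy (G.pow m) fun v => by
    rw [hydef, supNorm_pi v (fun i => ![1, τ i]), supNorm_one_pair, Gauge.val_pow]
    simp only [supNorm_one_pair]
    have hp : 1 ≤ ∏ i, max 1 (v (τ i)) := Finset.one_le_prod fun i _ => le_max_left _ _
    refine max_le (one_le_mul_of_one_le_of_one_le (one_le_pow₀ (G.one_le_val v)) hp)
      ((hbound v n τ t).trans (mul_le_mul_of_nonneg_right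
        (pow_le_pow_right₀ (G.one_le_val v) hn) (le_trans zero_le_one hp)))
  rwa [hydef, hgt_pi (fun i => ![1, τ i]) hτ] at h

end Algebraic

variable {F : Type*} [Field F] [Algebra Qb F] [IsFunctionField Qb F]

omit [IsFunctionField Qb F] in
theorem smul_mem_filt (g : SemilinearAut Qb F) {P : Place Qb F} {n : ℤ} {f : F}
    (hf : f ∈ filt P n) : g • f ∈ filt (g • P) n := by
  rcases mem_filt.mp hf with rfl | h
  · rw [smul_zero]; exact zero_mem _
  · exact mem_filt_of_le (by rwa [SemilinearAut.ord_smul])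

theorem smul_sub_smul_secBasis (g : SemilinearAut Qb F) {E : Divisor Qb F}
    (hφ : ∀ j, g • secBasis E j = secBasis E j) (a : Qb) (i j : Fin (ell Qb F E)) :
    g • (secBasis E i - a • secBasis E j)
      = secBasis E i - SemilinearAut.baseAut g a • secBasis E j := by
  rw [smul_sub, Algebra.smul_def, Algebra.smul_def, smul_mul', hφ, hφ,
    SemilinearAut.smul_algebraMap]

theorem exists_evVec_smul (g : SemilinearAut Qb F) {E : Divisor Qb F}
    (hE : 4 * (genusFF Qb F : ℤ) + 2 ≤ Divisor.degree E)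
    (hφ : ∀ j, g • secBasis E j = secBasis E j) (hgE : g • E = E) (P : Place Qb F) :
    ∃ c : Qb, c ≠ 0 ∧
      evVec E (g • P) = c • fun j => SemilinearAut.baseAut g (evVec E P j) := by
  obtain ⟨k, hk⟩ := Function.ne_iff.mp (evVec_ne_zero (Z := E) (by omega) P)
  simp only [Pi.zero_apply] at hk
  have hEP : E (g • P) = E P := by
    conv_lhs => rw [← hgE, SemilinearAut.divisor_smul_apply_smul]
  have hk' : evVec E (g • P) k ≠ 0 := by
    obtain ⟨h0, hord⟩ :=
      (coefAt_ne_zero_iff_ord_eq (mem_filt_of_mem_space (secBasis_mem E k) P)).mp hk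
    rw [evVec, evAt]
    refine (coefAt_ne_zero_iff_ord_eq
      (mem_filt_of_mem_space (secBasis_mem E k) (g • P))).mpr ⟨h0, ?_⟩
    rw [hEP, ← hord, ← SemilinearAut.ord_smul g P, hφ]
  have hbk : SemilinearAut.baseAut g (evVec E P k) ≠ 0 := by simpa using hk
  refine ⟨evVec E (g • P) k / SemilinearAut.baseAut g (evVec E P k), div_ne_zero hk' hbk,
    funext fun j => ?_⟩
  have hmem : secBasis E j - (evVec E P j / evVec E P k) • secBasis E k
      ∈ filt P (-E P + 1) := by
    rw [mem_filt_succ_iff]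
    refine ⟨sub_mem (mem_filt_of_mem_space (secBasis_mem E j) P)
      (Submodule.smul_mem _ _ (mem_filt_of_mem_space (secBasis_mem E k) P)), ?_⟩
    rw [map_sub, map_smul, smul_eq_mul]
    change evVec E P j - _ * evVec E P k = 0
    rw [div_mul_cancel₀ _ hk, sub_self]
  have h2 := smul_mem_filt g hmem
  rw [smul_sub_smul_secBasis g hφ, mem_filt_succ_iff] at h2
  have h3 := h2.2
  rw [map_sub, map_smul, smul_eq_mul, ← hEP] at h3
  change evVec E (g • P) j - _ * evVec E (g • P) k = 0 at h3
  rw [sub_eq_zero] at h3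
  rw [h3, map_div₀]
  simp only [Pi.smul_apply, smul_eq_mul]
  field_simp

/-- A coordinate ratio of a place. -/
def coordRatio (E : Divisor Qb F) (jk : Fin (ell Qb F E) × Fin (ell Qb F E))
    (P : Place Qb F) : Qb :=
  evVec E P jk.1 / evVec E P jk.2

theorem coordRatio_smul (g : SemilinearAut Qb F) {E : Divisor Qb F}
    (hE : 4 * (genusFF Qb F : ℤ) + 2 ≤ Divisor.degree E)
    (hφ : ∀ j, g • secBasis E j = secBasis E j) (hgE : g • E = E)
    (jk : Fin (ell Qb F E) × Fin (ell Qb F E)) (P : Place Qb F) :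
    coordRatio E jk (g • P) = SemilinearAut.baseAut g (coordRatio E jk P) := by
  obtain ⟨c, hc, h⟩ := exists_evVec_smul g hE hφ hgE P
  simp only [coordRatio, h, Pi.smul_apply, smul_eq_mul, map_div₀]
  rw [mul_div_mul_left _ _ hc]

theorem hgt_coordRatio_le {E : Divisor Qb F}
    (hE : 4 * (genusFF Qb F : ℤ) + 2 ≤ Divisor.degree E)
    (jk : Fin (ell Qb F E) × Fin (ell Qb F E)) (P : Place Qb F) :
    hgt ![1, coordRatio E jk P] ≤ hD E P + (1 : Gauge).logConst := by
  have hu := evVec_ne_zero (Z := E) (by omega) P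
  rcases eq_or_ne (evVec E P jk.2) 0 with hk | hk
  · obtain ⟨i, hi⟩ := Function.ne_iff.mp hu
    simp only [Pi.zero_apply] at hi
    rw [← hgt_smul hi]
    refine hgt_le_of_forall_supNorm_le (fun e => hi (by simpa using congrFun e 0)) hu 1 fun v => ?_
    rw [Gauge.val_one, one_mul]
    refine supNorm_le v (supNorm_nonneg v _) fun t => ?_
    fin_cases t
    · simpa using le_supNorm v (evVec E P) i
    · simp [coordRatio, hk, supNorm_nonneg]
  · rw [← hgt_smul hk]
    refine hgt_le_of_forall_supNorm_le (fun e => hk (by simpa using congrFun e 0)) hu 1 fun v => ?_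
    rw [Gauge.val_one, one_mul]
    refine supNorm_le v (supNorm_nonneg v _) fun t => ?_
    fin_cases t
    · simpa using le_supNorm v (evVec E P) jk.2
    · simpa [coordRatio, mul_div_cancel₀ _ hk] using le_supNorm v (evVec E P) jk.1

theorem eq_of_coordRatio_eq {E : Divisor Qb F}
    (hE : 4 * (genusFF Qb F : ℤ) + 2 ≤ Divisor.degree E) {P Q : Place Qb F}
    (h : ∀ jk, coordRatio E jk P = coordRatio E jk Q) : P = Q := by
  obtain ⟨k, hk⟩ := Function.ne_iff.mp (evVec_ne_zero (Z := E) (by omega) P)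
  simp only [Pi.zero_apply] at hk
  have hQk : evVec E Q k ≠ 0 := fun h0 => by
    have := h (k, k)
    simp [coordRatio, hk, h0] at this
  refine eq_of_evVec_eq_smul hE (c := evVec E Q k / evVec E P k) (funext fun j => ?_)
  have := h (j, k)
  simp only [coordRatio] at this
  simp only [Pi.smul_apply, smul_eq_mul]
  field_simp at this ⊢
  linear_combination -this

theorem smul_rdiv (g : SemilinearAut Qb F) {O : Place Qb F} (hO : g • O = O)
    {x : Pic0 Qb F} (hx : g • x = x) : g • rdiv O x = rdiv O x := by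
  have hD := (rdiv_spec O x).1
  refine eq_of_effective_equiv hD (ell_rdiv O x) (fun Q => ?_) ?_
  · rw [SemilinearAut.divisor_smul_apply]; exact hD _
  · obtain ⟨h, e⟩ := exists_mk_rep O x
    have e2 : Pic0.mk (SemilinearAut.degZeroSMulHom g ⟨_, h⟩) = Pic0.mk ⟨_, h⟩ := by
      rw [← SemilinearAut.pic0_smul_mk, e, hx]
    have := sub_mem_of_mk_eq e2
    simpa [rep, smul_sub, hO] using this

open Polynomial in
/-- **Northcott** for the quadratic height. -/
theorem finite_setOf_qf_le (ρ : (Qb ≃ₐ[ℚ] Qb) →* SemilinearAut Qb F)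
    (hρ : ∀ σ a, SemilinearAut.baseAut (ρ σ) a = σ a)
    (L : IntermediateField ℚ Qb) [NumberField L] {E : Divisor Qb F}
    (hE : 4 * (genusFF Qb F : ℤ) + 2 ≤ Divisor.degree E) (O : Place Qb F)
    (hφ : ∀ σ ∈ L.fixingSubgroup, ∀ j, ρ σ • secBasis E j = secBasis E j)
    (hgE : ∀ σ ∈ L.fixingSubgroup, ρ σ • E = E) (hgO : ∀ σ ∈ L.fixingSubgroup, ρ σ • O = O)
    (B : ℝ) :
    {x : Pic0 Qb F | (∀ σ ∈ L.fixingSubgroup, ρ σ • x = x) ∧ qf E O x ≤ B}.Finite := by
  classical
  obtain ⟨N, C0, hN, hlow⟩ := exists_qf_lower_bound hE O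
  obtain ⟨C1, hcoeff⟩ := exists_hgt_coeff_prod_le (genusFF Qb F)
  set B1 : ℝ := N * B + C0 + genusFF Qb F * |(1 : Gauge).logConst| + C1 with hB1
  set S0 := {c : Qb | c ∈ L ∧ hgt ![1, c] ≤ B1} with hS0
  have hS0f : S0.Finite := finite_of_hgt_le L B1
  set coeffs := fun (p : Qb[X]) (t : Fin (genusFF Qb F + 1)) => p.coeff t with hcoeffs
  set Pol := {p : Qb[X] | p.natDegree ≤ genusFF Qb F ∧ ∀ t, p.coeff t ∈ S0} with hPol
  have hPolf : Pol.Finite := by
    refine Set.Finite.of_finite_image (f := coeffs)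
      ((Set.Finite.pi fun _ => hS0f).subset ?_) ?_
    · rintro _ ⟨p, hp, rfl⟩ t -
      exact hp.2 t
    · intro p hp q hq hpq
      ext t
      by_cases ht : t ≤ genusFF Qb F
      · exact congrFun hpq ⟨t, by omega⟩
      · rw [coeff_eq_zero_of_natDegree_lt (lt_of_le_of_lt hp.1 (by omega)),
          coeff_eq_zero_of_natDegree_lt (lt_of_le_of_lt hq.1 (by omega))]
  set T := ⋃ p ∈ Pol, {t : Qb | p ≠ 0 ∧ p.IsRoot t} with hT
  have hTf : T.Finite := hPolf.biUnion fun p _ => by
    rcases eq_or_ne p 0 with rfl | hp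
    · simp
    · exact (Polynomial.finite_setOfPred_isRoot hp).subset fun t ht => ht.2
  set PS := {P : Place Qb F | ∀ jk, coordRatio E jk P ∈ T} with hPS
  have hPSf : PS.Finite := by
    refine Set.Finite.of_finite_image (f := fun P jk => coordRatio E jk P)
      ((Set.Finite.pi fun _ => hTf).subset ?_)
      fun P _ Q _ h => eq_of_coordRatio_eq hE (congrFun h)
    rintro _ ⟨P, hP, rfl⟩ jk -
    exact hP jk
  have := hPSf.to_subtype
  have hDf : (Set.range fun s : (Σ n : Fin (genusFF Qb F + 1), Fin n.val → PS) =>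
      ((∑ i, Finsupp.single ((s.2 i).1) 1 : Divisor Qb F), s.1.val)).Finite := Set.finite_range _
  refine Set.Finite.of_finite_image (f := fun x => (rdiv O x, rdeg O x))
    (hDf.subset ?_) fun x _ y _ h => ?_
  swap
  · obtain ⟨hx, ex⟩ := exists_mk_rep O x
    obtain ⟨hy, ey⟩ := exists_mk_rep O y
    rw [← ex, ← ey]
    congr 1
    refine Subtype.ext ?_
    simp only [Prod.mk.injEq] at h
    simp only [rep, h.1, h.2]
  rintro _ ⟨x, ⟨hfix, hxB⟩, rfl⟩
  obtain ⟨P, hP, hPh⟩ := hlow x
  have hmem : ∀ i, P i ∈ PS := by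
    intro i jk
    set p : Qb[X] := ∏ l, (Polynomial.X - Polynomial.C (coordRatio E jk (P l))) with hp
    have hpL : ∀ t, p.coeff t ∈ L := by
      intro t
      rw [← InfiniteGalois.fixedField_fixingSubgroup L, IntermediateField.mem_fixedField_iff]
      intro σ hσ
      have hmap : Multiset.map (fun l => ρ σ • P l) Finset.univ.val
          = Multiset.map P Finset.univ.val := by
        ext Q
        have hD := smul_rdiv (ρ σ) (hgO σ hσ) (hfix σ hσ)
        have hc : ∀ (R : Fin (rdeg O x) → Place Qb F) (Q : Place Qb F),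
            ((Multiset.map R Finset.univ.val).count Q : ℤ)
              = (∑ l, Finsupp.single (R l) 1 : Divisor Qb F) Q := by
          intro R Q
          rw [Finsupp.finsetSum_apply, Multiset.count_map]
          simp only [Finsupp.single_apply]
          rw [Finset.sum_boole]
          simp [Finset.card, Finset.filter, eq_comm]
        rw [← Int.ofNat_inj, hc, hc, ← hP]
        conv_rhs => rw [← hD, hP, Finset.smul_sum]
        simp
      have hσp : p.map (σ : Qb →+* Qb) = p := by
        rw [hp, Polynomial.map_prod]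
        simp only [Polynomial.map_sub, Polynomial.map_X, Polynomial.map_C]
        have e : ∀ l, (σ : Qb →+* Qb) (coordRatio E jk (P l))
            = coordRatio E jk (ρ σ • P l) := fun l => by
          rw [coordRatio_smul (ρ σ) hE (hφ σ hσ) (hgE σ hσ), hρ]; rfl
        simp only [e]
        have := congrArg (fun m => (Multiset.map
          (fun Q => Polynomial.X - Polynomial.C (coordRatio E jk Q)) m).prod) hmap
        simpa [Multiset.map_map, Finset.prod_eq_multiset_prod, Function.comp_def] using this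
      have := congrArg (fun q => q.coeff t) hσp
      simpa using this
    have hdeg : p.natDegree ≤ genusFF Qb F := by
      refine le_trans (Polynomial.natDegree_prod_le _ _) ?_
      simpa using rdeg_le_genus O x
    have hh : ∀ t, hgt ![1, p.coeff t] ≤ B1 := fun t => by
      refine (hcoeff _ (rdeg_le_genus O x) _ t).trans ?_
      have h1 : ∑ l, hgt ![1, coordRatio E jk (P l)]
          ≤ ∑ l, hD E (P l) + genusFF Qb F * |(1 : Gauge).logConst| := by
        refine (Finset.sum_le_sum fun l _ => hgt_coordRatio_le hE jk (P l)).trans ?_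
        rw [Finset.sum_add_distrib, Finset.sum_const, Finset.card_univ, Fintype.card_fin,
          nsmul_eq_mul]
        refine add_le_add le_rfl ((mul_le_mul_of_nonneg_left (le_abs_self _)
          (Nat.cast_nonneg _)).trans (mul_le_mul_of_nonneg_right ?_ (abs_nonneg _)))
        exact_mod_cast rdeg_le_genus O x
      have h2 := mul_le_mul_of_nonneg_left hxB (Nat.cast_nonneg (α := ℝ) N)
      rw [hB1]
      linarith
    have hp0 : p ≠ 0 := Finset.prod_ne_zero_iff.mpr fun l _ => Polynomial.X_sub_C_ne_zero _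
    refine Set.mem_iUnion₂.mpr ⟨p, ⟨hdeg, fun t => ⟨hpL t, hh t⟩⟩, hp0, ?_⟩
    simp only [hp, Polynomial.IsRoot, Polynomial.eval_prod]
    exact Finset.prod_eq_zero (Finset.mem_univ i) (by simp)
  exact ⟨⟨⟨rdeg O x, by have := rdeg_le_genus O x; omega⟩, fun i => ⟨P i, hmem i⟩⟩,
    Prod.ext hP.symm rfl⟩

end FLTAgent.MordellWeil
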