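import Fermat.Agent.FFRiemannRoch.LinearSystems
import Fermat.Agent.MordellWeil.ClassHeight
import Fermat.Prelude.Def_AlgebraicCurve_BaseChangeGalois
import Mathlib.FieldTheory.Galois.Infinite

/-!
# Open stabilisers

If every function is fixed by an open subgroup of Galois (`FixedFunctions`), then so are every
place, divisor and divisor class.
-/

set_option autoImplicit false

noncomputable section

open AlgebraicCurve FLTAgent.FFRiemannRoch FLTAgent.FFBasic

namespace FLTAgent.MordellWeil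

variable {F : Type*} [Field F] [Algebra Qb F] [IsFunctionField Qb F]

/-- Every function is fixed by the automorphisms fixing some number field. -/
def FixedFunctions (ρ : (Qb ≃ₐ[ℚ] Qb) →* SemilinearAut Qb F) : Prop :=
  ∀ f : F, ∃ L : IntermediateField ℚ Qb, FiniteDimensional ℚ L ∧
    ∀ σ ∈ L.fixingSubgroup, ρ σ • f = f

theorem exists_field_fixing {ι : Type*} [Finite ι] (p : ι → (Qb ≃ₐ[ℚ] Qb) → Prop)
    (h : ∀ i, ∃ L : IntermediateField ℚ Qb, FiniteDimensional ℚ L ∧
      ∀ σ ∈ L.fixingSubgroup, p i σ) :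
    ∃ L : IntermediateField ℚ Qb, FiniteDimensional ℚ L ∧
      ∀ σ ∈ L.fixingSubgroup, ∀ i, p i σ := by
  choose L hfd hL using h
  have : ∀ i, FiniteDimensional ℚ (L i) := hfd
  refine ⟨⨆ i, L i, IntermediateField.finiteDimensional_iSup_of_finite, fun σ hσ i => hL i σ ?_⟩
  exact IntermediateField.fixingSubgroup_antitone (le_iSup L i) hσ

variable {ρ : (Qb ≃ₐ[ℚ] Qb) →* SemilinearAut Qb F}

theorem FixedFunctions.place (h : FixedFunctions ρ) (v : Place Qb F) :
    ∃ L : IntermediateField ℚ Qb, FiniteDimensional ℚ L ∧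
      ∀ σ ∈ L.fixingSubgroup, ρ σ • v = v := by
  obtain ⟨f, -, hord, hpos⟩ := exists_pole_only_at v (n := 2 * genusFF Qb F + 1) (by omega)
  obtain ⟨L, hL, hfix⟩ := h f
  refine ⟨L, hL, fun σ hσ => ?_⟩
  by_contra hne
  have h1 := hpos _ hne
  have h2 := SemilinearAut.ord_smul (ρ σ) v f
  rw [hfix σ hσ, hord] at h2
  omega

theorem FixedFunctions.divisor (h : FixedFunctions ρ) (D : Divisor Qb F) :
    ∃ L : IntermediateField ℚ Qb, FiniteDimensional ℚ L ∧
      ∀ σ ∈ L.fixingSubgroup, ρ σ • D = D := by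
  obtain ⟨L, hL, hfix⟩ := exists_field_fixing (fun (v : D.support) σ => ρ σ • (v : Place Qb F) = v)
    fun v => h.place v
  refine ⟨L, hL, fun σ hσ => ?_⟩
  rw [SemilinearAut.divisor_smul_def]
  exact (Finsupp.mapDomain_congr fun v hv => hfix σ hσ ⟨v, hv⟩).trans Finsupp.mapDomain_id

theorem FixedFunctions.cls (h : FixedFunctions ρ) (x : Pic0 Qb F) :
    ∃ L : IntermediateField ℚ Qb, FiniteDimensional ℚ L ∧
      ∀ σ ∈ L.fixingSubgroup, ρ σ • x = x := by
  obtain ⟨D, rfl⟩ := Pic0.mk_surjective x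
  obtain ⟨L, hL, hfix⟩ := h.divisor (D : Divisor Qb F)
  exact ⟨L, hL, fun σ hσ => congrArg Pic0.mk (Subtype.ext (hfix σ hσ))⟩

end FLTAgent.MordellWeil
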