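import Fermat.Agent.MordellWeil.AbsHeight

/-!
# Gauges

A `Gauge` is a bound at every absolute value which is trivial at almost all of them.
`hgt_le_of_forall_supNorm_le` turns local inequalities up to a gauge into inequalities of
heights.
-/

set_option autoImplicit false

noncomputable section

open NumberField Height Module AdmissibleAbsValues

namespace FLTAgent.MordellWeil

theorem hasFiniteMulSupport_iSup {K : Type*} [Field K] [AdmissibleAbsValues K] {ι : Type*}
    [Finite ι] {x : ι → K} (hx : x ≠ 0) :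
    (fun v : nonarchAbsVal (K := K) => ⨆ i, v.val (x i)).HasFiniteMulSupport := by
  obtain ⟨i₀, hi₀⟩ := Function.ne_iff.mp hx
  have : Nonempty {j // x j ≠ 0} := ⟨⟨i₀, hi₀⟩⟩
  have : Nonempty ι := ⟨i₀⟩
  suffices (fun v : nonarchAbsVal (K := K) =>
      ⨆ i : {j // x j ≠ 0}, v.val (x i)).HasFiniteMulSupport by
    convert! this with v
    refine le_antisymm (ciSup_le fun j => ?_) (ciSup_le fun j => Finite.le_ciSup_of_le j.1 le_rfl)
    rcases eq_or_ne (x j) 0 with h | h
    · rw [h, v.val.map_zero]
      exact Real.iSup_nonneg fun k => v.val.nonneg _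
    · exact Finite.le_ciSup_of_le ⟨j, h⟩ le_rfl
  fun_prop (disch := grind)

/-- A gauge: a constant `≥ 1` at the archimedean absolute values and a finite list of numbers. -/
structure Gauge where
  C : ℝ
  one_le : 1 ≤ C
  T : List Qb

namespace Gauge

open Classical in
/-- The archimedean constant. -/
def arch (G : Gauge) (v : AbsoluteValue Qb ℝ) : ℝ := if IsNonarchimedean v then 1 else G.C

/-- The value of a gauge at an absolute value. -/
def val (G : Gauge) (v : AbsoluteValue Qb ℝ) : ℝ :=
  G.arch v * (G.T.map fun t => max 1 (v t)).prod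

theorem one_le_arch (G : Gauge) (v : AbsoluteValue Qb ℝ) : 1 ≤ G.arch v := by
  unfold arch; split_ifs
  · exact le_rfl
  · exact G.one_le

theorem one_le_prod (l : List Qb) (v : AbsoluteValue Qb ℝ) :
    1 ≤ (l.map fun t => max 1 (v t)).prod := by
  induction l with
  | nil => simp
  | cons a l ih => simpa using one_le_mul_of_one_le_of_one_le (le_max_left 1 (v a)) ih

theorem one_le_val (G : Gauge) (v : AbsoluteValue Qb ℝ) : 1 ≤ G.val v :=
  one_le_mul_of_one_le_of_one_le (G.one_le_arch v) (one_le_prod _ v)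

theorem val_pos (G : Gauge) (v : AbsoluteValue Qb ℝ) : 0 < G.val v :=
  lt_of_lt_of_le one_pos (G.one_le_val v)

theorem val_nonneg (G : Gauge) (v : AbsoluteValue Qb ℝ) : 0 ≤ G.val v := (G.val_pos v).le

instance : One Gauge := ⟨⟨1, le_rfl, []⟩⟩

instance : Mul Gauge :=
  ⟨fun G H => ⟨G.C * H.C, one_le_mul_of_one_le_of_one_le G.one_le H.one_le, G.T ++ H.T⟩⟩

@[simp] theorem val_one (v : AbsoluteValue Qb ℝ) : (1 : Gauge).val v = 1 := by
  simp [val, arch, show (1 : Gauge).T = [] from rfl, show (1 : Gauge).C = 1 from rfl]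

@[simp] theorem val_mul (G H : Gauge) (v : AbsoluteValue Qb ℝ) :
    (G * H).val v = G.val v * H.val v := by
  simp only [val, arch, show (G * H).C = G.C * H.C from rfl, show (G * H).T = G.T ++ H.T from rfl,
    List.map_append, List.prod_append]
  split_ifs <;> ring

/-- `n`-th power of a gauge. -/
def pow (G : Gauge) : ℕ → Gauge
  | 0 => 1
  | n + 1 => G.pow n * G

@[simp] theorem val_pow (G : Gauge) (n : ℕ) (v : AbsoluteValue Qb ℝ) :
    (G.pow n).val v = G.val v ^ n := by
  induction n with
  | zero => simp [pow]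
  | succ n ih => simp [pow, ih, pow_succ]

/-- The gauge of a family of numbers. -/
def ofFamily {α : Type*} [Fintype α] (t : α → Qb) : Gauge :=
  ⟨max 1 (Fintype.card α), le_max_left _ _, Finset.univ.toList.map t⟩

theorem le_prod_of_mem {l : List Qb} {a : Qb} (h : a ∈ l) (v : AbsoluteValue Qb ℝ) :
    max 1 (v a) ≤ (l.map fun t => max 1 (v t)).prod := by
  induction l with
  | nil => simp at h
  | cons b l ih =>
    rcases List.mem_cons.mp h with rfl | h
    · simpa using le_mul_of_one_le_right (le_trans zero_le_one (le_max_left 1 (v a)))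
        (one_le_prod l v)
    · simpa using (ih h).trans (le_mul_of_one_le_left
        (le_trans zero_le_one (one_le_prod l v)) (le_max_left _ _))

/-- A linear combination with fixed coefficients. -/
theorem apply_sum_le_ofFamily {α : Type*} [Fintype α] (t y : α → Qb)
    (v : AbsoluteValue Qb ℝ) {B : ℝ} (hB : 0 ≤ B) (hy : ∀ a, v (y a) ≤ B) :
    v (∑ a, t a * y a) ≤ (ofFamily t).val v * B := by
  set P := ((ofFamily t).T.map fun s => max 1 (v s)).prod with hP
  have hterm : ∀ a, v (t a * y a) ≤ P * B := fun a => by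
    rw [map_mul]
    exact mul_le_mul (((le_max_right 1 (v (t a)))).trans
      (le_prod_of_mem (by simp [ofFamily]) v)) (hy a) (v.nonneg _)
      (le_trans zero_le_one (one_le_prod _ v))
  have hPB : 0 ≤ P * B := mul_nonneg (le_trans zero_le_one (one_le_prod _ v)) hB
  rcases isEmpty_or_nonempty α with hα | hα
  · simpa using mul_nonneg (val_nonneg _ v) hB
  by_cases hv : IsNonarchimedean v
  · obtain ⟨a, -, ha⟩ := hv.finset_image_add_of_nonempty (fun a => t a * y a)
      (t := Finset.univ) Finset.univ_nonempty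
    calc v (∑ a, t a * y a) ≤ v (t a * y a) := ha
      _ ≤ P * B := hterm a
      _ = (ofFamily t).val v * B := by simp [val, arch, hv, hP]
  · calc v (∑ a, t a * y a) ≤ ∑ a, v (t a * y a) := v.sum_le _ _
      _ ≤ ∑ _a : α, P * B := Finset.sum_le_sum fun a _ => hterm a
      _ = (Fintype.card α : ℝ) * (P * B) := by simp [Finset.card_univ]
      _ ≤ max 1 (Fintype.card α : ℝ) * (P * B) :=
          mul_le_mul_of_nonneg_right (le_max_right _ _) hPB
      _ = (ofFamily t).val v * B := by simp [val, arch, hv, hP, ofFamily, mul_assoc]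

/-- The additive constant in height inequalities attached to a gauge. -/
def logConst (G : Gauge) : ℝ := Real.log G.C + (G.T.map fun t => hgt ![1, t]).sum

end Gauge

/-- Local-to-global: a bound at all absolute values gives a bound on heights. -/
theorem hgt_le_of_forall_supNorm_le' {ι κ : Type*} [Finite ι] [Finite κ] {x : ι → Qb}
    {y : κ → Qb} (hx : x ≠ 0) (hy : y ≠ 0) {C : ℝ} (hC : 1 ≤ C)
    (hfin : ∀ v : AbsoluteValue Qb ℝ, IsNonarchimedean v → supNorm v x ≤ supNorm v y)
    (harch : ∀ v : AbsoluteValue Qb ℝ, supNorm v x ≤ C * supNorm v y) :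
    hgt x ≤ hgt y + Real.log C := by
  obtain ⟨L, hL, hS⟩ := exists_ringHom_of_finite (Set.range x ∪ Set.range y)
    ((Set.finite_range x).union (Set.finite_range y))
  have hxL : ∀ i, x i ∈ L := fun i => hS (Or.inl ⟨i, rfl⟩)
  have hyL : ∀ i, y i ∈ L := fun i => hS (Or.inr ⟨i, rfl⟩)
  set a : ι → L := fun i => ⟨x i, hxL i⟩ with ha
  set b : κ → L := fun i => ⟨y i, hyL i⟩ with hb
  have ha0 : a ≠ 0 := fun e => hx (funext fun i => congrArg Subtype.val (congrFun e i))
  have hb0 : b ≠ 0 := fun e => hy (funext fun i => congrArg Subtype.val (congrFun e i))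
  have key : mulHeight a ≤ C ^ totalWeight L * mulHeight b := by
    rw [Height.mulHeight_eq ha0, Height.mulHeight_eq hb0, ← mul_assoc]
    refine mul_le_mul ?_ ?_ (finprod_nonneg fun v => Real.iSup_nonneg_of_nonnegHomClass v.val _)
      (mul_nonneg (pow_nonneg (le_trans zero_le_one hC) _)
        (Multiset.prod_map_nonneg fun v _ => Real.iSup_nonneg_of_nonnegHomClass v _))
    · rw [totalWeight, ← Multiset.prod_replicate, ← Multiset.map_const', ← Multiset.prod_map_mul]
      refine Multiset.prod_map_le_prod_map₀ _ _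
        (fun v _ => Real.iSup_nonneg_of_nonnegHomClass v _) fun v hv => ?_
      obtain ⟨w, hw⟩ : ∃ w : InfinitePlace L, w.1 = v :=
        ⟨⟨v, NumberField.mem_multisetInfinitePlace.mp hv⟩, rfl⟩
      obtain ⟨u, -, hu⟩ := exists_extension_infinitePlace (algebraMap L Qb) w
      have h := harch u
      have e1 : supNorm u x = ⨆ i, v (a i) :=
        iSup_congr fun i => (hu (a i)).trans (by rw [← hw]; rfl)
      have e2 : supNorm u y = ⨆ i, v (b i) :=
        iSup_congr fun i => (hu (b i)).trans (by rw [← hw]; rfl)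
      rwa [e1, e2] at h
    · refine finprod_le_finprod (hasFiniteMulSupport_iSup ha0)
        (fun v => Real.iSup_nonneg_of_nonnegHomClass v.val _)
        (hasFiniteMulSupport_iSup hb0) fun v => ?_
      obtain ⟨w, hw⟩ : ∃ w : FinitePlace L, w.1 = v.1 := ⟨⟨v.1, v.2⟩, rfl⟩
      obtain ⟨u, hu', hu⟩ := exists_extension_finitePlace (algebraMap L Qb) w
      have h := hfin u hu'
      have e1 : supNorm u x = ⨆ i, v.1 (a i) :=
        iSup_congr fun i => (hu (a i)).trans (by rw [← hw]; rfl)
      have e2 : supNorm u y = ⨆ i, v.1 (b i) :=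
        iSup_congr fun i => (hu (b i)).trans (by rw [← hw]; rfl)
      rwa [e1, e2] at h
  have hlog : logHeight a ≤ (totalWeight L : ℝ) * Real.log C + logHeight b := by
    rw [logHeight_eq_log_mulHeight, logHeight_eq_log_mulHeight, ← Real.log_pow,
      ← Real.log_mul (pow_ne_zero _ (lt_of_lt_of_le one_pos hC).ne') (mulHeight_ne_zero b)]
    exact Real.log_le_log (mulHeight_pos a) key
  rw [NumberField.totalWeight_eq_finrank] at hlog
  have hd : (0 : ℝ) < finrank ℚ L := Nat.cast_pos.mpr finrank_pos
  rw [hgt_eq_of_mem L x hxL, hgt_eq_of_mem L y hyL, div_add' _ _ _ hd.ne',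
    div_le_div_iff_of_pos_right hd]
  linarith

/-- A local inequality up to a gauge gives an inequality of heights up to a constant. -/
theorem hgt_le_of_forall_supNorm_le {ι κ : Type*} [Finite ι] [Finite κ] {x : ι → Qb}
    {y : κ → Qb} (hx : x ≠ 0) (hy : y ≠ 0) (G : Gauge)
    (h : ∀ v : AbsoluteValue Qb ℝ, supNorm v x ≤ G.val v * supNorm v y) :
    hgt x ≤ hgt y + G.logConst := by
  let τ : Fin G.T.length → Fin 2 → Qb := fun a => ![1, G.T.get a]
  have hτ0 : ∀ a, τ a ≠ 0 := fun a e => one_ne_zero (congrFun e 0)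
  let z : (Fin G.T.length → Fin 2) → Qb := fun I => ∏ a, τ a (I a)
  have hz : z ≠ 0 := Function.ne_iff.mpr ⟨fun _ => 0, by simp [z, τ]⟩
  have hzv : ∀ v, supNorm v z = (G.T.map fun t => max 1 (v t)).prod := fun v => by
    rw [supNorm_pi v τ]
    simp only [τ, supNorm_one_pair, List.get_eq_getElem]
    exact (Fin.prod_univ_fun_getElem G.T fun t => max 1 (v t))
  have hzy : (fun a : (Fin G.T.length → Fin 2) × κ => z a.1 * y a.2) ≠ 0 := by
    obtain ⟨i, hi⟩ := Function.ne_iff.mp hz
    obtain ⟨j, hj⟩ := Function.ne_iff.mp hy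
    exact Function.ne_iff.mpr ⟨(i, j), mul_ne_zero hi hj⟩
  have hh : hgt z = (G.T.map fun t => hgt ![1, t]).sum := by
    rw [hgt_pi τ hτ0]
    simp only [τ, List.get_eq_getElem]
    exact (Fin.sum_univ_fun_getElem G.T fun t => hgt ![1, t])
  have := hgt_le_of_forall_supNorm_le' hx hzy G.one_le (fun v hv => ?_) (fun v => ?_)
  · rw [hgt_pair hz hy, hh] at this
    unfold Gauge.logConst
    linarith
  · rw [supNorm_pair, hzv]
    simpa [Gauge.val, Gauge.arch, hv] using h v
  · rw [supNorm_pair, hzv]
    refine (h v).trans ?_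
    rw [Gauge.val, ← mul_assoc]
    refine mul_le_mul_of_nonneg_right (mul_le_mul_of_nonneg_right ?_
      (le_trans zero_le_one (Gauge.one_le_prod _ v))) (supNorm_nonneg v y)
    unfold Gauge.arch; split_ifs
    · exact G.one_le
    · exact le_rfl

end FLTAgent.MordellWeil
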