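import Fermat.Agent.MordellWeil.Gauge

/-!
# A quantitative Nullstellensatz

Uniformly in all absolute values, polynomials without a common zero (outside the degenerate
blocks) on an algebraic set cannot all be small on normalised points of it
(`exists_gauge_lower_bound`, `exists_finset_unit_value`).
-/

set_option autoImplicit false

noncomputable section

open MvPolynomial

namespace FLTAgent.MordellWeil

theorem exists_gauge_ge {α : Type*} [Finite α] (G : α → Gauge) :
    ∃ H : Gauge, ∀ a v, (G a).val v ≤ H.val v := by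
  classical
  cases nonempty_fintype α
  suffices ∀ s : Finset α, ∃ H : Gauge, ∀ a ∈ s, ∀ v, (G a).val v ≤ H.val v by
    obtain ⟨H, hH⟩ := this Finset.univ
    exact ⟨H, fun a v => hH a (Finset.mem_univ a) v⟩
  intro s
  induction s using Finset.induction with
  | empty => exact ⟨1, by simp⟩
  | insert a s _ ih =>
    obtain ⟨H, hH⟩ := ih
    refine ⟨G a * H, fun b hb v => ?_⟩
    rw [Gauge.val_mul]
    rcases Finset.mem_insert.mp hb with rfl | hb
    · exact le_mul_of_one_le_right (Gauge.val_nonneg _ v) (Gauge.one_le_val _ v)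
    · exact (hH b hb v).trans
        (le_mul_of_one_le_left (Gauge.val_nonneg _ v) (Gauge.one_le_val _ v))

theorem apply_monomial_le {Z : Type*} [Fintype Z] (v : AbsoluteValue Qb ℝ) (z : Z → Qb)
    {R : ℝ} (hR : 1 ≤ R) (hz : ∀ i, v (z i) ≤ R) (s : Z →₀ ℕ) {n : ℕ}
    (hn : (∑ i, s i) ≤ n) : v (∏ i, z i ^ s i) ≤ R ^ n := by
  calc v (∏ i, z i ^ s i) = ∏ i, v (z i) ^ s i := by simp [map_prod]
    _ ≤ ∏ i, R ^ s i := Finset.prod_le_prod (fun i _ => pow_nonneg (v.nonneg _) _)
        fun i _ => pow_le_pow_left₀ (v.nonneg _) (hz i) _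
    _ = R ^ ∑ i, s i := Finset.prod_pow_eq_pow_sum _ _ _
    _ ≤ R ^ n := pow_le_pow_right₀ hR hn

/-- A fixed polynomial is bounded by a gauge times a power of the size of the point. -/
theorem exists_gauge_eval {Z : Type*} [Fintype Z] (f : MvPolynomial Z Qb) :
    ∃ G : Gauge, ∀ (v : AbsoluteValue Qb ℝ) (z : Z → Qb) (R : ℝ), 1 ≤ R →
      (∀ i, v (z i) ≤ R) → v (eval z f) ≤ G.val v * R ^ f.totalDegree := by
  classical
  refine ⟨Gauge.ofFamily (fun s : f.support => f.coeff s.1), fun v z R hR hz => ?_⟩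
  rw [eval_eq', ← Finset.sum_coe_sort f.support (fun d => f.coeff d * ∏ i, z i ^ d i)]
  refine Gauge.apply_sum_le_ofFamily (fun s : f.support => f.coeff s.1)
    (fun s => ∏ i, z i ^ s.1 i) v (pow_nonneg (zero_le_one.trans hR) _) fun s => ?_
  refine apply_monomial_le v z hR hz s.1 ?_
  have := le_totalDegree s.2
  rwa [Finsupp.sum_fintype _ _ (fun _ => rfl)] at this

/-- The algebraic content: a power of each block monomial is a combination of the polynomials. -/
theorem exists_identity {Z B α β : Type*} [Fintype Z] [Fintype B] {ν : B → Type*}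
    (blk : ∀ b, ν b → Z) (p : α → MvPolynomial Z Qb) (g : β → MvPolynomial Z Qb) [Fintype β]
    (hdeg : ∀ z : Z → Qb, (∀ a, eval z (p a) = 0) → (∀ j, eval z (g j) = 0) →
      ∃ b, ∀ k, z (blk b k) = 0)
    (k : ∀ b, ν b) :
    ∃ (N : ℕ) (f : β → MvPolynomial Z Qb), ∀ z : Z → Qb, (∀ a, eval z (p a) = 0) →
      (∏ b, z (blk b (k b))) ^ N = ∑ j, eval z (f j) * eval z (g j) := by
  classical
  set P := Ideal.span (Set.range p) with hP
  set I := P ⊔ Ideal.span (Set.range g) with hI
  have hmem : (∏ b, X (blk b (k b)) : MvPolynomial Z Qb) ∈ I.radical := by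
    rw [← vanishingIdeal_zeroLocus_eq_radical (K := Qb) I, mem_vanishingIdeal_iff]
    intro z hz
    rw [mem_zeroLocus_iff] at hz
    have hz1 : ∀ a, eval z (p a) = 0 := fun a => by
      simpa [aeval_eq_eval] using hz (p a) (Ideal.mem_sup_left (Ideal.subset_span ⟨a, rfl⟩))
    have hz2 : ∀ j, eval z (g j) = 0 := fun j => by
      simpa [aeval_eq_eval] using hz (g j) (Ideal.mem_sup_right (Ideal.subset_span ⟨j, rfl⟩))
    obtain ⟨b, hb⟩ := hdeg z hz1 hz2
    rw [map_prod]
    exact Finset.prod_eq_zero (Finset.mem_univ b) (by simp [hb (k b)])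
  obtain ⟨N, hN⟩ := hmem
  obtain ⟨q, hq, r, hr, hqr⟩ := Submodule.mem_sup.mp hN
  obtain ⟨f, hf⟩ := Ideal.mem_span_range_iff_exists_fun.mp hr
  refine ⟨N, f, fun z hz => ?_⟩
  have hq0 : eval z q = 0 := by
    have : P ≤ RingHom.ker (eval z) := by
      rw [hP, Ideal.span_le]
      rintro _ ⟨a, rfl⟩
      exact hz a
    exact this hq
  have := congrArg (eval z) hqr
  rw [map_add, hq0, zero_add, ← hf, map_sum] at this
  simpa [map_prod] using this.symm

variable {Z B α β : Type*} [Fintype Z] [Fintype B] {ν : B → Type*} [∀ b, Finite (ν b)]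

/-- Quantitative Nullstellensatz at all absolute values. -/
theorem exists_gauge_lower_bound [Fintype β] (blk : ∀ b, ν b → Z) (p : α → MvPolynomial Z Qb)
    (g : β → MvPolynomial Z Qb)
    (hdeg : ∀ z : Z → Qb, (∀ a, eval z (p a) = 0) → (∀ j, eval z (g j) = 0) →
      ∃ b, ∀ k, z (blk b k) = 0) :
    ∃ (G : Gauge) (n : ℕ), ∀ (v : AbsoluteValue Qb ℝ) (z : Z → Qb) (R : ℝ), 1 ≤ R →
      (∀ i, v (z i) ≤ R) → (∀ a, eval z (p a) = 0) → (∀ b, ∃ k, z (blk b k) = 1) →
      1 ≤ G.val v * R ^ n * supNorm v (fun j => eval z (g j)) := by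
  classical
  choose N f hf using exists_identity blk p g hdeg
  choose F hF using fun (kj : (∀ b, ν b) × β) => exists_gauge_eval (f kj.1 kj.2)
  obtain ⟨G, hG⟩ := exists_gauge_ge F
  cases nonempty_fintype (∀ b, ν b)
  refine ⟨Gauge.ofFamily (fun _ : β => (1 : Qb)) * G,
    Finset.univ.sup fun kj : (∀ b, ν b) × β => (f kj.1 kj.2).totalDegree,
    fun v z R hR hz hp hone => ?_⟩
  choose k hk using hone
  have h1 : (1 : Qb) = ∑ j, eval z (f k j) * eval z (g j) := by
    rw [← hf k z hp]
    simp [hk]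
  set n := Finset.univ.sup fun kj : (∀ b, ν b) × β => (f kj.1 kj.2).totalDegree
  set s := supNorm v (fun j => eval z (g j))
  have hB : 0 ≤ G.val v * R ^ n * s :=
    mul_nonneg (mul_nonneg (Gauge.val_nonneg _ v) (pow_nonneg (zero_le_one.trans hR) _))
      (supNorm_nonneg v _)
  calc (1 : ℝ) = v (∑ j, (1 : Qb) * (eval z (f k j) * eval z (g j))) := by
        simp [← h1]
    _ ≤ (Gauge.ofFamily (fun _ : β => (1 : Qb))).val v * (G.val v * R ^ n * s) := by
        refine Gauge.apply_sum_le_ofFamily _ _ v hB fun j => ?_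
        rw [map_mul]
        refine mul_le_mul ?_ (le_supNorm v (fun j => eval z (g j)) j) (v.nonneg _)
          (mul_nonneg (Gauge.val_nonneg _ v) (pow_nonneg (zero_le_one.trans hR) _))
        exact (hF (k, j) v z R hR hz).trans (mul_le_mul (hG (k, j) v)
          (pow_le_pow_right₀ hR (Finset.le_sup (f := fun kj : (∀ b, ν b) × β =>
            (f kj.1 kj.2).totalDegree) (Finset.mem_univ (k, j))))
          (pow_nonneg (zero_le_one.trans hR) _) (Gauge.val_nonneg _ v))
    _ = _ := by rw [Gauge.val_mul]; ring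

omit [Fintype Z] in
theorem eval_mem {A : ValuationSubring Qb} (f : MvPolynomial Z Qb) (hf : ∀ s, f.coeff s ∈ A)
    {z : Z → Qb} (hz : ∀ i, z i ∈ A) : eval z f ∈ A := by
  rw [eval_eq]
  exact sum_mem fun s _ => mul_mem (hf s) (prod_mem fun i _ => pow_mem (hz i) _)

/-- The integral form: outside finitely many primes some value is a unit. -/
theorem exists_finset_unit_value [Fintype β] (blk : ∀ b, ν b → Z) (p : α → MvPolynomial Z Qb)
    (g : β → MvPolynomial Z Qb)
    (hdeg : ∀ z : Z → Qb, (∀ a, eval z (p a) = 0) → (∀ j, eval z (g j) = 0) →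
      ∃ b, ∀ k, z (blk b k) = 0) :
    ∃ T : Finset Qb, ∀ (A : ValuationSubring Qb), (∀ t ∈ T, t ∈ A) → ∀ z : Z → Qb,
      (∀ i, z i ∈ A) → (∀ a, eval z (p a) = 0) → (∀ b, ∃ k, z (blk b k) = 1) →
      ∃ j, eval z (g j) ∉ A.nonunits := by
  classical
  choose N f hf using exists_identity blk p g hdeg
  cases nonempty_fintype (∀ b, ν b)
  refine ⟨Finset.univ.biUnion fun kj : (∀ b, ν b) × β =>
    (f kj.1 kj.2).support.image (f kj.1 kj.2).coeff, fun A hA z hz hp hone => ?_⟩
  choose k hk using hone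
  have h1 : (1 : Qb) = ∑ j, eval z (f k j) * eval z (g j) := by
    rw [← hf k z hp]
    simp [hk]
  by_contra! hall
  have hcoef : ∀ j s, (f k j).coeff s ∈ A := fun j s => by
    by_cases hs : s ∈ (f k j).support
    · exact hA _ (Finset.mem_biUnion.mpr ⟨(k, j), Finset.mem_univ _,
        Finset.mem_image.mpr ⟨s, hs, rfl⟩⟩)
    · rw [notMem_support_iff.mp hs]; exact A.zero_mem
  have hlt : A.valuation (∑ j, eval z (f k j) * eval z (g j)) < 1 := by
    refine A.valuation.map_sum_lt one_ne_zero fun j _ => ?_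
    rw [map_mul]
    exact lt_of_le_of_lt (mul_le_of_le_one_left'
      ((A.valuation_le_one_iff _).mpr (eval_mem _ (hcoef j) hz)))
      (A.mem_nonunits_iff.mp (hall j))
  rw [← h1, map_one] at hlt
  exact lt_irrefl _ hlt

end FLTAgent.MordellWeil
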