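import Fermat.Agent.MordellWeil.Point
import Fermat.Agent.MordellWeil.Nullstellensatz

/-!
# Heights attached to divisors

The height of a divisor as a function on places modulo bounded functions; `hdiv` is additive,
and a height of positive degree dominates every height (`exists_le_of_degree_pos`).
-/

set_option autoImplicit false

noncomputable section

open AlgebraicCurve FLTAgent.FFRiemannRoch FLTAgent.FFBasic

namespace FLTAgent.MordellWeil

/-- A fixed linear map raises heights by a bounded amount at most. -/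
theorem exists_hgt_linear_le {α β : Type*} [Fintype α] [Finite β] (t : β → α → Qb) :
    ∃ C : ℝ, ∀ (x : α → Qb) (y : β → Qb), (∀ b, y b = ∑ a, t b a * x a) → y ≠ 0 →
      hgt y ≤ hgt x + C := by
  obtain ⟨G, hG⟩ := exists_gauge_ge fun b => Gauge.ofFamily (t b)
  refine ⟨G.logConst, fun x y hxy hy => ?_⟩
  have hx : x ≠ 0 := fun h0 => hy (funext fun b => by simp [hxy b, h0])
  refine hgt_le_of_forall_supNorm_le hy hx G fun v =>
    supNorm_le v (mul_nonneg (G.val_nonneg v) (supNorm_nonneg v x)) fun b => ?_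
  rw [hxy b]
  exact (Gauge.apply_sum_le_ofFamily (t b) x v (supNorm_nonneg v x) fun a => le_supNorm v x a).trans
    (mul_le_mul_of_nonneg_right (hG b v) (supNorm_nonneg v x))

/-! ### Functions modulo bounded functions -/

/-- Bounded real functions. -/
def bddFun (α : Type*) : AddSubgroup (α → ℝ) where
  carrier := {f | ∃ C : ℝ, ∀ a, |f a| ≤ C}
  zero_mem' := ⟨0, fun a => by simp⟩
  add_mem' := by
    rintro f g ⟨C, hC⟩ ⟨D, hD⟩
    exact ⟨C + D, fun a => (abs_add_le _ _).trans (add_le_add (hC a) (hD a))⟩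
  neg_mem' := by
    rintro f ⟨C, hC⟩
    exact ⟨C, fun a => by simpa using hC a⟩

/-- The class of a real function modulo bounded functions. -/
def bddClass {α : Type*} : (α → ℝ) →+ (α → ℝ) ⧸ bddFun α := QuotientAddGroup.mk' (bddFun α)

theorem exists_bound_of_class_eq {α : Type*} {f g : α → ℝ} (h : bddClass f = bddClass g) :
    ∃ C : ℝ, ∀ a, |f a - g a| ≤ C := by
  have h' : f - g ∈ bddFun α := QuotientAddGroup.eq_iff_sub_mem.mp h
  exact h'

theorem class_eq_of_bound {α : Type*} {f g : α → ℝ} {C D : ℝ} (h : ∀ a, f a ≤ g a + C)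
    (h' : ∀ a, g a ≤ f a + D) : bddClass f = bddClass g :=
  QuotientAddGroup.eq_iff_sub_mem.mpr ⟨max C D, fun a => abs_le.mpr ⟨by
    have := h' a; have := le_max_right C D; simp only [Pi.sub_apply]; linarith, by
    have := h a; have := le_max_left C D; simp only [Pi.sub_apply]; linarith⟩⟩

variable {F : Type*} [Field F] [Algebra Qb F] [IsFunctionField Qb F]

/-- The height attached to a divisor without base points. -/
def hD (Z : Divisor Qb F) (P : Place Qb F) : ℝ := hgt (evVec Z P)

theorem hD_nonneg (Z : Divisor Qb F) (P : Place Qb F) : 0 ≤ hD Z P := hgt_nonneg _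

/-- Any family of sections has height bounded by that of the divisor. -/
theorem exists_hgt_family_le {Z : Divisor Qb F} {α : Type*} [Finite α] (f : α → F)
    (hf : ∀ a, f a ∈ riemannRochSpace Z) :
    ∃ C : ℝ, ∀ P, (fun a => evAt Z P (f a)) ≠ 0 →
      hgt (fun a => evAt Z P (f a)) ≤ hD Z P + C := by
  choose t ht using fun a => exists_eq_sum_secBasis (hf a)
  obtain ⟨C, hC⟩ := exists_hgt_linear_le t
  exact ⟨C, fun P hP => hC _ _ (fun a => by rw [ht a, evAt_sum_secBasis]) hP⟩

/-- A spanning family of sections has height at least that of the divisor. -/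
theorem exists_hD_le_family {Z : Divisor Qb F} (hZ : 2 * (genusFF Qb F : ℤ) ≤ Divisor.degree Z)
    {α : Type*} [Finite α] (f : α → F)
    (hspan : riemannRochSpace Z ≤ Submodule.span Qb (Set.range f)) :
    ∃ C : ℝ, ∀ P, (fun a => evAt Z P (f a)) ≠ 0 ∧ hD Z P ≤ hgt (fun a => evAt Z P (f a)) + C := by
  classical
  cases nonempty_fintype α
  choose t ht using fun i =>
    (Submodule.mem_span_range_iff_exists_fun Qb).mp (hspan (secBasis_mem Z i))
  obtain ⟨C, hC⟩ := exists_hgt_linear_le t
  have hlin : ∀ P i, evVec Z P i = ∑ a, t i a * evAt Z P (f a) := fun P i => by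
    simp [evVec, ← ht i]
  refine ⟨C, fun P => ⟨fun h0 => evVec_ne_zero hZ P (funext fun i => ?_),
    hC _ _ (hlin P) (evVec_ne_zero hZ P)⟩⟩
  rw [hlin P i]
  simp [funext_iff.mp h0]

theorem evVec_mul_evVec (A B : Divisor Qb F) (P : Place Qb F)
    (a : Fin (ell Qb F A) × Fin (ell Qb F B)) :
    evVec A P a.1 * evVec B P a.2 = evAt (A + B) P (secBasis A a.1 * secBasis B a.2) :=
  (evAt_mul (secBasis_mem A a.1) (secBasis_mem B a.2) P).symm

theorem exists_add_hD_le {A B : Divisor Qb F} (hA : 2 * (genusFF Qb F : ℤ) ≤ Divisor.degree A)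
    (hB : 2 * (genusFF Qb F : ℤ) ≤ Divisor.degree B) :
    ∃ C : ℝ, ∀ P, hD A P + hD B P ≤ hD (A + B) P + C := by
  obtain ⟨C, hC⟩ := exists_hgt_family_le (Z := A + B)
    (fun a : Fin (ell Qb F A) × Fin (ell Qb F B) => secBasis A a.1 * secBasis B a.2)
    fun a => mul_mem_riemannRochSpace (secBasis_mem A a.1) (secBasis_mem B a.2)
  refine ⟨C, fun P => ?_⟩
  rw [hD, hD, ← hgt_pair (evVec_ne_zero hA P) (evVec_ne_zero hB P)]
  simp only [evVec_mul_evVec A B P]
  refine hC P fun h0 => ?_
  obtain ⟨i, hi⟩ := Function.ne_iff.mp (evVec_ne_zero hA P)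
  obtain ⟨j, hj⟩ := Function.ne_iff.mp (evVec_ne_zero hB P)
  exact mul_ne_zero hi hj (by rw [evVec_mul_evVec A B P (i, j)]; exact congrFun h0 (i, j))

theorem span_secBasis (Z : Divisor Qb F) :
    Submodule.span Qb (Set.range (secBasis Z)) = riemannRochSpace Z := by
  refine le_antisymm (Submodule.span_le.mpr ?_) fun f hf => ?_
  · rintro _ ⟨i, rfl⟩; exact secBasis_mem Z i
  · obtain ⟨t, rfl⟩ := exists_eq_sum_secBasis hf
    exact sum_mem fun i _ => Submodule.smul_mem _ _ (Submodule.subset_span ⟨i, rfl⟩)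

theorem exists_hD_add_le_of_large {A B : Divisor Qb F}
    (hB : 2 * (genusFF Qb F : ℤ) ≤ Divisor.degree B)
    (hA : Divisor.degree B + 2 * (genusFF Qb F : ℤ) - 1 ≤ Divisor.degree A)
    (hA' : 2 * (genusFF Qb F : ℤ) ≤ Divisor.degree A) :
    ∃ C : ℝ, ∀ P, hD (A + B) P ≤ hD A P + hD B P + C := by
  obtain ⟨C, hC⟩ := exists_hD_le_family (Z := A + B) (by rw [map_add]; omega)
    (fun a : Fin (ell Qb F A) × Fin (ell Qb F B) => secBasis A a.1 * secBasis B a.2) (by
      rw [← span_mul_eq hB hA, ← span_secBasis A, ← span_secBasis B, Submodule.span_mul_span]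
      refine Submodule.span_mono ?_
      rintro _ ⟨_, ⟨i, rfl⟩, _, ⟨j, rfl⟩, rfl⟩
      exact ⟨(i, j), rfl⟩)
  refine ⟨C, fun P => ?_⟩
  have h := (hC P).2
  simp only [← evVec_mul_evVec A B P] at h
  rwa [hgt_pair (evVec_ne_zero hA' P) (evVec_ne_zero hB P)] at h

/-- Additivity of heights. -/
theorem class_hD_add {A B : Divisor Qb F} (hA : 2 * (genusFF Qb F : ℤ) ≤ Divisor.degree A)
    (hB : 2 * (genusFF Qb F : ℤ) ≤ Divisor.degree B) :
    bddClass (hD (A + B)) = bddClass (hD A) + bddClass (hD B) := by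
  obtain ⟨P₀⟩ := (inferInstance : Nonempty (Place Qb F))
  set X : Divisor Qb F :=
    Finsupp.single P₀ (Divisor.degree A + Divisor.degree B + 2 * (genusFF Qb F : ℤ)) with hX
  have hdX : Divisor.degree X = Divisor.degree A + Divisor.degree B + 2 * (genusFF Qb F : ℤ) := by
    rw [hX, Divisor.degree_single, deg_eq_one, Nat.cast_one, mul_one]
  have hgX : 2 * (genusFF Qb F : ℤ) ≤ Divisor.degree X := by omega
  have hgBX : 2 * (genusFF Qb F : ℤ) ≤ Divisor.degree (B + X) := by rw [map_add]; omega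
  have hgAB : 2 * (genusFF Qb F : ℤ) ≤ Divisor.degree (A + B) := by rw [map_add]; omega
  obtain ⟨C1, h1⟩ := exists_add_hD_le hgAB hgX
  obtain ⟨C2, h2⟩ := exists_hD_add_le_of_large (A := B + X) (B := A) hA
    (by rw [map_add]; omega) hgBX
  obtain ⟨C3, h3⟩ := exists_hD_add_le_of_large (A := X) (B := B) hB (by omega) hgX
  obtain ⟨C4, h4⟩ := exists_add_hD_le hA hB
  rw [← map_add]
  refine class_eq_of_bound (C := C1 + C2 + C3) (D := C4) (fun P => ?_) fun P => h4 P
  have e1 := h1 P
  have e2 := h2 P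
  have e3 := h3 P
  rw [show B + X + A = A + B + X by abel] at e2
  rw [show X + B = B + X by abel] at e3
  simp only [Pi.add_apply]
  linarith

/-- The auxiliary divisor used to extend heights to all divisors. -/
def padDiv (Z : Divisor Qb F) : Divisor Qb F :=
  Finsupp.single (Classical.arbitrary (Place Qb F))
    (|Divisor.degree Z| + 2 * (genusFF Qb F : ℤ))

theorem degree_padDiv (Z : Divisor Qb F) :
    2 * (genusFF Qb F : ℤ) ≤ Divisor.degree (padDiv Z) ∧
      2 * (genusFF Qb F : ℤ) ≤ Divisor.degree (Z + padDiv Z) := by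
  simp only [padDiv, map_add, Divisor.degree_single, deg_eq_one, Nat.cast_one, mul_one]
  have := neg_abs_le (Divisor.degree Z)
  have := abs_nonneg (Divisor.degree Z)
  omega

theorem class_hD_sub_eq {A B A' B' : Divisor Qb F}
    (hA : 2 * (genusFF Qb F : ℤ) ≤ Divisor.degree A)
    (hB : 2 * (genusFF Qb F : ℤ) ≤ Divisor.degree B)
    (hA' : 2 * (genusFF Qb F : ℤ) ≤ Divisor.degree A')
    (hB' : 2 * (genusFF Qb F : ℤ) ≤ Divisor.degree B') (h : A - B = A' - B') :
    bddClass (hD A) - bddClass (hD B) = bddClass (hD A') - bddClass (hD B') := by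
  rw [sub_eq_sub_iff_add_eq_add, ← class_hD_add hA hB', ← class_hD_add hA' hB,
    sub_eq_sub_iff_add_eq_add.mp h]

/-- The height class of a divisor. -/
def hdiv : Divisor Qb F →+ (Place Qb F → ℝ) ⧸ bddFun (Place Qb F) :=
  AddMonoidHom.mk' (fun Z => bddClass (hD (Z + padDiv Z)) - bddClass (hD (padDiv Z))) fun Z Z' => by
    have h := degree_padDiv Z
    have h' := degree_padDiv Z'
    have h'' := degree_padDiv (Z + Z')
    rw [show bddClass (hD (Z + padDiv Z)) - bddClass (hD (padDiv Z)) +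
        (bddClass (hD (Z' + padDiv Z')) - bddClass (hD (padDiv Z'))) =
        (bddClass (hD (Z + padDiv Z)) + bddClass (hD (Z' + padDiv Z'))) -
        (bddClass (hD (padDiv Z)) + bddClass (hD (padDiv Z'))) by abel,
      ← class_hD_add h.2 h'.2, ← class_hD_add h.1 h'.1]
    exact class_hD_sub_eq h''.2 h''.1
      (by rw [map_add]; linarith [h.2, h'.2, Int.natCast_nonneg (genusFF Qb F)])
      (by rw [map_add]; linarith [h.1, h'.1, Int.natCast_nonneg (genusFF Qb F)]) (by abel)

theorem hdiv_eq_sub {A B : Divisor Qb F} (hA : 2 * (genusFF Qb F : ℤ) ≤ Divisor.degree A)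
    (hB : 2 * (genusFF Qb F : ℤ) ≤ Divisor.degree B) :
    hdiv (A - B) = bddClass (hD A) - bddClass (hD B) :=
  class_hD_sub_eq (degree_padDiv (A - B)).2 (degree_padDiv (A - B)).1 hA hB (by abel)

theorem hdiv_eq {Z : Divisor Qb F} (hZ : 2 * (genusFF Qb F : ℤ) ≤ Divisor.degree Z) :
    hdiv Z = bddClass (hD Z) := by
  have h := hdiv_eq_sub (A := Z + Z) (B := Z) (by rw [map_add]; omega) hZ
  rw [add_sub_cancel_right, class_hD_add hZ hZ, add_sub_cancel_right] at h
  exact h

/-- A height of positive degree dominates every height. -/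
theorem exists_le_of_degree_pos {Y E : Divisor Qb F} (hY : 0 < Divisor.degree Y)
    (hE : 2 * (genusFF Qb F : ℤ) ≤ Divisor.degree E) {f : Place Qb F → ℝ}
    (hf : hdiv Y = bddClass f) :
    ∃ (n : ℕ) (C : ℝ), 0 < n ∧ ∀ P, hD E P ≤ n * f P + C := by
  set n : ℕ := (Divisor.degree E + 2 * (genusFF Qb F : ℤ)).toNat + 1 with hn
  have hd : 2 * (genusFF Qb F : ℤ) ≤ Divisor.degree (n • Y - E) := by
    rw [map_sub, map_nsmul, nsmul_eq_mul]
    have : (n : ℤ) ≤ (n : ℤ) * Divisor.degree Y := le_mul_of_one_le_right (by omega) hY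
    omega
  have h := hdiv_eq hd
  rw [map_sub, map_nsmul, hf, hdiv_eq hE, ← map_nsmul, ← map_sub] at h
  obtain ⟨C, hC⟩ := exists_bound_of_class_eq h
  refine ⟨n, C, by omega, fun P => ?_⟩
  have := abs_le.mp (hC P)
  have := hD_nonneg (n • Y - E) P
  simp only [Pi.sub_apply, nsmul_eq_mul, Pi.mul_apply, Pi.natCast_apply] at *
  linarith

end FLTAgent.MordellWeil
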