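import Fermat.Agent.MordellWeil.ClassHeight

/-!
# Separation of classes by reduction

`exists_finset_no_congruence`: outside finitely many primes, two lists of places whose classes
differ by a fixed nonzero class cannot have the same reduction.  The equations `incEq` of two such
pairs of lists have no common zero with the cross products `incCross`.
-/

set_option autoImplicit false

noncomputable section

open AlgebraicCurve FLTAgent.FFRiemannRoch FLTAgent.FFBasic MvPolynomial

namespace FLTAgent.MordellWeil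

theorem exists_normalise_val (A : ValuationSubring Qb) {ι : Type*} [Finite ι] {x : ι → Qb}
    (hx : x ≠ 0) :
    ∃ c : Qb, c ≠ 0 ∧ (∀ i, c * x i ∈ A) ∧ ∃ i, c * x i = 1 := by
  classical
  cases nonempty_fintype ι
  have : Nonempty ι := ⟨(Function.ne_iff.mp hx).choose⟩
  obtain ⟨i, -, hi⟩ := Finset.exists_max_image Finset.univ (fun j => A.valuation (x j))
    Finset.univ_nonempty
  have hxi : x i ≠ 0 := fun h0 => hx (funext fun j => by
    have := hi j (Finset.mem_univ j)
    simpa [h0] using this)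
  refine ⟨(x i)⁻¹, inv_ne_zero hxi, fun j => (A.valuation_le_one_iff _).mp ?_,
    i, inv_mul_cancel₀ hxi⟩
  rw [map_mul, map_inv₀, inv_mul_le_iff₀ ((Valuation.pos_iff _).mpr hxi), mul_one]
  exact hi j (Finset.mem_univ j)

variable {F : Type*} [Field F] [Algebra Qb F] [IsFunctionField Qb F]

/-- The cofactors of an integral relation are integral. -/
theorem exists_finset_rel_mem (E : Divisor Qb F) (d k : ℕ) :
    ∃ T : Finset Qb, ∀ A : ValuationSubring Qb, (∀ t ∈ T, t ∈ A) →
      ∀ (a : Fin (ell Qb F (d • E)) → Qb) (u : Fin (d + k) → Fin (ell Qb F E) → Qb)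
        (c : MIdx E (d + k) → Fin (ell Qb F (k • E)) → Qb),
        (∀ i, a i ∈ A) → (∃ i, a i = 1) → (∀ i j, u i j ∈ A) → IsRel E d k a u c →
        ∀ μ j, c μ j ∈ A := by
  classical
  obtain ⟨N, lam, hlam⟩ := exists_coords (d • E + k • E)
  let Z := Fin (ell Qb F (d • E)) ⊕ Fin (ell Qb F (k • E))
  let g : Fin N → MvPolynomial Z Qb := fun n =>
    mapLin (lam n) (genSec (d • E) Sum.inl * genSec (k • E) Sum.inr)
  have hg : ∀ (z : Z → Qb) n, eval z (g n)
      = lam n (secOf (d • E) (fun i => z (.inl i)) * secOf (k • E) (fun i => z (.inr i))) :=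
    fun z n => by rw [eval_mapLin, map_mul, eval_genSec, eval_genSec]
  let blk : ∀ b : Bool, Fin (cond b (ell Qb F (d • E)) (ell Qb F (k • E))) → Z := fun b =>
    match b with
    | true => Sum.inl
    | false => Sum.inr
  obtain ⟨T1, hT1⟩ := exists_finset_unit_value blk (fun e : Empty => e.elim) g (by
    intro z _ hz
    have h0 : secOf (d • E) (fun i => z (.inl i)) * secOf (k • E) (fun i => z (.inr i)) = 0 :=
      hlam _ (mul_mem_riemannRochSpace (secOf_mem _ _) (secOf_mem _ _)) fun n => by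
        rw [← hg]; exact hz n
    rcases mul_eq_zero.mp h0 with h | h
    · exact ⟨true, congrFun ((secOf_eq_zero_iff _).mp h)⟩
    · exact ⟨false, congrFun ((secOf_eq_zero_iff _).mp h)⟩)
  let P : MIdx E (d + k) × Fin N → MvPolynomial (Fin (d + k) × Fin (ell Qb F E)) Qb := fun q =>
    mapLin (lam q.2) (∏ i, genOm E (fun j => (i, j)) (q.1 i))
  let T2 : Finset Qb := Finset.univ.biUnion fun q => (P q).support.image (P q).coeff
  refine ⟨T1 ∪ T2, fun A hA a u c ha hone hu hrel μ => ?_⟩
  by_contra! hbad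
  obtain ⟨j₀, hj₀⟩ := hbad
  obtain ⟨γ, hγ0, hγc, j₁, hj₁⟩ := exists_normalise_val A (x := c μ)
    (fun h0 => hj₀ (by rw [h0]; exact A.zero_mem))
  have hγ : γ ∈ A.nonunits := by
    rw [A.mem_nonunits_iff_or, or_iff_right hγ0]
    intro hinv
    refine hj₀ ?_
    have := mul_mem hinv (hγc j₀)
    rwa [← mul_assoc, inv_mul_cancel₀ hγ0, one_mul] at this
  obtain ⟨i₀, hi₀⟩ := hone
  obtain ⟨n, hn⟩ := hT1 A (fun t ht => hA t (Finset.mem_union_left _ ht))
    (Sum.elim a (γ • c μ)) (by rintro (t | t); exacts [ha t, hγc t]) (fun e => e.elim)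
    (fun b => by
      cases b
      · exact ⟨j₁, hj₁⟩
      · exact ⟨i₀, hi₀⟩)
  refine hn ?_
  rw [hg]
  simp only [Sum.elim_inl, Sum.elim_inr]
  rw [show (fun i => (γ • c μ) i) = γ • c μ from rfl, show (fun i => a i) = a from rfl, secOf_smul,
    mul_smul_comm, map_smul, hrel μ, smul_eq_mul]
  have hmem : lam n (∏ i, om E (u i) (μ i)) ∈ A := by
    have h : eval (fun t : Fin (d + k) × Fin (ell Qb F E) => u t.1 t.2) (P (μ, n))
        = lam n (∏ i, om E (u i) (μ i)) := by
      simp only [P, eval_mapLin, map_prod, eval_genOm]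
    rw [← h]
    refine eval_mem _ (fun s => ?_) fun t => hu t.1 t.2
    by_cases hs : s ∈ (P (μ, n)).support
    · exact hA _ (Finset.mem_union_right _ (Finset.mem_biUnion.mpr
        ⟨(μ, n), Finset.mem_univ _, Finset.mem_image.mpr ⟨s, hs, rfl⟩⟩))
    · rw [notMem_support_iff.mp hs]; exact A.zero_mem
  rw [A.mem_nonunits_iff, map_mul]
  exact lt_of_le_of_lt (mul_le_of_le_one_right' ((A.valuation_le_one_iff _).mpr hmem))
    (A.mem_nonunits_iff.mp hγ)

/-- Variables: two sections, two lists of points, two families of cofactors. -/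
abbrev IncVar (E : Divisor Qb F) (d k : ℕ) : Type :=
  (Bool × Fin (ell Qb F (d • E))) ⊕ ((Bool × Fin (d + k) × Fin (ell Qb F E)) ⊕
    (Bool × MIdx E (d + k) × Fin (ell Qb F (k • E))))

/-- Blocks. -/
def incBlk (E : Divisor Qb F) (d k : ℕ) :
    ∀ b : Bool ⊕ Bool × Fin (d + k),
      Fin (Sum.elim (fun _ : Bool => ell Qb F (d • E))
        (fun _ : Bool × Fin (d + k) => ell Qb F E) b) → IncVar E d k
  | .inl s => fun j => .inl (s, j)
  | .inr (s, i) => fun j => .inr (.inl (s, i, j))

section Lists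

variable {E : Divisor Qb F} {n r k M N : ℕ}

/-- The variable of the `j`-th coordinate of the `i`-th point of the list `s`. -/
private def ptVar (E : Divisor Qb F) (k : ℕ) (s : Bool) (i : Fin (1 + k))
    (j : Fin (ell Qb F E)) : IncVar E 1 k :=
  .inr (.inl (s, i, j))

variable (pos : Fin n ⊕ (Fin n ⊕ Fin r) ≃ Fin (1 + k))

/-- The equations on two lists of points: each lies on the curve and is the zero list of its
section, the middle points are the places `R`, the last points are common to both lists. -/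
private def incEq (R : Bool → Fin n → Place Qb F)
    (p : Fin M → MvPolynomial (Fin (ell Qb F E)) Qb) (lam : Fin N → F →ₗ[Qb] Qb) :
    (Bool × Fin (1 + k) × Fin M) ⊕ ((Bool × MIdx E (1 + k) × Fin N) ⊕
      ((Bool × Fin n × (Fin (ell Qb F E) × Fin (ell Qb F E))) ⊕ (Fin r × Fin (ell Qb F E)))) →
      MvPolynomial (IncVar E 1 k) Qb :=
  Sum.elim (fun t => rename (ptVar E k t.1 t.2.1) (p t.2.2)) (Sum.elim
    (fun t => mapLin (lam t.2.2)
      (genSec (1 • E) (fun j => .inl (t.1, j)) *
          genSec (k • E) (fun j => .inr (.inr (t.1, t.2.1, j)))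
        - ∏ i, genOm E (ptVar E k t.1 i) (t.2.1 i)))
    (Sum.elim
      (fun t => X (ptVar E k t.1 (pos (.inr (.inl t.2.1))) t.2.2.1) *
          C (evVec E (R t.1 t.2.1) t.2.2.2)
        - X (ptVar E k t.1 (pos (.inr (.inl t.2.1))) t.2.2.2) * C (evVec E (R t.1 t.2.1) t.2.2.1))
      (fun t => X (ptVar E k true (pos (.inr (.inr t.1))) t.2)
        - X (ptVar E k false (pos (.inr (.inr t.1))) t.2))))

/-- The cross products of the first points of the two lists. -/
private def incCross (E : Divisor Qb F) (t : Fin n × (Fin (ell Qb F E) × Fin (ell Qb F E))) :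
    MvPolynomial (IncVar E 1 k) Qb :=
  X (ptVar E k true (pos (.inl t.1)) t.2.1) * X (ptVar E k false (pos (.inl t.1)) t.2.2)
    - X (ptVar E k true (pos (.inl t.1)) t.2.2) * X (ptVar E k false (pos (.inl t.1)) t.2.1)

omit [IsFunctionField Qb F] in
/-- The divisor of a list is the sum over its three parts. -/
private theorem sum_single_pos (W : Fin (1 + k) → Place Qb F) :
    (∑ i, Finsupp.single (W i) 1 : Divisor Qb F)
      = (∑ i, Finsupp.single (W (pos (.inl i))) 1)
        + ((∑ i, Finsupp.single (W (pos (.inr (.inl i)))) 1)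
          + ∑ i, Finsupp.single (W (pos (.inr (.inr i)))) 1) := by
  rw [← Equiv.sum_comp pos, Fintype.sum_sum_type, Fintype.sum_sum_type]

/-- Places with proportional evaluation vectors are equal. -/
private theorem eq_of_cross_eq_zero (hE : 4 * (genusFF Qb F : ℤ) + 2 ≤ Divisor.degree E)
    {P Q : Place Qb F} {a b : Qb} (ha : a ≠ 0) (hb : b ≠ 0)
    (h : cross (a • evVec E P) (b • evVec E Q) = 0) : P = Q := by
  by_contra hne
  refine lineVec_ne_zero hE P Q ?_
  rw [lineVec_of_ne E hne]
  funext kl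
  have := congrFun h kl
  simp only [cross, Pi.smul_apply, smul_eq_mul, Pi.zero_apply] at this ⊢
  refine mul_left_cancel₀ (mul_ne_zero ha hb) ?_
  linear_combination this

/-- At a zero of the equations, a list is the zero list of its section. -/
private theorem divOf_section_eq_sum (hE : 4 * (genusFF Qb F : ℤ) + 2 ≤ Divisor.degree E)
    (hm : ((1 + k : ℕ) : ℤ) = (1 : ℕ) * Divisor.degree E) {R : Bool → Fin n → Place Qb F}
    {p : Fin M → MvPolynomial (Fin (ell Qb F E)) Qb} {lam : Fin N → F →ₗ[Qb] Qb}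
    (hlam : ∀ f ∈ riemannRochSpace ((1 + k) • E), (∀ i, lam i f = 0) → f = 0)
    {z : IncVar E 1 k → Qb} (hz : ∀ t, eval z (incEq pos R p lam t) = 0) (s : Bool)
    (ha : (fun j => z (.inl (s, j))) ≠ 0) {W : Fin (1 + k) → Place Qb F} {lm : Fin (1 + k) → Qb}
    (hlm0 : ∀ i, lm i ≠ 0) (hlm : ∀ i, (fun j => z (ptVar E k s i j)) = lm i • evVec E (W i)) :
    divOf (secOf (1 • E) fun j => z (.inl (s, j))) + 1 • E = ∑ i, Finsupp.single (W i) 1 := by
  set a : Fin (ell Qb F (1 • E)) → Qb := fun j => z (.inl (s, j))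
  set c : MIdx E (1 + k) → Fin (ell Qb F (k • E)) → Qb :=
    fun μ j => z (.inr (.inr (s, μ, j)))
  have hrel : IsRel E 1 k a (fun i => lm i • evVec E (W i)) c := by
    intro μ
    refine sub_eq_zero.mp (hlam _ (sub_mem ?_ (prod_om_mem E _ μ)) fun n' => ?_)
    · rw [add_nsmul]; exact mul_mem_riemannRochSpace (secOf_mem _ _) (secOf_mem _ _)
    · have h := hz (.inr (.inl (s, μ, n')))
      simp only [incEq, Sum.elim_inr, Sum.elim_inl, eval_mapLin, map_sub, map_mul, map_prod,
        eval_genSec, eval_genOm] at h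
      rw [map_sub]
      simp only [← hlm]
      exact h
  have hrel2 := hrel.scale one_ne_zero (fun i => (lm i)⁻¹)
  simp only [smul_smul, inv_mul_cancel₀ (hlm0 _), one_smul, div_one] at hrel2
  refine Finsupp.ext fun Q => ?_
  rw [sum_incid_eq, Finsupp.add_apply, divOf_apply]
  exact (isZeroList_of_isRel hE hm ha hrel2).1 Q

/-- A common zero of the equations and of the cross products has a zero block unless the divisors
of `R true` and `R false` are linearly equivalent. -/
private theorem exists_block_eq_zero (hE : 4 * (genusFF Qb F : ℤ) + 2 ≤ Divisor.degree E)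
    (hm : ((1 + k : ℕ) : ℤ) = (1 : ℕ) * Divisor.degree E) {R : Bool → Fin n → Place Qb F}
    (hR : (∑ i, Finsupp.single (R true i) 1) - (∑ i, Finsupp.single (R false i) 1)
      ∉ Divisor.principal (K := Qb) (F := F))
    {p : Fin M → MvPolynomial (Fin (ell Qb F E)) Qb}
    (hp : Ideal.span (Set.range p) = RingHom.ker (curveHom E).toRingHom)
    {lam : Fin N → F →ₗ[Qb] Qb}
    (hlam : ∀ f ∈ riemannRochSpace ((1 + k) • E), (∀ i, lam i f = 0) → f = 0)
    (z : IncVar E 1 k → Qb) (hz : ∀ t, eval z (incEq pos R p lam t) = 0)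
    (hg : ∀ t, eval z (incCross pos E t) = 0) : ∃ b, ∀ j, z (incBlk E 1 k b j) = 0 := by
  by_contra! hne
  have hpt : ∀ s i, ∃ (P : Place Qb F) (lam' : Qb), lam' ≠ 0 ∧
      (fun j => z (ptVar E k s i j)) = lam' • evVec E P := fun s i => by
    refine exists_place_of_common_zero hE ?_ fun q hq => ?_
    · obtain ⟨j, hj⟩ := hne (.inr (s, i))
      exact fun h0 => hj (congrFun h0 j)
    · have hmem : q ∈ Ideal.span (Set.range p) := hp ▸ hq
      refine (Ideal.span_le (I := RingHom.ker (eval fun j => z (ptVar E k s i j)))).mpr ?_ hmem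
      rintro _ ⟨j, rfl⟩
      have := hz (.inl (s, i, j))
      rw [show incEq pos R p lam (.inl (s, i, j)) = rename (ptVar E k s i) (p j) from rfl,
        eval_rename] at this
      exact this
  choose W lm hlm0 hlm using hpt
  have hfirst : ∀ i, W true (pos (.inl i)) = W false (pos (.inl i)) := fun i => by
    refine eq_of_cross_eq_zero hE (hlm0 true (pos (.inl i))) (hlm0 false (pos (.inl i))) ?_
    rw [← hlm, ← hlm]
    funext kl
    have h := hg (i, kl)
    simp only [incCross, map_sub, map_mul, eval_X] at h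
    exact h
  have hlast : ∀ i, W true (pos (.inr (.inr i))) = W false (pos (.inr (.inr i))) := fun i => by
    refine eq_of_cross_eq_zero hE (hlm0 true (pos (.inr (.inr i))))
      (hlm0 false (pos (.inr (.inr i)))) ?_
    rw [← hlm, ← hlm]
    funext kl
    have h : ∀ j, z (ptVar E k true (pos (.inr (.inr i))) j)
        = z (ptVar E k false (pos (.inr (.inr i))) j) := fun j => by
      have h1 := hz (.inr (.inr (.inr (i, j))))
      simp only [incEq, Sum.elim_inr, map_sub, eval_X, sub_eq_zero] at h1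
      exact h1
    simp only [cross, h, Pi.zero_apply]
    ring
  have hfix : ∀ s i, W s (pos (.inr (.inl i))) = R s i := fun s i => by
    refine eq_of_cross_eq_zero hE (b := 1) (hlm0 s (pos (.inr (.inl i)))) one_ne_zero ?_
    rw [← hlm, one_smul]
    funext kl
    have h1 := hz (.inr (.inr (.inl (s, i, kl))))
    simp only [incEq, Sum.elim_inr, Sum.elim_inl, map_sub, map_mul, eval_X, eval_C] at h1
    exact h1
  have ha : ∀ s, (fun j => z (.inl (s, j))) ≠ 0 := fun s h0 => by
    obtain ⟨j, hj⟩ := hne (.inl s)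
    exact hj (congrFun h0 j)
  have hA0 : ∀ s, secOf (1 • E) (fun j => z (.inl (s, j))) ≠ 0 := fun s h0 =>
    ha s ((secOf_eq_zero_iff _).mp h0)
  have h1 := divOf_section_eq_sum pos hE hm hlam hz true (ha true) (hlm0 true) (hlm true)
  have h0 := divOf_section_eq_sum pos hE hm hlam hz false (ha false) (hlm0 false) (hlm false)
  rw [sum_single_pos pos] at h1 h0
  simp only [hfirst, hlast, hfix] at h1 h0
  refine hR ?_
  rw [show (∑ i, Finsupp.single (R true i) 1 : Divisor Qb F) - ∑ i, Finsupp.single (R false i) 1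
      = divOf (secOf (1 • E) (fun j => z (.inl (true, j)))
          * (secOf (1 • E) (fun j => z (.inl (false, j))))⁻¹) by
    rw [divOf_mul (hA0 true) (inv_ne_zero (hA0 false)), divOf_inv,
      eq_sub_of_add_eq h1, eq_sub_of_add_eq h0]
    abel]
  exact divOf_mem_principal (mul_ne_zero (hA0 true) (inv_ne_zero (hA0 false)))

/-- Equivalent divisors `∑ P + ∑ R₁` and `∑ P' + ∑ R₀` complete, by common places, to the zero
lists of two sections of `E`. -/
private theorem exists_zeroLists (hE : 4 * (genusFF Qb F : ℤ) + 2 ≤ Divisor.degree E)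
    (hm : ((1 + k : ℕ) : ℤ) = (1 : ℕ) * Divisor.degree E) (hn : n ≤ genusFF Qb F)
    (hr : n + (n + r) = 1 + k) (R0 R1 P P' : Fin n → Place Qb F)
    (hPP : (∑ i, Finsupp.single (P i) 1) + (∑ i, Finsupp.single (R1 i) 1)
        - ((∑ i, Finsupp.single (P' i) 1) + ∑ i, Finsupp.single (R0 i) 1)
      ∈ Divisor.principal (K := Qb) (F := F)) :
    ∃ (Xl : Fin r → Place Qb F) (a : Bool → Fin (ell Qb F (1 • E)) → Qb), (∀ s, a s ≠ 0) ∧
      ∀ s, IsZeroList E 1 k (a s) fun i =>
        Sum.elim (cond s P P') (Sum.elim (cond s R1 R0) Xl) (pos.symm i) := by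
  obtain ⟨f, hf, hfD⟩ := hPP
  set D' : Divisor Qb F := (∑ i, Finsupp.single (P' i) 1) + ∑ i, Finsupp.single (R0 i) 1 with hD'
  set D : Divisor Qb F := (∑ i, Finsupp.single (P i) 1) + ∑ i, Finsupp.single (R1 i) 1 with hD
  have hdD' : Divisor.degree D' = 2 * n := by simp [hD', map_sum, deg_eq_one]; ring
  obtain ⟨B, hB, hB0⟩ := exists_ne_zero_of_ell_pos (D := 1 • E - D') (by
    have := ell_ge (1 • E - D')
    rw [map_sub, hdD', one_nsmul] at this
    have hge : (genusFF Qb F : ℤ) ≤ Divisor.degree E - 2 * n := by omega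
    rw [one_nsmul]
    omega)
  obtain ⟨Xl, hXl⟩ := exists_places_eq r ((mem_riemannRochSpace_iff_divOf hB0).mp hB) (by
    rw [map_add, degree_divOf, map_sub, hdD', one_nsmul]
    have : ((r : ℕ) : ℤ) = (1 + k : ℕ) - 2 * n := by omega
    push_cast at hm this ⊢
    omega)
  have hdivf : divOf f = D - D' := Finsupp.ext fun Q => by
    rw [divOf_apply]; exact (hfD Q).symm
  let sec : Bool → F := fun s => cond s (f * B) B
  have hsec0 : ∀ s, sec s ≠ 0 := fun s => by
    cases s
    · exact hB0
    · exact mul_ne_zero hf hB0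
  let W : Bool → Fin (1 + k) → Place Qb F := fun s i =>
    Sum.elim (cond s P P') (Sum.elim (cond s R1 R0) Xl) (pos.symm i)
  have hWsum : ∀ s, (∑ i, Finsupp.single (W s i) 1 : Divisor Qb F) = divOf (sec s) + 1 • E := by
    intro s
    rw [sum_single_pos pos]
    simp only [W, Equiv.symm_apply_apply, Sum.elim_inl, Sum.elim_inr, ← hXl]
    cases s
    · simp only [sec, cond_false, hD']
      abel
    · simp only [sec, cond_true, divOf_mul hf hB0, hdivf, hD, hD']
      abel
  have hsecmem : ∀ s, sec s ∈ riemannRochSpace (1 • E) := fun s => by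
    rw [mem_riemannRochSpace_iff_divOf (hsec0 s), ← hWsum s]
    exact Finset.sum_nonneg fun i _ => single_nonneg _ zero_le_one
  choose a ha using fun s => exists_eq_sum_secBasis (hsecmem s)
  refine ⟨Xl, a, fun s h => hsec0 s (by simp [ha s, h]), fun s Q => ?_⟩
  rw [show secOf (1 • E) (a s) = sec s from (ha s).symm, ← sum_incid_eq (W s) Q, hWsum s,
    Finsupp.add_apply, divOf_apply]

/-- Coordinates in `A`, with some coordinate one, for all points of the two lists: the given
ones at the first points, the same for both lists at the last points. -/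
private theorem exists_point_coords (A : ValuationSubring Qb)
    (hEg : 2 * (genusFF Qb F : ℤ) ≤ Divisor.degree E) (R : Bool → Fin n → Place Qb F)
    (Xl : Fin r → Place Qb F) {P P' : Fin n → Place Qb F}
    {u u' : Fin n → Fin (ell Qb F E) → Qb} {β β' : Fin n → Qb}
    (hu : ∀ i, u i = β i • evVec E (P i)) (hu' : ∀ i, u' i = β' i • evVec E (P' i))
    (huA : ∀ i j, u i j ∈ A) (hu'A : ∀ i j, u' i j ∈ A) (hone : ∀ i, ∃ j, u i j = 1)
    (hone' : ∀ i, ∃ j, u' i j = 1) :
    ∃ (U : Bool → Fin (1 + k) → Fin (ell Qb F E) → Qb) (b : Bool → Fin (1 + k) → Qb),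
      (∀ s i j, U s i j ∈ A) ∧ (∀ s i, ∃ j, U s i j = 1) ∧
      (∀ s i, U s i =
        b s i • evVec E (Sum.elim (cond s P P') (Sum.elim (R s) Xl) (pos.symm i))) ∧
      (∀ s i, U s (pos (.inl i)) = cond s u u' i) ∧
      ∀ i, U true (pos (.inr (.inr i))) = U false (pos (.inr (.inr i))) := by
  choose δ _ hδA iδ hiδ using fun Q => exists_normalise_val A (evVec_ne_zero hEg Q)
  refine ⟨fun s i => Sum.elim (cond s u u') (Sum.elim (fun l => δ (R s l) • evVec E (R s l))
      (fun l => δ (Xl l) • evVec E (Xl l))) (pos.symm i),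
    fun s i => Sum.elim (cond s β β') (Sum.elim (fun l => δ (R s l)) fun l => δ (Xl l))
      (pos.symm i),
    fun s i => ?_, fun s i => ?_, fun s i => ?_, fun s i => by simp, fun i => by simp⟩
  all_goals
    obtain ⟨q, rfl⟩ := pos.surjective i
    simp only [Equiv.symm_apply_apply]
  · rcases q with q | q | q
    · cases s
      · exact hu'A q
      · exact huA q
    · exact hδA _
    · exact hδA _
  · rcases q with q | q | q
    · cases s
      · exact hone' q
      · exact hone q
    · exact ⟨_, hiδ _⟩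
    · exact ⟨_, hiδ _⟩
  · rcases q with q | q | q
    · cases s
      · exact hu' q
      · exact hu q
    · rfl
    · rfl

/-- Sections, coordinates of points and cofactors in relation solve the equations. -/
private theorem eval_incEq_eq_zero {R : Bool → Fin n → Place Qb F}
    {p : Fin M → MvPolynomial (Fin (ell Qb F E)) Qb}
    (hp : Ideal.span (Set.range p) = RingHom.ker (curveHom E).toRingHom)
    {lam : Fin N → F →ₗ[Qb] Qb}
    {a : Bool → Fin (ell Qb F (1 • E)) → Qb} {U : Bool → Fin (1 + k) → Fin (ell Qb F E) → Qb}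
    {c : Bool → MIdx E (1 + k) → Fin (ell Qb F (k • E)) → Qb}
    {b : Bool → Fin (1 + k) → Qb} {W : Bool → Fin (1 + k) → Place Qb F}
    (hU : ∀ s i, U s i = b s i • evVec E (W s i))
    (hW : ∀ s i, W s (pos (.inr (.inl i))) = R s i)
    (hlast : ∀ i, U true (pos (.inr (.inr i))) = U false (pos (.inr (.inr i))))
    (hrel : ∀ s, IsRel E 1 k (a s) (U s) (c s)) (t) :
    eval (Sum.elim (fun t => a t.1 t.2)
      (Sum.elim (fun t => U t.1 t.2.1 t.2.2) (fun t => c t.1 t.2.1 t.2.2)))
      (incEq pos R p lam t) = 0 := by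
  rcases t with ⟨s, i, j⟩ | ⟨s, μ, n'⟩ | ⟨s, i, kl⟩ | ⟨i, j⟩
  · have hj : curveHom E (p j) = 0 := by
      have : p j ∈ RingHom.ker (curveHom E).toRingHom := hp ▸ Ideal.subset_span ⟨j, rfl⟩
      exact this
    simp only [incEq, Sum.elim_inl, eval_rename]
    exact (congrArg (eval · (p j)) (hU s i)).trans
      (eval_eq_zero_of_curveHom_eq_zero E hj (W s i) (b s i))
  · simp only [incEq, Sum.elim_inr, Sum.elim_inl, eval_mapLin, map_sub, map_mul, map_prod,
      eval_genSec, eval_genOm]
    simp only [ptVar, Sum.elim_inl, Sum.elim_inr]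
    rw [hrel s μ, sub_self]
  · simp only [incEq, Sum.elim_inr, Sum.elim_inl, map_sub, map_mul, eval_X, eval_C]
    simp only [ptVar, Sum.elim_inl, Sum.elim_inr, hU, hW, Pi.smul_apply, smul_eq_mul]
    ring
  · simp only [incEq, Sum.elim_inr, map_sub, eval_X]
    simp only [ptVar, Sum.elim_inl, Sum.elim_inr, hlast, sub_self]

end Lists

/-- The cross product of congruent vectors of `A` is a nonunit. -/
private theorem cross_mem_nonunits (A : ValuationSubring Qb) {a b a' b' : Qb} (ha : a ∈ A)
    (hb : b ∈ A) (ha' : a' - a ∈ A.nonunits) (hb' : b' - b ∈ A.nonunits) :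
    a * b' - b * a' ∈ A.nonunits := by
  have hmul : ∀ x y : Qb, x ∈ A → y ∈ A.nonunits → x * y ∈ A.nonunits := fun x y hx hy => by
    rw [A.mem_nonunits_iff, map_mul]
    exact lt_of_le_of_lt (mul_le_of_le_one_left' ((A.valuation_le_one_iff _).mpr hx))
      (A.mem_nonunits_iff.mp hy)
  rw [show a * b' - b * a' = a * (b' - b) + b * -(a' - a) by ring]
  exact add_mem (hmul _ _ ha hb') (hmul _ _ hb (neg_mem ha'))

/-- Outside finitely many primes, two lists of places differing by a fixed nonzero class do not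
have the same reduction. -/
theorem exists_finset_no_congruence {E : Divisor Qb F}
    (hE : 4 * (genusFF Qb F : ℤ) + 2 ≤ Divisor.degree E) {n : ℕ} (hn : n ≤ genusFF Qb F)
    {R0 R1 : Fin n → Place Qb F}
    (hR : (∑ i, Finsupp.single (R1 i) 1) - (∑ i, Finsupp.single (R0 i) 1)
      ∉ Divisor.principal (K := Qb) (F := F)) :
    ∃ T : Finset Qb, ∀ A : ValuationSubring Qb, (∀ t ∈ T, t ∈ A) →
      ∀ (P P' : Fin n → Place Qb F) (u u' : Fin n → Fin (ell Qb F E) → Qb) (β β' : Fin n → Qb),
        (∀ i, u i = β i • evVec E (P i)) → (∀ i, u' i = β' i • evVec E (P' i)) →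
        (∀ i j, u i j ∈ A) → (∀ i j, u' i j ∈ A) → (∀ i, ∃ j, u i j = 1) → (∀ i, ∃ j, u' i j = 1) →
        (∀ i j, u' i j - u i j ∈ A.nonunits) →
        (∑ i, Finsupp.single (P i) 1) + (∑ i, Finsupp.single (R1 i) 1)
          - ((∑ i, Finsupp.single (P' i) 1) + ∑ i, Finsupp.single (R0 i) 1)
          ∈ Divisor.principal (K := Qb) (F := F) → False := by
  classical
  have hEg : 2 * (genusFF Qb F : ℤ) ≤ Divisor.degree E := by omega
  set k : ℕ := (Divisor.degree E).toNat - 1 with hkdef
  have he : ((Divisor.degree E).toNat : ℤ) = Divisor.degree E := Int.toNat_of_nonneg (by omega)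
  have hm : ((1 + k : ℕ) : ℤ) = (1 : ℕ) * Divisor.degree E := by
    rw [hkdef, Nat.cast_add, Nat.cast_sub (by omega), he]; push_cast; ring
  have hr : n + (n + (1 + k - 2 * n)) = 1 + k := by omega
  let pos : Fin n ⊕ (Fin n ⊕ Fin (1 + k - 2 * n)) ≃ Fin (1 + k) :=
    ((Equiv.sumCongr (Equiv.refl _) finSumFinEquiv).trans finSumFinEquiv).trans (finCongr hr)
  let R : Bool → Fin n → Place Qb F := fun s => cond s R1 R0
  obtain ⟨N, lam, hlam⟩ := exists_coords ((1 + k) • E)
  obtain ⟨M, p, hp⟩ := exists_curve_generators E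
  obtain ⟨Tc, hTc⟩ := exists_finset_rel_mem E 1 k
  obtain ⟨T1, hT1⟩ := exists_finset_unit_value (incBlk E 1 k) (incEq pos R p lam)
    (incCross pos E) (exists_block_eq_zero pos (R := R) hE hm hR hp hlam)
  refine ⟨T1 ∪ Tc, fun A hA P P' u u' β β' hu hu' huA hu'A hone hone' hcong hPP => ?_⟩
  obtain ⟨Xl, a0, ha0, hzl⟩ := exists_zeroLists pos hE hm hn hr R0 R1 P P' hPP
  obtain ⟨U, b, hUA, hUone, hUb, hUfirst, hUlast⟩ :=
    exists_point_coords pos A hEg R Xl hu hu' huA hu'A hone hone'
  choose α hα0 hαA iα hiα using fun s => exists_normalise_val A (ha0 s)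
  choose c0 hc0 using fun s => exists_isRel (ha0 s) (hzl s)
  let c : Bool → MIdx E (1 + k) → Fin (ell Qb F (k • E)) → Qb :=
    fun s => ((∏ i, b s i) / α s) • c0 s
  have hrel : ∀ s, IsRel E 1 k (α s • a0 s) (U s) (c s) := fun s => by
    rw [show U s = fun i => b s i • evVec E _ from funext (hUb s)]
    exact (hc0 s).scale (hα0 s) (b s)
  have hcA : ∀ s μ j, c s μ j ∈ A := fun s μ j =>
    hTc A (fun t ht => hA t (Finset.mem_union_right _ ht)) _ _ _ (hαA s) ⟨_, hiα s⟩ (hUA s)
      (hrel s) μ j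
  set z : IncVar E 1 k → Qb := Sum.elim (fun t => (α t.1 • a0 t.1) t.2)
    (Sum.elim (fun t => U t.1 t.2.1 t.2.2) (fun t => c t.1 t.2.1 t.2.2)) with hz
  have hzA : ∀ t, z t ∈ A := by
    rintro (⟨s, j⟩ | ⟨s, i, j⟩ | ⟨s, μ, j⟩)
    · exact hαA s j
    · exact hUA s i j
    · exact hcA s μ j
  have hblk : ∀ bb, ∃ j, z (incBlk E 1 k bb j) = 1 := by
    rintro (s | ⟨s, i⟩)
    · exact ⟨iα s, hiα s⟩
    · exact hUone s i
  have hzero := eval_incEq_eq_zero pos (R := R) (lam := lam) hp hUb
    (fun s i => by rw [Equiv.symm_apply_apply]; rfl) hUlast hrel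
  obtain ⟨⟨i, kl⟩, hunit⟩ := hT1 A (fun t ht => hA t (Finset.mem_union_left _ ht)) z hzA hzero hblk
  refine hunit ?_
  simp only [incCross, map_sub, map_mul, eval_X, hz, ptVar, Sum.elim_inl, Sum.elim_inr, hUfirst,
    cond_true, cond_false]
  exact cross_mem_nonunits A (huA i _) (huA i _) (hcong i _) (hcong i _)

end FLTAgent.MordellWeil
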