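import Fermat.Agent.MordellWeil.Inertia
import Fermat.Agent.ExtVanishing.Places

/-!
# Inertia in the absolute Galois group

`exists_inertia_sqrt_congr`: at an odd prime where the valuation is odd, some automorphism fixing
`L` moves the square root and fixes given residues; used for the weak Mordell–Weil theorem.
-/

set_option autoImplicit false

noncomputable section

open NumberField IsDedekindDomain WithZero FLTAgent.Density FLTAgent.ExtVanishing

namespace FLTAgent.MordellWeil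

theorem exists_prime_natCast_mem {L : Type*} [Field L] [NumberField L]
    (v : HeightOneSpectrum (𝓞 L)) : ∃ q : ℕ, q.Prime ∧ (q : 𝓞 L) ∈ v.asIdeal := by
  have hne : v.asIdeal.under ℤ ≠ ⊥ := Ideal.IsIntegral.comap_ne_bot _ v.ne_bot
  obtain ⟨n, hn⟩ := (IsPrincipalIdealRing.principal (v.asIdeal.under ℤ)).principal
  rw [Ideal.submodule_span_eq] at hn
  have hn0 : n ≠ 0 := fun h => hne (by rw [hn, h]; simp)
  have hsp : (Ideal.span {n}).IsPrime := by
    rw [← hn]; exact Ideal.IsPrime.comap _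
  have hp : Prime n := (Ideal.span_singleton_prime hn0).mp hsp
  refine ⟨n.natAbs, Int.prime_iff_natAbs_prime.mp hp, ?_⟩
  have h1 : (n.natAbs : ℤ) ∈ v.asIdeal.under ℤ := by
    rw [hn]; exact Ideal.mem_span_singleton.mpr (Int.dvd_natAbs.mpr dvd_rfl)
  have h2 : algebraMap ℤ (𝓞 L) (n.natAbs : ℤ) ∈ v.asIdeal := h1
  rwa [eq_intCast, Int.cast_natCast] at h2

variable (L : IntermediateField ℚ Qbar) [NumberField L]

theorem exists_place_of_prime (v : HeightOneSpectrum (𝓞 L)) :
    ∃ (q : ℕ) (A : ValuationSubring Qbar), q.Prime ∧ A.LiesOverPrime q ∧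
      (primeBelow A).comap (intEmb L) = v.asIdeal := by
  obtain ⟨q, hq, hqv⟩ := exists_prime_natCast_mem v
  have := v.isPrime
  obtain ⟨A, hA, hAv⟩ := exists_place_over L hq v.asIdeal hqv
  exact ⟨q, A, hq, hA, hAv⟩

omit [NumberField L] in
theorem natCast_notMem_nonunits_of_notMem {v : HeightOneSpectrum (𝓞 L)}
    {A : ValuationSubring Qbar} (hA : (primeBelow A).comap (intEmb L) = v.asIdeal) {d : ℕ}
    (hd : (d : 𝓞 L) ∉ v.asIdeal) : (d : Qbar) ∉ A.nonunits := by
  intro h
  refine hd ?_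
  rw [← hA, Ideal.mem_comap, map_natCast, mem_primeBelow]
  simpa using h

theorem sub_mem_nonunits_of_div {A : ValuationSubring Qbar} {σ : Qbar ≃ₐ[ℚ] Qbar} {x a s : Qbar}
    (hs : s ∈ A) (hs' : s ∉ A.nonunits) (ha : a ∈ A) (hxs : x * s = a)
    (hσa : σ a - a ∈ A.nonunits) (hσs : σ s - s ∈ A.nonunits) :
    σ x ∈ A ∧ σ x - x ∈ A.nonunits := by
  have hinv : ∀ {t : Qbar}, t ∈ A → t ∉ A.nonunits → t ≠ 0 ∧ t⁻¹ ∈ A := fun ht ht' => by
    rw [A.mem_nonunits_iff_or] at ht'
    push Not at ht'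
    exact ht'
  have hmul : ∀ {c y : Qbar}, c ∈ A → y ∈ A.nonunits → c * y ∈ A.nonunits := fun hc hy => by
    rw [A.mem_nonunits_iff, map_mul]
    exact lt_of_le_of_lt (mul_le_of_le_one_left' ((A.valuation_le_one_iff _).mpr hc))
      (A.mem_nonunits_iff.mp hy)
  have hσsA : σ s ∈ A := by simpa using add_mem (A.nonunits_subset hσs) hs
  have hσs' : σ s ∉ A.nonunits := fun h => hs' (by simpa using sub_mem h hσs)
  have hσaA : σ a ∈ A := by simpa using add_mem (A.nonunits_subset hσa) ha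
  obtain ⟨hs0, hsi⟩ := hinv hs hs'
  obtain ⟨hσs0, hσsi⟩ := hinv hσsA hσs'
  have hσx : σ x = σ a * (σ s)⁻¹ := by
    rw [← hxs, map_mul, mul_inv_cancel_right₀ hσs0]
  have hσxA : σ x ∈ A := hσx ▸ mul_mem hσaA hσsi
  refine ⟨hσxA, ?_⟩
  have e : σ x - x = s⁻¹ * ((σ a - a) - σ x * (σ s - s)) := by
    rw [← hxs, map_mul]; field_simp; ring
  rw [e]
  exact hmul hsi (sub_mem hσa (hmul hσxA hσs))

/-- Inertia above an odd place of a square moves the root. -/
theorem exists_inertia_sqrt_congr {v : HeightOneSpectrum (𝓞 L)} {q : ℕ} (hq : q.Prime)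
    {A : ValuationSubring Qbar} (hqA : A.LiesOverPrime q)
    (hA : (primeBelow A).comap (intEmb L) = v.asIdeal) {α : L} (hα : α ≠ 0)
    (hodd : Odd (log (v.valuation L α))) {β : Qbar} (hβ : β ^ 2 = (α : Qbar)) (S : Finset Qbar)
    (hS : ∀ x ∈ S, x ∈ A) :
    ∃ σ ∈ L.fixingSubgroup, σ β ≠ β ∧ ∀ x ∈ S, σ x ∈ A ∧ σ x - x ∈ A.nonunits := by
  classical
  choose a s hs has using fun x : S => exists_eq_div hq hqA (hS x x.2)
  let gens : Set Qbar :=
    {β} ∪ Set.range (fun x => (a x : Qbar)) ∪ Set.range (fun x => (s x : Qbar))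
  have : FiniteDimensional L (IntermediateField.adjoin L gens) :=
    have : Finite gens := Set.finite_coe_iff.mpr
      (((Set.finite_singleton β).union (Set.finite_range _)).union (Set.finite_range _))
    IntermediateField.finiteDimensional_adjoin fun x _ => Algebra.IsIntegral.isIntegral x
  let N : IntermediateField L Qbar :=
    IntermediateField.normalClosure L (IntermediateField.adjoin L gens) Qbar
  have hle : IntermediateField.adjoin L gens ≤ N := IntermediateField.le_normalClosure _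
  have hgen : ∀ {y}, y ∈ gens → y ∈ N := fun hy => hle (IntermediateField.subset_adjoin L gens hy)
  have : IsGalois L Qbar := IsGalois.tower_top_of_isGalois ℚ L Qbar
  have : IsGalois L N := {}
  have : FiniteDimensional ℚ N := FiniteDimensional.trans ℚ L N
  have : NumberField N := {}
  let iN : 𝓞 N →+* Zbar :=
    { toFun := fun y => ⟨((y : N) : Qbar), (y.isIntegral_coe).map ((N.val.restrictScalars ℤ))⟩
      map_one' := rfl
      map_mul' := fun _ _ => rfl
      map_zero' := rfl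
      map_add' := fun _ _ => rfl }
  let Q : Ideal (𝓞 N) := (primeBelow A).comap iN
  have hQp : Q.IsPrime := Ideal.IsPrime.comap _
  have hQne : Q ≠ ⊥ := by
    intro h
    have hqQ : (q : 𝓞 N) ∈ Q := by
      rw [Ideal.mem_comap, map_natCast, mem_primeBelow]
      simpa [ValuationSubring.LiesOverPrime] using hqA
    rw [h, Ideal.mem_bot, Nat.cast_eq_zero] at hqQ
    exact hq.ne_zero hqQ
  have hv : primeUnder (K := L) (⟨Q, hQp, hQne⟩ : HeightOneSpectrum (𝓞 N)) = v := by
    refine HeightOneSpectrum.ext ?_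
    rw [← hA]
    rfl
  obtain ⟨g, hg, hgβ⟩ := exists_inertia_moves_sqrt (K := L)
    (⟨Q, hQp, hQne⟩ : HeightOneSpectrum (𝓞 N))
    hα (β := ⟨β, hgen (Or.inl (Or.inl rfl))⟩) (Subtype.ext hβ) (by rw [hv]; exact hodd)
  let σ : Qbar ≃ₐ[ℚ] Qbar := (g.liftNormal Qbar).restrictScalars ℚ
  have hσN : ∀ y : N, σ (y : Qbar) = ((g y : N) : Qbar) := fun y =>
    AlgEquiv.liftNormal_commutes g Qbar y
  refine ⟨σ, fun y => ?_, fun h => hgβ (Subtype.ext ((hσN _).symm.trans h)), fun x hx => ?_⟩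
  · exact (g.liftNormal Qbar).commutes y
  have hcong : ∀ z : Zbar, (z : Qbar) ∈ gens → σ z - z ∈ A.nonunits := by
    intro z hz
    let zN : N := ⟨z, hgen hz⟩
    have hzi : IsIntegral ℤ zN :=
      (isIntegral_algHom_iff (N.val.restrictScalars ℤ) Subtype.val_injective).mp z.2
    have h := hg ⟨zN, hzi⟩
    rw [Ideal.mem_comap, mem_primeBelow] at h
    have e : σ (z : Qbar) = ((g zN : N) : Qbar) := hσN zN
    rw [e]
    exact h
  exact sub_mem_nonunits_of_div (mem_of_isIntegral A (s ⟨x, hx⟩).2)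
    (fun h => hs ⟨x, hx⟩ (mem_primeBelow.mpr h)) (mem_of_isIntegral A (a ⟨x, hx⟩).2)
    (has ⟨x, hx⟩) (hcong _ (Or.inl (Or.inr ⟨_, rfl⟩))) (hcong _ (Or.inr ⟨_, rfl⟩))

end FLTAgent.MordellWeil
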