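import Fermat.Agent.MordellWeil.LinePoly

/-!
# The relation between a section and the lines through its zeros

Powers of a nonzero section of `d • E` satisfy a relation with products of lines through its
zeros (`exists_isRel`); `exists_gauge_key` gives two-sided bounds for it at every absolute
value.
-/

set_option autoImplicit false

noncomputable section

open AlgebraicCurve FLTAgent.FFRiemannRoch FLTAgent.FFBasic MvPolynomial

namespace FLTAgent.MordellWeil

section Generic

variable {K F : Type*} [Field K] [Field F] [Algebra K F] [IsAlgClosed K] [IsFunctionField K F]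

/-- Index of the products of linear forms. -/
abbrev MIdx (E : Divisor K F) (m : ℕ) : Type :=
  Fin m → Fin (ell K F E) × Fin (ell K F E)

/-- The section `a` times the sections `c μ` gives all products of linear forms through `u`. -/
def IsRel (E : Divisor K F) (d k : ℕ) (a : Fin (ell K F (d • E)) → K)
    (u : Fin (d + k) → Fin (ell K F E) → K)
    (c : MIdx E (d + k) → Fin (ell K F (k • E)) → K) : Prop :=
  ∀ μ : MIdx E (d + k),
    secOf (d • E) a * secOf (k • E) (c μ) = ∏ i, om E (u i) (μ i)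

/-- `P` lists the zeros of the section `a` of `d • E`. -/
def IsZeroList (E : Divisor K F) (d k : ℕ) (a : Fin (ell K F (d • E)) → K)
    (P : Fin (d + k) → Place K F) : Prop :=
  ∀ Q, Q.ord (secOf (d • E) a) + (d • E) Q = ∑ j, incid (P j) Q

omit [IsAlgClosed K] in
theorem prod_om_mem (E : Divisor K F) {m : ℕ} (u : Fin m → Fin (ell K F E) → K)
    (μ : MIdx E m) : ∏ i, om E (u i) (μ i) ∈ riemannRochSpace (m • E) :=
  nsmul_mem_space _ fun _i => om_mem E _ _

theorem prod_om_mem_filt (E : Divisor K F) {m : ℕ} (P : Fin m → Place K F)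
    (μ : MIdx E m) (Q : Place K F) :
    ∏ i, om E (evVec E (P i)) (μ i) ∈ filt Q (-(m • E) Q + ∑ i, incid (P i) Q) := by
  have h := prod_mem_filt Finset.univ (P := Q) (fun i => -E Q + incid (P i) Q)
    (fun i => om E (evVec E (P i)) (μ i)) fun i _ => om_evVec_mem_filt E (P i) Q (μ i)
  rwa [Finset.sum_add_distrib, Finset.sum_const, Finset.card_univ, Fintype.card_fin,
    nsmul_eq_mul, mul_neg, ← nsmul_eq_mul, ← Finsupp.smul_apply] at h

theorem coefAt_prod_om (E : Divisor K F) {m : ℕ} (P : Fin m → Place K F)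
    (μ : MIdx E m) (Q : Place K F) :
    coefAt Q (-(m • E) Q + ∑ i, incid (P i) Q) (∏ i, om E (evVec E (P i)) (μ i))
      = ∏ i, lineVec E (P i) Q (μ i) := by
  have h := coefAt_prod Finset.univ (P := Q) (fun i => -E Q + incid (P i) Q)
    (fun i => om E (evVec E (P i)) (μ i)) fun i _ => om_evVec_mem_filt E (P i) Q (μ i)
  rwa [Finset.sum_add_distrib, Finset.sum_const, Finset.card_univ, Fintype.card_fin,
    nsmul_eq_mul, mul_neg, ← nsmul_eq_mul, ← Finsupp.smul_apply] at h

theorem exists_isRel {E : Divisor K F} {d k : ℕ} {a : Fin (ell K F (d • E)) → K} (ha : a ≠ 0)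
    {P : Fin (d + k) → Place K F} (hP : IsZeroList E d k a P) :
    ∃ c, IsRel E d k a (fun i => evVec E (P i)) c := by
  have hA : secOf (d • E) a ≠ 0 := fun h => ha ((secOf_eq_zero_iff _).mp h)
  have hmem : ∀ μ : MIdx E (d + k),
      (∏ i, om E (evVec E (P i)) (μ i)) / secOf (d • E) a ∈ riemannRochSpace (k • E) := by
    intro μ
    rw [mem_riemannRochSpace_filt]
    intro Q
    have h1 := prod_om_mem_filt E P μ Q
    rcases eq_or_ne (∏ i, om E (evVec E (P i)) (μ i)) 0 with h0 | h0
    · rw [h0, zero_div]; exact zero_mem _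
    · refine mem_filt_of_le ?_
      have h2 := le_ord_of_mem_filt h1 h0
      rw [div_eq_mul_inv, Q.ord_mul h0 (inv_ne_zero hA), Q.ord_inv]
      have h3 := hP Q
      simp only [Finsupp.smul_apply, add_nsmul, Finsupp.add_apply] at h2 h3 ⊢
      omega
  choose c hc using fun μ => exists_eq_sum_secBasis (hmem μ)
  exact ⟨c, fun μ => by rw [secOf, secOf, ← hc μ]; exact mul_div_cancel₀ _ hA⟩

theorem coefAt_rel {E : Divisor K F} {d k : ℕ} {a : Fin (ell K F (d • E)) → K}
    {P : Fin (d + k) → Place K F} {c : MIdx E (d + k) → Fin (ell K F (k • E)) → K}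
    (h : IsRel E d k a (fun i => evVec E (P i)) c) (Q : Place K F) {n : ℤ}
    (hn : secOf (d • E) a ∈ filt Q n)
    (hnP : n + -(k • E) Q = -((d + k) • E) Q + ∑ i, incid (P i) Q) (μ : MIdx E (d + k)) :
    coefAt Q n (secOf (d • E) a) * evAt (k • E) Q (secOf (k • E) (c μ))
      = ∏ i, lineVec E (P i) Q (μ i) := by
  rw [evAt, ← coefAt_mul hn (mem_filt_of_mem_space (secOf_mem _ _) Q), h μ, hnP, coefAt_prod_om]

/-- A relation with nonzero `a` determines the zeros of `a`. -/
theorem isZeroList_of_isRel {E : Divisor K F}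
    (hE : 4 * (genusFF K F : ℤ) + 2 ≤ Divisor.degree E) {d k : ℕ}
    (hm : ((d + k : ℕ) : ℤ) = d * Divisor.degree E)
    {a : Fin (ell K F (d • E)) → K} (ha : a ≠ 0) {P : Fin (d + k) → Place K F}
    {c : MIdx E (d + k) → Fin (ell K F (k • E)) → K}
    (h : IsRel E d k a (fun i => evVec E (P i)) c) :
    IsZeroList E d k a P ∧ ∀ Q, ∃ μ, evAt (k • E) Q (secOf (k • E) (c μ)) ≠ 0 := by
  classical
  have hA : secOf (d • E) a ≠ 0 := fun h0 => ha ((secOf_eq_zero_iff _).mp h0)
  have key : ∀ Q, ∃ μ : MIdx E (d + k), secOf (k • E) (c μ) ≠ 0 ∧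
      Q.ord (secOf (d • E) a) + Q.ord (secOf (k • E) (c μ))
        = -((d + k) • E) Q + ∑ i, incid (P i) Q := by
    intro Q
    choose μ hμ using fun i => Function.ne_iff.mp (lineVec_ne_zero hE (P i) Q)
    have hne : coefAt Q (-((d + k) • E) Q + ∑ i, incid (P i) Q)
        (∏ i, om E (evVec E (P i)) (μ i)) ≠ 0 := by
      rw [coefAt_prod_om]; exact Finset.prod_ne_zero_iff.mpr fun i _ => hμ i
    obtain ⟨h0, hord⟩ := (coefAt_ne_zero_iff_ord_eq (prod_om_mem_filt E P μ Q)).mp hne
    have hC : secOf (k • E) (c μ) ≠ 0 := fun h1 => h0 (by rw [← h μ, h1, mul_zero])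
    exact ⟨μ, hC, by rw [← Q.ord_mul hA hC, h μ, hord]⟩
  set D1 : Divisor K F := divOf (secOf (d • E) a) + d • E with hD1
  set D2 : Divisor K F := ∑ i, Finsupp.single (P i) 1 with hD2
  have hD2v : ∀ Q, D2 Q = ∑ i, incid (P i) Q := fun Q => by
    simp [hD2, Finsupp.finsetSum_apply, Finsupp.single_apply, incid]
  have hle : D1 ≤ D2 := by
    intro Q
    obtain ⟨μ, hC, hord⟩ := key Q
    have hk := le_ord_of_mem_filt (mem_filt_of_mem_space (secOf_mem (k • E) (c μ)) Q) hC
    rw [hD2v, hD1, Finsupp.add_apply, divOf_apply]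
    simp only [Finsupp.smul_apply, add_nsmul, Finsupp.add_apply] at hord hk ⊢
    omega
  have hdeg : Divisor.degree D2 ≤ Divisor.degree D1 := by
    rw [hD1, hD2, map_sum, map_add, degree_divOf, map_nsmul, nsmul_eq_mul, ← hm, zero_add]
    simp [deg_eq_one]
  have heq := eq_of_le_of_degree_le hle hdeg
  have hzero : IsZeroList E d k a P := fun Q => by
    have := DFunLike.congr_fun heq Q
    rwa [hD2v, hD1, Finsupp.add_apply, divOf_apply] at this
  refine ⟨hzero, fun Q => ?_⟩
  obtain ⟨μ, hC, hord⟩ := key Q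
  refine ⟨μ, (coefAt_ne_zero_iff_ord_eq (mem_filt_of_mem_space (secOf_mem _ _) Q)).mpr ⟨hC, ?_⟩⟩
  have hz := hzero Q
  simp only [Finsupp.smul_apply, add_nsmul, Finsupp.add_apply] at hord hz ⊢
  omega

omit [IsAlgClosed K] in
theorem IsRel.scale {E : Divisor K F} {d k : ℕ} {a : Fin (ell K F (d • E)) → K}
    {u : Fin (d + k) → Fin (ell K F E) → K} {c : MIdx E (d + k) → Fin (ell K F (k • E)) → K}
    (h : IsRel E d k a u c) {α : K} (hα : α ≠ 0) (β : Fin (d + k) → K) :
    IsRel E d k (α • a) (fun i => β i • u i) (((∏ i, β i) / α) • c) := by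
  intro μ
  simp only [Pi.smul_apply, secOf_smul, om_smul]
  rw [smul_mul_smul_comm, mul_div_cancel₀ _ hα, h μ, Finset.prod_smul]

end Generic

variable {F : Type*} [Field F] [Algebra Qb F] [IsFunctionField Qb F]

theorem exists_gauge_mul_lower (A B : Divisor Qb F) {N : ℕ} (lam : Fin N → F →ₗ[Qb] Qb)
    (hlam : ∀ f ∈ riemannRochSpace (A + B), (∀ n, lam n f = 0) → f = 0) :
    ∃ G : Gauge, ∀ (v : AbsoluteValue Qb ℝ) (a : Fin (ell Qb F A) → Qb)
      (c : Fin (ell Qb F B) → Qb),
      supNorm v a * supNorm v c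
        ≤ G.val v * supNorm v (fun n => lam n (secOf A a * secOf B c)) := by
  classical
  let Z := Fin (ell Qb F A) ⊕ Fin (ell Qb F B)
  let g : Fin N → MvPolynomial Z Qb := fun n =>
    mapLin (lam n) (genSec A Sum.inl * genSec B Sum.inr)
  have hg : ∀ (z : Z → Qb) n, eval z (g n)
      = lam n (secOf A (fun i => z (.inl i)) * secOf B (fun i => z (.inr i))) := fun z n => by
    rw [eval_mapLin, map_mul, eval_genSec, eval_genSec]
  let blk : ∀ b : Bool, Fin (cond b (ell Qb F A) (ell Qb F B)) → Z := fun b =>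
    match b with
    | true => Sum.inl
    | false => Sum.inr
  obtain ⟨G, n, hG⟩ := exists_gauge_lower_bound blk (fun e : Empty => e.elim) g (by
    intro z _ hz
    have h0 : secOf A (fun i => z (.inl i)) * secOf B (fun i => z (.inr i)) = 0 :=
      hlam _ (mul_mem_riemannRochSpace (secOf_mem _ _) (secOf_mem _ _)) fun n => by
        rw [← hg]; exact hz n
    rcases mul_eq_zero.mp h0 with h | h
    · exact ⟨true, congrFun ((secOf_eq_zero_iff A).mp h)⟩
    · exact ⟨false, congrFun ((secOf_eq_zero_iff B).mp h)⟩)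
  refine ⟨G, fun v a c => ?_⟩
  rcases eq_or_ne a 0 with rfl | ha
  · rw [(supNorm_eq_zero_iff v).mpr rfl, zero_mul]
    exact mul_nonneg (G.val_nonneg v) (supNorm_nonneg v _)
  rcases eq_or_ne c 0 with rfl | hc
  · rw [(supNorm_eq_zero_iff v).mpr rfl, mul_zero]
    exact mul_nonneg (G.val_nonneg v) (supNorm_nonneg v _)
  obtain ⟨α, -, hα, hαa, i, hi⟩ := exists_normalise v ha
  obtain ⟨β, -, hβ, hβc, j, hj⟩ := exists_normalise v hc
  set z : Z → Qb := Sum.elim (α • a) (β • c) with hz
  have h := hG v z 1 le_rfl (fun t => by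
      rcases t with t | t
      · exact hαa ▸ le_supNorm v (α • a) t
      · exact hβc ▸ le_supNorm v (β • c) t)
    (fun e => e.elim) (fun b => by
      cases b
      · exact ⟨j, hj⟩
      · exact ⟨i, hi⟩)
  have hval : (fun n => eval z (g n)) = (α * β) • fun n => lam n (secOf A a * secOf B c) := by
    funext n
    rw [hg]
    simp only [hz, Sum.elim_inl, Sum.elim_inr]
    rw [show (fun i => (α • a) i) = α • a from rfl, show (fun i => (β • c) i) = β • c from rfl,
      secOf_smul, secOf_smul, smul_mul_smul_comm, map_smul]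
    rfl
  rw [one_pow, mul_one, hval, supNorm_smul, map_mul] at h
  calc supNorm v a * supNorm v c
      ≤ supNorm v a * supNorm v c *
          (G.val v * (v α * v β * supNorm v (fun n => lam n (secOf A a * secOf B c)))) :=
        le_mul_of_one_le_right (mul_nonneg (supNorm_nonneg v _) (supNorm_nonneg v _)) h
    _ = (v α * supNorm v a) * (v β * supNorm v c) *
          (G.val v * supNorm v (fun n => lam n (secOf A a * secOf B c))) := by ring
    _ = _ := by rw [hα, hβ, one_mul, one_mul]

theorem exists_gauge_prod_om (E : Divisor Qb F) (m : ℕ) {N : ℕ} (lam : Fin N → F →ₗ[Qb] Qb) :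
    ∃ G : Gauge, ∀ (v : AbsoluteValue Qb ℝ) (u : Fin m → Fin (ell Qb F E) → Qb)
      (μ : MIdx E m),
      supNorm v (fun n => lam n (∏ i, om E (u i) (μ i))) ≤ G.val v * ∏ i, supNorm v (u i) := by
  classical
  let Z := Fin m × Fin (ell Qb F E)
  obtain ⟨G, hG⟩ := exists_gauge_eval_family (fun q : MIdx E m × Fin N =>
    mapLin (lam q.2) (∏ i, genOm E (fun j => ((i, j) : Z)) (q.1 i)))
  refine ⟨G, fun v u μ => ?_⟩
  by_cases hu : ∀ i, u i ≠ 0
  · choose β hβ0 hβ hβu j hj using fun i => exists_normalise v (hu i)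
    have h := hG v (fun t => (β t.1 • u t.1) t.2) fun t =>
      hβu t.1 ▸ le_supNorm v (β t.1 • u t.1) t.2
    have hval : ∀ n, eval (fun t : Z => (β t.1 • u t.1) t.2)
        (mapLin (lam n) (∏ i, genOm E (fun j => ((i, j) : Z)) (μ i)))
        = (∏ i, β i) * lam n (∏ i, om E (u i) (μ i)) := fun n => by
      rw [eval_mapLin, map_prod]
      simp only [eval_genOm]
      simp only [show ∀ i, (fun j => (β i • u i) j) = β i • u i from fun i => rfl, om_smul,
        Finset.prod_smul, map_smul, smul_eq_mul]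
    refine supNorm_le v (mul_nonneg (G.val_nonneg v)
      (Finset.prod_nonneg fun i _ => supNorm_nonneg v _)) fun n => ?_
    have h2 := (le_supNorm v _ (μ, n)).trans h
    rw [show eval (fun t : Z => (β t.1 • u t.1) t.2)
      (mapLin (lam n) (∏ i, genOm E (fun j => ((i, j) : Z)) (μ i))) = _ from hval n,
      map_mul, map_prod] at h2
    calc v (lam n (∏ i, om E (u i) (μ i)))
        = (∏ i, (v (β i) * supNorm v (u i))) * v (lam n (∏ i, om E (u i) (μ i))) := by
          simp [hβ]
      _ = (∏ i, supNorm v (u i)) * ((∏ i, v (β i)) * v (lam n (∏ i, om E (u i) (μ i)))) := by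
          rw [Finset.prod_mul_distrib]; ring
      _ ≤ _ := by
          rw [mul_comm (G.val v)]
          exact mul_le_mul_of_nonneg_left h2 (Finset.prod_nonneg fun i _ => supNorm_nonneg v _)
  · push Not at hu
    obtain ⟨i, hi⟩ := hu
    have h0 : ∏ i, om E (u i) (μ i) = 0 :=
      Finset.prod_eq_zero (Finset.mem_univ i) (by simp [hi, om])
    refine supNorm_le v (mul_nonneg (G.val_nonneg v)
      (Finset.prod_nonneg fun i _ => supNorm_nonneg v _)) fun n => ?_
    simp only [h0, map_zero]
    exact mul_nonneg (G.val_nonneg v) (Finset.prod_nonneg fun i _ => supNorm_nonneg v _)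

theorem exists_gauge_evVec_nsmul {E : Divisor Qb F}
    (hE : 4 * (genusFF Qb F : ℤ) + 2 ≤ Divisor.degree E) {k : ℕ} (hk : 1 ≤ k) :
    ∃ G : Gauge, ∀ (v : AbsoluteValue Qb ℝ) (Q : Place Qb F),
      supNorm v (evVec (k • E) Q) ≤ G.val v * supNorm v (evVec E Q) ^ k := by
  obtain ⟨f, hf⟩ := exists_formPoly hE hk
  obtain ⟨G, hG⟩ := exists_gauge_eval_family f
  refine ⟨G, fun v Q => ?_⟩
  obtain ⟨γ, -, hγ, hγw, -⟩ := exists_normalise v (evVec_ne_zero (Z := E) (by omega) Q)
  have h := hG v (γ • evVec E Q) fun i => hγw ▸ le_supNorm v (γ • evVec E Q) i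
  simp only [hf] at h
  rw [show (fun j => γ ^ k * evVec (k • E) Q j) = γ ^ k • evVec (k • E) Q from rfl,
    supNorm_smul, map_pow] at h
  calc supNorm v (evVec (k • E) Q)
      = (v γ * supNorm v (evVec E Q)) ^ k * supNorm v (evVec (k • E) Q) := by rw [hγ]; simp
    _ = supNorm v (evVec E Q) ^ k * (v γ ^ k * supNorm v (evVec (k • E) Q)) := by ring
    _ ≤ _ := by
      rw [mul_comm (G.val v)]
      exact mul_le_mul_of_nonneg_left h (pow_nonneg (supNorm_nonneg v _) _)

/-- The coefficient bound: the `c μ` are no larger than the points allow. -/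
theorem exists_gauge_rel_coeff (E : Divisor Qb F) (d k : ℕ) :
    ∃ G : Gauge, ∀ (v : AbsoluteValue Qb ℝ) (a : Fin (ell Qb F (d • E)) → Qb)
      (u : Fin (d + k) → Fin (ell Qb F E) → Qb)
      (c : MIdx E (d + k) → Fin (ell Qb F (k • E)) → Qb), IsRel E d k a u c →
      ∀ μ, supNorm v a * supNorm v (c μ) ≤ G.val v * ∏ i, supNorm v (u i) := by
  obtain ⟨N, lam, hlam⟩ := exists_coords (d • E + k • E)
  obtain ⟨G1, h1⟩ := exists_gauge_mul_lower (d • E) (k • E) lam hlam
  obtain ⟨G2, h2⟩ := exists_gauge_prod_om E (d + k) lam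
  refine ⟨G1 * G2, fun v a u c hrel μ => (h1 v a (c μ)).trans ?_⟩
  rw [hrel μ, Gauge.val_mul, mul_assoc]
  exact mul_le_mul_of_nonneg_left (h2 v u μ) (G1.val_nonneg v)

/-- Variables of the incidence variety: section, points, cofactors, test point. -/
abbrev KeyVar (E : Divisor Qb F) (d k : ℕ) : Type :=
  (Fin (ell Qb F (d • E)) ⊕ (Fin (d + k) × Fin (ell Qb F E))) ⊕
    ((MIdx E (d + k) × Fin (ell Qb F (k • E))) ⊕ Fin (ell Qb F E))

/-- Blocks of the incidence variety. -/
def keyBlk (E : Divisor Qb F) (d k : ℕ) :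
    ∀ b : Fin (d + k) ⊕ Bool,
      Fin (Sum.elim (fun _ : Fin (d + k) => ell Qb F E)
        (fun t : Bool => cond t (ell Qb F (d • E)) (ell Qb F E)) b) → KeyVar E d k
  | .inl i => fun j => .inl (.inr (i, j))
  | .inr true => fun j => .inl (.inl j)
  | .inr false => fun j => .inr (.inr j)

/-- The variables holding a marked point: a zero of the section, or the test point. -/
private def keyPtVar (E : Divisor Qb F) (d k : ℕ) :
    Option (Fin (d + k)) → Fin (ell Qb F E) → KeyVar E d k :=
  fun o => o.elim (fun j => .inr (.inr j)) fun i j => .inl (.inr (i, j))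

/-- Equations of the incidence variety: the points lie on the curve and the relation holds. -/
private def keyEqn (E : Divisor Qb F) (d k : ℕ) {M N : ℕ}
    (p : Fin M → MvPolynomial (Fin (ell Qb F E)) Qb) (lam : Fin N → F →ₗ[Qb] Qb) :
    (Option (Fin (d + k)) × Fin M) ⊕ (MIdx E (d + k) × Fin N) →
      MvPolynomial (KeyVar E d k) Qb :=
  Sum.elim (fun t => rename (keyPtVar E d k t.1) (p t.2))
    fun t => mapLin (lam t.2)
      (genSec (d • E) (fun j => .inl (.inl j)) *
          genSec (k • E) (fun j => .inr (.inl (t.1, j)))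
        - ∏ i, genOm E (fun j => .inl (.inr (i, j))) (t.1 i))

/-- The cofactor `μ` evaluated at the test point. -/
private def keyTest (E : Divisor Qb F) (d k : ℕ)
    (f : Fin (ell Qb F (k • E)) → MvPolynomial (Fin (ell Qb F E)) Qb) (μ : MIdx E (d + k)) :
    MvPolynomial (KeyVar E d k) Qb :=
  ∑ j, X (.inr (.inl (μ, j))) * rename (fun l => .inr (.inr l)) (f j)

/-- The point of the incidence variety given by a section, points, cofactors and a test point. -/
private def keyPt {E : Divisor Qb F} {d k : ℕ} (a : Fin (ell Qb F (d • E)) → Qb)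
    (u : Fin (d + k) → Fin (ell Qb F E) → Qb)
    (c : MIdx E (d + k) → Fin (ell Qb F (k • E)) → Qb) (w : Fin (ell Qb F E) → Qb) :
    KeyVar E d k → Qb :=
  Sum.elim (Sum.elim a fun t => u t.1 t.2) (Sum.elim (fun t => c t.1 t.2) w)

/-- The incidence variety is degenerate where all cofactors vanish at the test point: some
block of variables is zero. -/
private lemma exists_keyBlk_eq_zero {E : Divisor Qb F}
    (hE : 4 * (genusFF Qb F : ℤ) + 2 ≤ Divisor.degree E) {d k M N : ℕ}
    (hm : ((d + k : ℕ) : ℤ) = d * Divisor.degree E)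
    {p : Fin M → MvPolynomial (Fin (ell Qb F E)) Qb}
    (hp : Ideal.span (Set.range p) = RingHom.ker (curveHom E).toRingHom)
    {lam : Fin N → F →ₗ[Qb] Qb}
    (hlam : ∀ f ∈ riemannRochSpace ((d + k) • E), (∀ n, lam n f = 0) → f = 0)
    {f : Fin (ell Qb F (k • E)) → MvPolynomial (Fin (ell Qb F E)) Qb}
    (hf : ∀ (P : Place Qb F) (c : Qb) (j : Fin (ell Qb F (k • E))),
      eval (c • evVec E P) (f j) = c ^ k * evVec (k • E) P j)
    (z : KeyVar E d k → Qb) (hz : ∀ t, eval z (keyEqn E d k p lam t) = 0)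
    (hg : ∀ μ, eval z (keyTest E d k f μ) = 0) : ∃ b, ∀ j, z (keyBlk E d k b j) = 0 := by
  classical
  by_contra! hne
  have hpt : ∀ o, ∃ (P : Place Qb F) (lam' : Qb), lam' ≠ 0 ∧
      (fun j => z (keyPtVar E d k o j)) = lam' • evVec E P := fun o => by
    refine exists_place_of_common_zero hE ?_ fun q hq => ?_
    · obtain ⟨j, hj⟩ := hne (o.elim (.inr false) .inl)
      cases o <;> exact fun h0 => hj (congrFun h0 _)
    · have hmem : q ∈ Ideal.span (Set.range p) := hp ▸ hq
      refine (Ideal.span_le (I := RingHom.ker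
        (eval fun j => z (keyPtVar E d k o j)))).mpr ?_ hmem
      rintro _ ⟨j, rfl⟩
      have := hz (.inl (o, j))
      rw [show keyEqn E d k p lam (.inl (o, j)) = rename (keyPtVar E d k o) (p j) from rfl,
        eval_rename] at this
      exact this
  choose P lm hlm0 hlm using hpt
  set a : Fin (ell Qb F (d • E)) → Qb := fun j => z (.inl (.inl j)) with ha_def
  set c : MIdx E (d + k) → Fin (ell Qb F (k • E)) → Qb := fun μ j => z (.inr (.inl (μ, j)))
  have ha : a ≠ 0 := fun h0 => by
    obtain ⟨j, hj⟩ := hne (.inr true); exact hj (congrFun h0 j)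
  have hrel : IsRel E d k a (fun i => lm (some i) • evVec E (P (some i))) c := by
    intro μ
    refine sub_eq_zero.mp (hlam _ (sub_mem ?_ (prod_om_mem E _ μ)) fun n => ?_)
    · rw [add_nsmul]; exact mul_mem_riemannRochSpace (secOf_mem _ _) (secOf_mem _ _)
    · have h := hz (.inr (μ, n))
      simp only [keyEqn, Sum.elim_inr, eval_mapLin, map_sub, map_mul, map_prod, eval_genSec,
        eval_genOm] at h
      rw [map_sub]
      simp only [← hlm]
      exact h
  have hrel2 := hrel.scale one_ne_zero (fun i => (lm (some i))⁻¹)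
  simp only [smul_smul, inv_mul_cancel₀ (hlm0 _), one_smul, div_one] at hrel2
  obtain ⟨μ, hμ⟩ := (isZeroList_of_isRel hE hm ha hrel2).2 (P none)
  refine hμ ?_
  have h := hg μ
  simp only [keyTest, map_sum, map_mul, eval_X, eval_rename] at h
  rw [show (z ∘ fun l => (Sum.inr (Sum.inr l) : KeyVar E d k))
    = fun j => z (keyPtVar E d k none j) from rfl, hlm none] at h
  simp only [hf] at h
  rw [Pi.smul_apply, secOf_smul, map_smul, evAt_secOf, smul_eq_mul]
  rw [show ∑ j, z (.inr (.inl (μ, j))) * (lm none ^ k * evVec (k • E) (P none) j)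
      = lm none ^ k * ∑ j, c μ j * evVec (k • E) (P none) j by
    rw [Finset.mul_sum]; exact Finset.sum_congr rfl fun j _ => by ring] at h
  rw [(mul_eq_zero.mp h).resolve_left (pow_ne_zero _ (hlm0 none)), mul_zero]

/-- A relation between points of the curve gives a point of the incidence variety. -/
private lemma eval_keyEqn_keyPt {E : Divisor Qb F} {d k M N : ℕ}
    {p : Fin M → MvPolynomial (Fin (ell Qb F E)) Qb}
    (hp : Ideal.span (Set.range p) = RingHom.ker (curveHom E).toRingHom)
    (lam : Fin N → F →ₗ[Qb] Qb) {a : Fin (ell Qb F (d • E)) → Qb}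
    {P : Fin (d + k) → Place Qb F} {β : Fin (d + k) → Qb}
    {c : MIdx E (d + k) → Fin (ell Qb F (k • E)) → Qb}
    (hrel : IsRel E d k a (fun i => β i • evVec E (P i)) c) (Q : Place Qb F) (γ : Qb) (t) :
    eval (keyPt a (fun i => β i • evVec E (P i)) c (γ • evVec E Q)) (keyEqn E d k p lam t)
      = 0 := by
  have hpker : ∀ j, curveHom E (p j) = 0 := fun j => by
    have : p j ∈ RingHom.ker (curveHom E).toRingHom := hp ▸ Ideal.subset_span ⟨j, rfl⟩
    exact this
  rcases t with ⟨o, j⟩ | ⟨μ, n⟩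
  · simp only [keyEqn, Sum.elim_inl, eval_rename]
    cases o
    · exact eval_eq_zero_of_curveHom_eq_zero E (hpker j) Q γ
    · rename_i i
      exact eval_eq_zero_of_curveHom_eq_zero E (hpker j) (P i) (β i)
  · simp only [keyEqn, Sum.elim_inr, eval_mapLin, map_sub, map_mul, map_prod, eval_genSec,
      eval_genOm]
    simp only [keyPt, Sum.elim_inl, Sum.elim_inr]
    rw [hrel μ, sub_self]

/-- The lower bound: the cofactors at the test point are not all small. -/
private lemma exists_gauge_key_lower {E : Divisor Qb F}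
    (hE : 4 * (genusFF Qb F : ℤ) + 2 ≤ Divisor.degree E) {d k : ℕ} (hk : 1 ≤ k)
    (hm : ((d + k : ℕ) : ℤ) = d * Divisor.degree E) :
    ∃ G : Gauge, ∀ (v : AbsoluteValue Qb ℝ) (a : Fin (ell Qb F (d • E)) → Qb),
      a ≠ 0 → ∀ (P : Fin (d + k) → Place Qb F)
      (c : MIdx E (d + k) → Fin (ell Qb F (k • E)) → Qb),
      IsRel E d k a (fun i => evVec E (P i)) c → ∀ Q,
      supNorm v (evVec E Q) ^ k * ∏ i, supNorm v (evVec E (P i))
        ≤ G.val v * (supNorm v a *
          supNorm v (fun μ => evAt (k • E) Q (secOf (k • E) (c μ)))) := by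
  classical
  have hEg : 2 * (genusFF Qb F : ℤ) ≤ Divisor.degree E := by omega
  obtain ⟨G12, h12⟩ := exists_gauge_rel_coeff E d k
  obtain ⟨f, hf⟩ := exists_formPoly hE hk
  obtain ⟨N, lam, hlam⟩ := exists_coords ((d + k) • E)
  obtain ⟨M, p, hp⟩ := exists_curve_generators E
  obtain ⟨G, n, hG⟩ := exists_gauge_lower_bound (keyBlk E d k) (keyEqn E d k p lam)
    (keyTest E d k f) (exists_keyBlk_eq_zero hE hm hp hlam hf)
  refine ⟨G * G12.pow n, fun v a ha P c hrel Q => ?_⟩
  obtain ⟨α, hα0, hα, hαa, ja, hja⟩ := exists_normalise v ha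
  choose β hβ0 hβ hβu ju hju using fun i => exists_normalise v (evVec_ne_zero hEg (P i))
  obtain ⟨γ, -, hγ, hγw, jw, hjw⟩ := exists_normalise v (evVec_ne_zero hEg Q)
  have hrel' := hrel.scale hα0 β
  set c' := ((∏ i, β i) / α) • c with hc'
  have hbound : ∀ t, v (keyPt (α • a) (fun i => β i • evVec E (P i)) c' (γ • evVec E Q) t)
      ≤ G12.val v := by
    rintro ((t | t) | (t | t))
    · exact ((le_supNorm v (α • a) t).trans hαa.le).trans (G12.one_le_val v)
    · exact ((le_supNorm v (β t.1 • evVec E (P t.1)) t.2).trans (hβu t.1).le).trans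
        (G12.one_le_val v)
    · have := h12 v _ _ _ hrel' t.1
      simp only [hαa, hβu, one_mul, Finset.prod_const_one, mul_one] at this
      exact (le_supNorm v (c' t.1) t.2).trans this
    · exact ((le_supNorm v (γ • evVec E Q) t).trans hγw.le).trans (G12.one_le_val v)
  have hone : ∀ b, ∃ j, keyPt (α • a) (fun i => β i • evVec E (P i)) c' (γ • evVec E Q)
      (keyBlk E d k b j) = 1 := by
    rintro (i | ⟨_ | _⟩)
    · exact ⟨ju i, hju i⟩
    · exact ⟨jw, hjw⟩
    · exact ⟨ja, hja⟩
  have h := hG v _ (G12.val v) (G12.one_le_val v) hbound (eval_keyEqn_keyPt hp lam hrel' Q γ) hone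
  have hval : (fun μ => eval (keyPt (α • a) (fun i => β i • evVec E (P i)) c' (γ • evVec E Q))
      (keyTest E d k f μ))
      = ((∏ i, β i) / α * γ ^ k) • fun μ => evAt (k • E) Q (secOf (k • E) (c μ)) := by
    funext μ
    simp only [keyTest, map_sum, map_mul, eval_X, eval_rename]
    rw [show (keyPt (α • a) (fun i => β i • evVec E (P i)) c' (γ • evVec E Q) ∘
      fun l => (Sum.inr (Sum.inr l) : KeyVar E d k)) = γ • evVec E Q from rfl]
    simp only [hf, keyPt, Sum.elim_inr, Sum.elim_inl, hc', Pi.smul_apply, smul_eq_mul, evAt_secOf,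
      Finset.mul_sum]
    exact Finset.sum_congr rfl fun j _ => by ring
  rw [hval, supNorm_smul] at h
  set S := supNorm v (fun μ => evAt (k • E) Q (secOf (k • E) (c μ))) with hS
  have hαv : supNorm v a = (v α)⁻¹ := eq_inv_of_mul_eq_one_right hα
  calc supNorm v (evVec E Q) ^ k * ∏ i, supNorm v (evVec E (P i))
      ≤ (supNorm v (evVec E Q) ^ k * ∏ i, supNorm v (evVec E (P i))) *
          (G.val v * G12.val v ^ n * (v ((∏ i, β i) / α * γ ^ k) * S)) :=
        le_mul_of_one_le_right (mul_nonneg (pow_nonneg (supNorm_nonneg v _) k)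
          (Finset.prod_nonneg fun i _ => supNorm_nonneg v _)) h
    _ = (G.val v * G12.val v ^ n) * ((v γ * supNorm v (evVec E Q)) ^ k *
          (∏ i, (v (β i) * supNorm v (evVec E (P i)))) * (supNorm v a * S)) := by
        rw [map_mul, map_div₀, map_prod, map_pow, hαv, Finset.prod_mul_distrib]
        ring
    _ = _ := by simp [hγ, hβ, Gauge.val_mul, Gauge.val_pow]

/-- The upper bound: the cofactors at the test point are no larger than the points allow. -/
private lemma exists_gauge_key_upper {E : Divisor Qb F}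
    (hE : 4 * (genusFF Qb F : ℤ) + 2 ≤ Divisor.degree E) {d k : ℕ} (hk : 1 ≤ k) :
    ∃ G : Gauge, ∀ (v : AbsoluteValue Qb ℝ) (a : Fin (ell Qb F (d • E)) → Qb),
      a ≠ 0 → ∀ (P : Fin (d + k) → Place Qb F)
      (c : MIdx E (d + k) → Fin (ell Qb F (k • E)) → Qb),
      IsRel E d k a (fun i => evVec E (P i)) c → ∀ Q,
      supNorm v a * supNorm v (fun μ => evAt (k • E) Q (secOf (k • E) (c μ)))
        ≤ G.val v * (supNorm v (evVec E Q) ^ k * ∏ i, supNorm v (evVec E (P i))) := by
  obtain ⟨G12, h12⟩ := exists_gauge_rel_coeff E d k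
  obtain ⟨G3, h3⟩ := exists_gauge_evVec_nsmul hE hk
  obtain ⟨G4, hG4⟩ : ∃ G4 : Gauge, G4 = Gauge.ofFamily
      (fun _ : Fin (ell Qb F (k • E)) => (1 : Qb)) := ⟨_, rfl⟩
  refine ⟨G4 * (G3 * G12), fun v a ha P c hrel Q => ?_⟩
  simp only [Gauge.val_mul]
  have hW : 0 ≤ supNorm v (evVec E Q) ^ k := pow_nonneg (supNorm_nonneg v _) k
  have hU : 0 ≤ ∏ i, supNorm v (evVec E (P i)) := Finset.prod_nonneg fun i _ => supNorm_nonneg v _
  set W := supNorm v (evVec E Q) ^ k with hWdef
  set U := ∏ i, supNorm v (evVec E (P i)) with hUdef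
  have hterm : ∀ μ, supNorm v a * v (evAt (k • E) Q (secOf (k • E) (c μ)))
      ≤ G4.val v * (G3.val v * G12.val v) * (W * U) := by
    intro μ
    have hB : 0 ≤ supNorm v (c μ) * (G3.val v * W) :=
      mul_nonneg (supNorm_nonneg v _) (mul_nonneg (G3.val_nonneg v) hW)
    have hsum : v (evAt (k • E) Q (secOf (k • E) (c μ)))
        ≤ G4.val v * (supNorm v (c μ) * (G3.val v * W)) := by
      have := Gauge.apply_sum_le_ofFamily (fun _ : Fin (ell Qb F (k • E)) => (1 : Qb))
        (fun j => c μ j * evVec (k • E) Q j) v hB fun j => by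
          rw [map_mul]
          exact mul_le_mul (le_supNorm v (c μ) j)
            ((le_supNorm v (evVec (k • E) Q) j).trans (h3 v Q)) (v.nonneg _) (supNorm_nonneg v _)
      simpa [evAt_secOf, hG4] using this
    calc supNorm v a * v (evAt (k • E) Q (secOf (k • E) (c μ)))
        ≤ supNorm v a * (G4.val v * (supNorm v (c μ) * (G3.val v * W))) :=
          mul_le_mul_of_nonneg_left hsum (supNorm_nonneg v _)
      _ = G4.val v * (G3.val v * W) * (supNorm v a * supNorm v (c μ)) := by ring
      _ ≤ G4.val v * (G3.val v * W) * (G12.val v * U) :=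
          mul_le_mul_of_nonneg_left (h12 v a _ c hrel μ)
            (mul_nonneg (G4.val_nonneg v) (mul_nonneg (G3.val_nonneg v) hW))
      _ = _ := by ring
  have hA : 0 < supNorm v a := supNorm_pos v ha
  rw [← le_div_iff₀' hA]
  exact supNorm_le v (div_nonneg (mul_nonneg (mul_nonneg (G4.val_nonneg v)
    (mul_nonneg (G3.val_nonneg v) (G12.val_nonneg v))) (mul_nonneg hW hU)) hA.le)
    fun μ => (le_div_iff₀' hA).mpr (hterm μ)

/-- Two-sided bounds for the fundamental relation. -/
theorem exists_gauge_key {E : Divisor Qb F}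
    (hE : 4 * (genusFF Qb F : ℤ) + 2 ≤ Divisor.degree E) {d k : ℕ} (hk : 1 ≤ k)
    (hm : ((d + k : ℕ) : ℤ) = d * Divisor.degree E) :
    ∃ G : Gauge, ∀ (v : AbsoluteValue Qb ℝ) (a : Fin (ell Qb F (d • E)) → Qb),
      a ≠ 0 → ∀ (P : Fin (d + k) → Place Qb F)
      (c : MIdx E (d + k) → Fin (ell Qb F (k • E)) → Qb),
      IsRel E d k a (fun i => evVec E (P i)) c → ∀ Q,
      supNorm v (evVec E Q) ^ k * ∏ i, supNorm v (evVec E (P i))
          ≤ G.val v * (supNorm v a *
            supNorm v (fun μ => evAt (k • E) Q (secOf (k • E) (c μ)))) ∧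
        supNorm v a * supNorm v (fun μ => evAt (k • E) Q (secOf (k • E) (c μ)))
          ≤ G.val v * (supNorm v (evVec E Q) ^ k * ∏ i, supNorm v (evVec E (P i))) := by
  obtain ⟨Gl, hl⟩ := exists_gauge_key_lower hE hk hm
  obtain ⟨Gu, hu⟩ := exists_gauge_key_upper (d := d) hE hk
  refine ⟨Gl * Gu, fun v a ha P c hrel Q => ?_⟩
  rw [Gauge.val_mul]
  refine ⟨(hl v a ha P c hrel Q).trans (mul_le_mul_of_nonneg_right
      (le_mul_of_one_le_right (Gl.val_nonneg v) (Gu.one_le_val v))
      (mul_nonneg (supNorm_nonneg v _) (supNorm_nonneg v _))),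
    (hu v a ha P c hrel Q).trans (mul_le_mul_of_nonneg_right
      (le_mul_of_one_le_left (Gu.val_nonneg v) (Gl.one_le_val v))
      (mul_nonneg (pow_nonneg (supNorm_nonneg v _) k)
        (Finset.prod_nonneg fun i _ => supNorm_nonneg v _)))⟩

end FLTAgent.MordellWeil
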