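import Fermat.Agent.MordellWeil.HeightDiv
import Fermat.Agent.MordellWeil.Curve

/-!
# Lines through two points of the embedded curve

`lineVec E P Q` is the chord or tangent line through the images of two places and
`lineHgt E P Q` its height, which is symmetric and bounded by the height of the projection from
a fixed point (`exists_lineHgt_le`).
-/

set_option autoImplicit false

noncomputable section

open AlgebraicCurve FLTAgent.FFRiemannRoch FLTAgent.FFBasic

namespace FLTAgent.MordellWeil

section Generic

variable {K F : Type*} [Field K] [Field F] [Algebra K F] [IsAlgClosed K] [IsFunctionField K F]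

/-- The coordinates of the line through two points. -/
def cross {r : ℕ} (u w : Fin r → K) (kl : Fin r × Fin r) : K :=
  u kl.1 * w kl.2 - u kl.2 * w kl.1

omit [IsAlgClosed K] in
theorem cross_swap {r : ℕ} (u w : Fin r → K) : cross w u = (-1 : K) • cross u w := by
  funext kl
  simp [cross]
  ring

/-- The section of `E` cut out by a point and a pair of coordinates. -/
def om (E : Divisor K F) (u : Fin (ell K F E) → K) (kl : Fin (ell K F E) × Fin (ell K F E)) : F :=
  u kl.1 • secBasis E kl.2 - u kl.2 • secBasis E kl.1

omit [IsAlgClosed K] in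
theorem om_mem (E : Divisor K F) (u : Fin (ell K F E) → K)
    (kl : Fin (ell K F E) × Fin (ell K F E)) : om E u kl ∈ riemannRochSpace E :=
  sub_mem (Submodule.smul_mem _ _ (secBasis_mem E _)) (Submodule.smul_mem _ _ (secBasis_mem E _))

theorem evAt_om (E : Divisor K F) (u : Fin (ell K F E) → K)
    (kl : Fin (ell K F E) × Fin (ell K F E)) (Q : Place K F) :
    evAt E Q (om E u kl) = cross u (evVec E Q) kl := by
  simp [om, cross, evVec]

omit [IsAlgClosed K] in
theorem om_smul (E : Divisor K F) (c : K) (u : Fin (ell K F E) → K)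
    (kl : Fin (ell K F E) × Fin (ell K F E)) : om E (c • u) kl = c • om E u kl := by
  simp [om, smul_sub, mul_smul]

open Classical in
/-- `1` on the diagonal and `0` elsewhere. -/
def incid (P Q : Place K F) : ℤ := if P = Q then 1 else 0

omit [IsAlgClosed K] [IsFunctionField K F] in
theorem incid_self (P : Place K F) : incid P P = 1 := by simp [incid]

omit [IsAlgClosed K] [IsFunctionField K F] in
theorem incid_of_ne {P Q : Place K F} (h : P ≠ Q) : incid P Q = 0 := by simp [incid, h]

theorem om_evVec_mem_filt (E : Divisor K F) (P Q : Place K F)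
    (kl : Fin (ell K F E) × Fin (ell K F E)) :
    om E (evVec E P) kl ∈ filt Q (-E Q + incid P Q) := by
  have h := mem_filt_of_mem_space (om_mem E (evVec E P) kl) Q
  rcases eq_or_ne P Q with rfl | hne
  · rw [incid_self, mem_filt_succ_iff]
    refine ⟨h, ?_⟩
    change evAt E P (om E (evVec E P) kl) = 0
    rw [evAt_om, cross, sub_eq_zero, mul_comm]
  · rwa [incid_of_ne hne, add_zero]

/-- The line through two points, the tangent line on the diagonal. -/
def lineVec (E : Divisor K F) (P Q : Place K F) (kl : Fin (ell K F E) × Fin (ell K F E)) : K :=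
  coefAt Q (-E Q + incid P Q) (om E (evVec E P) kl)

theorem lineVec_of_ne (E : Divisor K F) {P Q : Place K F} (h : P ≠ Q) :
    lineVec E P Q = cross (evVec E P) (evVec E Q) := by
  funext kl
  rw [lineVec, incid_of_ne h, add_zero]
  exact evAt_om E _ kl Q

theorem lineVec_ne_zero {E : Divisor K F}
    (hE : 4 * (genusFF K F : ℤ) + 2 ≤ Divisor.degree E) (P Q : Place K F) :
    lineVec E P Q ≠ 0 := by
  classical
  intro h
  obtain ⟨k, hk⟩ := Function.ne_iff.mp (evVec_ne_zero (Z := E) (by omega) P)
  simp only [Pi.zero_apply] at hk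
  obtain ⟨f, hf, hf0, hord⟩ := exists_separating (D := E) Q P (by omega)
  have hfE : f ∈ riemannRochSpace E :=
    FFBasic.riemannRochSpace_mono (sub_le_self E (single_nonneg P zero_le_one)) hf
  have hord' : Q.ord f = -E Q + incid P Q := by
    rw [hord, Finsupp.sub_apply]
    rcases eq_or_ne P Q with rfl | hne
    · rw [incid_self, Finsupp.single_eq_same]; ring
    · rw [incid_of_ne hne, Finsupp.single_eq_of_ne hne.symm]; ring
  have hP : evAt E P f = 0 := (evAt_eq_zero_iff hfE P).mpr hf
  have hne0 := coefAt_ord_ne_zero Q hf0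
  rw [hord'] at hne0
  refine hne0 ?_
  obtain ⟨t, rfl⟩ := exists_eq_sum_secBasis hfE
  rw [evAt_sum_secBasis] at hP
  set n := -E Q + incid P Q
  have hl : ∀ l, evVec E P k * coefAt Q n (secBasis E l)
      = evVec E P l * coefAt Q n (secBasis E k) := fun l => by
    have hkl : coefAt Q n (om E (evVec E P) (k, l)) = 0 := congrFun h (k, l)
    simpa [om, sub_eq_zero] using hkl
  have key : evVec E P k * coefAt Q n (∑ i, t i • secBasis E i) = 0 := by
    calc evVec E P k * coefAt Q n (∑ i, t i • secBasis E i)
        = ∑ i, t i * (evVec E P k * coefAt Q n (secBasis E i)) := by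
          simp [Finset.mul_sum, mul_left_comm]
      _ = ∑ i, t i * (evVec E P i * coefAt Q n (secBasis E k)) := by simp_rw [hl]
      _ = (∑ i, t i * evVec E P i) * coefAt Q n (secBasis E k) := by
          simp [Finset.sum_mul, mul_assoc]
      _ = 0 := by rw [hP, zero_mul]
  exact (mul_eq_zero.mp key).resolve_left hk

/-- A place is determined by its image. -/
theorem eq_of_evVec_eq_smul {E : Divisor K F}
    (hE : 4 * (genusFF K F : ℤ) + 2 ≤ Divisor.degree E) {P Q : Place K F} {c : K}
    (h : evVec E Q = c • evVec E P) : P = Q := by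
  by_contra hne
  refine lineVec_ne_zero hE P Q ?_
  rw [lineVec_of_ne E hne, h]
  funext kl
  simp [cross]
  ring

theorem exists_lineVec_swap {E : Divisor K F} (P Q : Place K F) :
    ∃ c : K, c ≠ 0 ∧ lineVec E Q P = c • lineVec E P Q := by
  rcases eq_or_ne P Q with rfl | hne
  · exact ⟨1, one_ne_zero, (one_smul _ _).symm⟩
  · exact ⟨-1, by simp, by
      rw [lineVec_of_ne E hne, lineVec_of_ne E hne.symm, cross_swap]⟩

end Generic

variable {F : Type*} [Field F] [Algebra Qb F] [IsFunctionField Qb F]

/-- The height of the line through two points. -/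
def lineHgt (E : Divisor Qb F) (P Q : Place Qb F) : ℝ := hgt (lineVec E P Q)

theorem lineHgt_nonneg (E : Divisor Qb F) (P Q : Place Qb F) : 0 ≤ lineHgt E P Q := hgt_nonneg _

theorem lineHgt_comm (E : Divisor Qb F) (P Q : Place Qb F) :
    lineHgt E P Q = lineHgt E Q P := by
  obtain ⟨c, hc, h⟩ := exists_lineVec_swap (E := E) P Q
  rw [lineHgt, lineHgt, h, hgt_smul hc]

/-- The height of the line to a fixed point is at most the height of the projection from it. -/
theorem exists_lineHgt_le {E : Divisor Qb F}
    (hE : 4 * (genusFF Qb F : ℤ) + 2 ≤ Divisor.degree E) (O : Place Qb F) :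
    ∃ C : ℝ, ∀ P, P ≠ O → lineHgt E P O ≤ hD (E - Finsupp.single O 1) P + C := by
  classical
  obtain ⟨C, hC⟩ := exists_hgt_family_le (Z := E - Finsupp.single O 1)
    (fun kl => om E (evVec E O) kl) fun kl => by
      refine (evAt_eq_zero_iff (om_mem E _ kl) O).mp ?_
      rw [evAt_om, cross, sub_eq_zero, mul_comm]
  refine ⟨C, fun P hP => ?_⟩
  have he : lineVec E O P = fun kl => evAt (E - Finsupp.single O 1) P (om E (evVec E O) kl) := by
    funext kl
    rw [lineVec_of_ne E hP.symm, ← evAt_om, evAt_congr (Z := E - Finsupp.single O 1) (Z' := E)]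
    simp [hP]
  rw [lineHgt_comm, lineHgt, he]
  exact hC P (he ▸ lineVec_ne_zero hE O P)

end FLTAgent.MordellWeil
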