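import Fermat.Agent.MordellWeil.Line

/-!
# Polynomials for sections and lines

Generic sections (`genSec`) and lines (`genOm`) as polynomials, linear functionals applied to
their coefficients (`mapLin`), and normalisation of tuples at an absolute value.
-/

set_option autoImplicit false

noncomputable section

open AlgebraicCurve FLTAgent.FFRiemannRoch FLTAgent.FFBasic MvPolynomial

namespace FLTAgent.MordellWeil

theorem exists_normalise (v : AbsoluteValue Qb ℝ) {ι : Type*} [Finite ι] {x : ι → Qb}
    (hx : x ≠ 0) :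
    ∃ c : Qb, c ≠ 0 ∧ v c * supNorm v x = 1 ∧ supNorm v (c • x) = 1 ∧ ∃ i, (c • x) i = 1 := by
  have : Nonempty ι := ⟨(Function.ne_iff.mp hx).choose⟩
  obtain ⟨i, hi⟩ := exists_eq_supNorm v x
  have hpos : 0 < supNorm v x := supNorm_pos v hx
  have hxi : x i ≠ 0 := fun h0 => by simp [h0] at hi; linarith
  have h1 : v (x i)⁻¹ * supNorm v x = 1 := by rw [map_inv₀, ← hi,
    inv_mul_cancel₀ (by simpa using hxi)]
  exact ⟨(x i)⁻¹, inv_ne_zero hxi, h1, by rw [supNorm_smul, h1], i, by simp [hxi]⟩

theorem exists_gauge_eval_family {Z β : Type*} [Fintype Z] [Finite β]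
    (f : β → MvPolynomial Z Qb) :
    ∃ G : Gauge, ∀ (v : AbsoluteValue Qb ℝ) (z : Z → Qb), (∀ i, v (z i) ≤ 1) →
      supNorm v (fun b => eval z (f b)) ≤ G.val v := by
  choose F hF using fun b => exists_gauge_eval (f b)
  obtain ⟨G, hG⟩ := exists_gauge_ge F
  refine ⟨G, fun v z hz => supNorm_le v (G.val_nonneg v) fun b => ?_⟩
  simpa using (hF b v z 1 le_rfl hz).trans
    (by simpa using hG b v : (F b).val v * 1 ^ (f b).totalDegree ≤ G.val v)

variable {K F : Type*} [Field K] [Field F] [Algebra K F]

/-- Apply a functional to the coefficients of a polynomial. -/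
def mapLin {Z : Type*} (lam : F →ₗ[K] K) (P : MvPolynomial Z F) : MvPolynomial Z K :=
  ∑ s ∈ P.support, monomial s (lam (P.coeff s))

theorem eval_mapLin {Z : Type*} (lam : F →ₗ[K] K) (P : MvPolynomial Z F) (z : Z → K) :
    eval z (mapLin lam P) = lam (eval (fun i => algebraMap K F (z i)) P) := by
  rw [mapLin, map_sum, eval_eq, map_sum]
  refine Finset.sum_congr rfl fun s _ => ?_
  rw [eval_monomial]
  simp only [Finsupp.prod]
  rw [show P.coeff s * ∏ i ∈ s.support, algebraMap K F (z i) ^ s i
      = (∏ i ∈ s.support, z i ^ s i) • P.coeff s by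
    rw [Algebra.smul_def, map_prod, mul_comm]; simp, map_smul, smul_eq_mul, mul_comm]

theorem exists_coords [IsAlgClosed K] [IsFunctionField K F] (W : Divisor K F) :
    ∃ (N : ℕ) (lam : Fin N → F →ₗ[K] K),
      ∀ f ∈ riemannRochSpace W, (∀ n, lam n f = 0) → f = 0 := by
  set b := Module.finBasis K (riemannRochSpace W)
  choose lam hlam using fun n => LinearMap.exists_extend (b.coord n)
  refine ⟨_, lam, fun f hf h => ?_⟩
  have : (⟨f, hf⟩ : riemannRochSpace W) = 0 := b.forall_coord_eq_zero_iff.mp fun n => by
    rw [← hlam n]; exact h n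
  exact congrArg Subtype.val this

variable [IsAlgClosed K] [IsFunctionField K F]

/-- The generic section of `W` in the variables selected by `pos`. -/
def genSec (W : Divisor K F) {Z : Type*} (pos : Fin (ell K F W) → Z) : MvPolynomial Z F :=
  ∑ i, X (pos i) * C (secBasis W i)

/-- The section of `W` with the given coordinates. -/
def secOf (W : Divisor K F) (a : Fin (ell K F W) → K) : F := ∑ i, a i • secBasis W i

omit [IsAlgClosed K] in
theorem eval_genSec (W : Divisor K F) {Z : Type*} (pos : Fin (ell K F W) → Z) (z : Z → K) :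
    eval (fun i => algebraMap K F (z i)) (genSec W pos) = secOf W fun i => z (pos i) := by
  simp [genSec, secOf, Algebra.smul_def]

omit [IsAlgClosed K] in
theorem secOf_mem (W : Divisor K F) (a : Fin (ell K F W) → K) :
    secOf W a ∈ riemannRochSpace W :=
  sum_smul_mem a

omit [IsAlgClosed K] in
theorem secOf_smul (W : Divisor K F) (c : K) (a : Fin (ell K F W) → K) :
    secOf W (c • a) = c • secOf W a := by
  simp [secOf, Finset.smul_sum, mul_smul]

omit [IsAlgClosed K] in
theorem secOf_eq_zero_iff (W : Divisor K F) {a : Fin (ell K F W) → K} :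
    secOf W a = 0 ↔ a = 0 :=
  ⟨fun h => funext fun i => Fintype.linearIndependent_iff.mp (linearIndependent_secBasis W) a h i,
    fun h => by simp [secOf, h]⟩

theorem evAt_secOf (W : Divisor K F) (a : Fin (ell K F W) → K) (Q : Place K F) :
    evAt W Q (secOf W a) = ∑ i, a i * evVec W Q i :=
  evAt_sum_secBasis W Q a

/-- The generic linear form through the point in the variables selected by `pos`. -/
def genOm (E : Divisor K F) {Z : Type*} (pos : Fin (ell K F E) → Z)
    (kl : Fin (ell K F E) × Fin (ell K F E)) : MvPolynomial Z F :=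
  X (pos kl.1) * C (secBasis E kl.2) - X (pos kl.2) * C (secBasis E kl.1)

omit [IsAlgClosed K] in
theorem eval_genOm (E : Divisor K F) {Z : Type*} (pos : Fin (ell K F E) → Z)
    (kl : Fin (ell K F E) × Fin (ell K F E)) (z : Z → K) :
    eval (fun i => algebraMap K F (z i)) (genOm E pos kl) = om E (fun j => z (pos j)) kl := by
  simp [genOm, om, Algebra.smul_def]

end FLTAgent.MordellWeil
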