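import Fermat.Agent.MordellWeil.Pairing
import Mathlib.LinearAlgebra.Matrix.Determinant.Basic
import Mathlib.LinearAlgebra.Matrix.NonsingularInverse

/-!
# Confluent minors

Confluent minors of a linear system along a list of places and their bound by the product of
the lines joining the places: `exists_gauge_minor`, `exists_minor_height_bound`.
-/

set_option autoImplicit false

noncomputable section

open AlgebraicCurve FLTAgent.FFRiemannRoch FLTAgent.FFBasic

namespace FLTAgent.MordellWeil

section Generic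

variable {K F : Type*} [Field K] [Field F] [Algebra K F] [IsAlgClosed K] [IsFunctionField K F]

/-- The number of earlier occurrences of the `i`-th place. -/
def occ {n : ℕ} (P : Fin n → Place K F) (i : Fin n) : ℤ :=
  ∑ j : Fin i.val, incid (P (Fin.castLE i.isLt.le j)) (P i)

omit [IsAlgClosed K] [IsFunctionField K F] in
theorem occ_castSucc {n : ℕ} (P : Fin (n + 1) → Place K F) (i : Fin n) :
    occ P i.castSucc = occ (fun j => P j.castSucc) i := rfl

omit [IsAlgClosed K] [IsFunctionField K F] in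
theorem occ_last {n : ℕ} (P : Fin (n + 1) → Place K F) :
    occ P (Fin.last n) = ∑ i : Fin n, incid (P i.castSucc) (P (Fin.last n)) := rfl

omit [IsAlgClosed K] [IsFunctionField K F] in
theorem exists_occ_eq {n : ℕ} (P : Fin n → Place K F) (Q : Place K F) {m : ℤ} (h0 : 0 ≤ m)
    (hm : m < ∑ i, incid (P i) Q) : ∃ i, P i = Q ∧ occ P i = m := by
  induction n with
  | zero => simp at hm; omega
  | succ n ih =>
    rw [Fin.sum_univ_castSucc] at hm
    by_cases h : m < ∑ i : Fin n, incid (P i.castSucc) Q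
    · obtain ⟨i, hi, hocc⟩ := ih (fun j => P j.castSucc) h
      exact ⟨i.castSucc, hi, by rw [occ_castSucc, hocc]⟩
    · rcases eq_or_ne (P (Fin.last n)) Q with hQ | hQ
      · refine ⟨Fin.last n, hQ, ?_⟩
        rw [hQ, incid_self] at hm
        rw [occ_last, hQ]
        omega
      · rw [incid_of_ne hQ] at hm
        omega

/-- The confluent row of a list of places. -/
def rowAt (M : Divisor K F) {n : ℕ} (P : Fin n → Place K F) (i : Fin n) : F →ₗ[K] K :=
  coefAt (P i) (-M (P i) + occ P i)

theorem mem_filt_of_rows (M : Divisor K F) {n : ℕ} (P : Fin n → Place K F) {f : F}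
    (hf : f ∈ riemannRochSpace M) (h : ∀ i, rowAt M P i f = 0) (Q : Place K F) :
    f ∈ filt Q (-M Q + ∑ i, incid (P i) Q) := by
  suffices ∀ m : ℕ, (m : ℤ) ≤ ∑ i, incid (P i) Q → f ∈ filt Q (-M Q + m) by
    have hnn : 0 ≤ ∑ i, incid (P i) Q :=
      Finset.sum_nonneg fun i _ => by unfold incid; split_ifs <;> omega
    have := this (∑ i, incid (P i) Q).toNat (by omega)
    rwa [Int.toNat_of_nonneg hnn] at this
  intro m
  induction m with
  | zero => intro _; simpa using mem_filt_of_mem_space hf Q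
  | succ m ih =>
    intro hm
    rw [show -M Q + ((m + 1 : ℕ) : ℤ) = (-M Q + m) + 1 by push_cast; ring, mem_filt_succ_iff]
    refine ⟨ih (by omega), ?_⟩
    obtain ⟨i, hi, hocc⟩ := exists_occ_eq P Q (m := m) (by omega) (by omega)
    have := h i
    rwa [rowAt, hi, hocc] at this

/-- The confluent minor on the basis elements selected by `S`. -/
def minor (M : Divisor K F) {n : ℕ} (P : Fin n → Place K F)
    (S : Fin n → Fin (ell K F M)) : K :=
  (Matrix.of fun i j => rowAt M P i (secBasis M (S j))).det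

/-- The section vanishing along all but the last place. -/
def lastSec (M : Divisor K F) {n : ℕ} (P : Fin (n + 1) → Place K F)
    (S : Fin (n + 1) → Fin (ell K F M)) : Fin (ell K F M) → K :=
  fun l => ∑ t : Fin (n + 1),
    if S t = l then (-1) ^ (n + t : ℕ) * minor M (fun j => P j.castSucc) (S ∘ t.succAbove) else 0

theorem apply_lastSec (M : Divisor K F) {n : ℕ} (P : Fin (n + 1) → Place K F)
    (S : Fin (n + 1) → Fin (ell K F M)) (lam : F →ₗ[K] K) :
    lam (secOf M (lastSec M P S)) = (Matrix.of fun i t => Fin.lastCases (lam (secBasis M (S t)))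
      (fun i' => rowAt M P i'.castSucc (secBasis M (S t))) i).det := by
  classical
  rw [Matrix.det_succ_row _ (Fin.last n)]
  simp only [secOf, lastSec, map_sum, map_smul, smul_eq_mul, Finset.sum_mul, ite_mul, zero_mul]
  rw [Finset.sum_comm]
  simp only [Finset.sum_ite_eq, Finset.mem_univ, if_true]
  refine Finset.sum_congr rfl fun t _ => ?_
  rw [mul_right_comm]
  congr 1
  · simp [Fin.val_last]
  · refine congrArg Matrix.det ?_
    ext i j
    simp only [Matrix.submatrix_apply, Fin.succAbove_last, Matrix.of_apply,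
      Fin.lastCases_castSucc, Function.comp_apply]
    rfl

theorem rowAt_lastSec_castSucc (M : Divisor K F) {n : ℕ} (P : Fin (n + 1) → Place K F)
    (S : Fin (n + 1) → Fin (ell K F M)) (i : Fin n) :
    rowAt M P i.castSucc (secOf M (lastSec M P S)) = 0 := by
  rw [apply_lastSec]
  exact Matrix.det_zero_of_row_eq (i := i.castSucc) (j := Fin.last n) (Fin.castSucc_lt_last i).ne
    (funext fun t => by simp)

theorem rowAt_lastSec_last (M : Divisor K F) {n : ℕ} (P : Fin (n + 1) → Place K F)
    (S : Fin (n + 1) → Fin (ell K F M)) :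
    rowAt M P (Fin.last n) (secOf M (lastSec M P S)) = minor M P S := by
  rw [apply_lastSec, minor]
  refine congrArg Matrix.det ?_
  ext i t
  refine Fin.lastCases ?_ (fun i' => ?_) i <;> simp

theorem exists_minor_ne_zero {M : Divisor K F} {n : ℕ} {P : Fin n → Place K F}
    (h : ell K F (M - ∑ i, Finsupp.single (P i) 1) + n = ell K F M) :
    ∃ S, minor M P S ≠ 0 := by
  classical
  set Ψ : riemannRochSpace M →ₗ[K] Fin n → K :=
    LinearMap.pi fun i => (rowAt M P i).comp (riemannRochSpace M).subtype with hΨ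
  have hD : ∀ Q, (∑ i, Finsupp.single (P i) (1 : ℤ) : Divisor K F) Q = ∑ i, incid (P i) Q :=
    fun Q => by
      rw [Finsupp.finsetSum_apply]
      exact Finset.sum_congr rfl fun i _ => by rw [Finsupp.single_apply, incid]
  have hker : LinearMap.ker Ψ = (riemannRochSpace (M - ∑ i, Finsupp.single (P i) 1)).comap
      (riemannRochSpace M).subtype := by
    ext ⟨f, hf⟩
    rw [LinearMap.mem_ker, Submodule.mem_comap, Submodule.subtype_apply,
      mem_riemannRochSpace_filt]
    constructor
    · intro h0 Q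
      have := mem_filt_of_rows M P hf (fun i => congrFun h0 i) Q
      rwa [Finsupp.sub_apply, hD, show -(M Q - ∑ i, incid (P i) Q)
        = -M Q + ∑ i, incid (P i) Q by ring]
    · intro h0
      funext i
      refine coefAt_eq_zero_of_mem_filt (h0 (P i)) ?_
      rw [Finsupp.sub_apply, hD]
      have : occ P i < ∑ j, incid (P j) (P i) := by
        have hle : i.val + 1 ≤ n := i.isLt
        have hpre : ∑ j : Fin (i.val + 1), incid (P (Fin.castLE hle j)) (P i)
            ≤ ∑ j, incid (P j) (P i) := by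
          refine (Finset.sum_map Finset.univ ⟨Fin.castLE hle, Fin.castLE_injective hle⟩
            fun j => incid (P j) (P i)).symm.trans_le ?_
          exact Finset.sum_le_sum_of_subset_of_nonneg (Finset.subset_univ _)
            fun j _ _ => by unfold incid; split_ifs <;> omega
        rw [Fin.sum_univ_castSucc] at hpre
        have hlast : incid (P (Fin.castLE hle (Fin.last i.val))) (P i) = 1 := incid_self _
        rw [hlast] at hpre
        have : occ P i = ∑ j : Fin i.val, incid (P (Fin.castLE hle j.castSucc)) (P i) := rfl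
        omega
      omega
  have hfin : Module.finrank K (LinearMap.ker Ψ)
      = ell K F (M - ∑ i, Finsupp.single (P i) 1) := by
    rw [hker]
    exact (Submodule.comapSubtypeEquivOfLe (FFBasic.riemannRochSpace_mono
      (sub_le_self _ (Finset.sum_nonneg fun i _ => single_nonneg _ zero_le_one)))).finrank_eq
  have hrn := LinearMap.finrank_range_add_finrank_ker Ψ
  have htop : LinearMap.range Ψ = ⊤ := by
    refine Submodule.eq_top_of_finrank_eq ?_
    rw [Module.finrank_fin_fun]
    simp only [ell] at h hfin hrn ⊢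
    omega
  set col : Fin (ell K F M) → Fin n → K := fun j i => rowAt M P i (secBasis M j) with hcol
  have hspan : (⊤ : Submodule K (Fin n → K)) ≤ Submodule.span K (Set.range col) := by
    rw [← htop]
    rintro _ ⟨⟨f, hf⟩, rfl⟩
    obtain ⟨t, rfl⟩ := exists_eq_sum_secBasis hf
    have : Ψ ⟨∑ j, t j • secBasis M j, hf⟩ = ∑ j, t j • col j := by
      funext i; simp [hΨ, hcol]
    rw [this]
    exact sum_mem fun j _ => Submodule.smul_mem _ _ (Submodule.subset_span ⟨j, rfl⟩)
  obtain ⟨g, hg, -, hli⟩ := Submodule.exists_fun_fin_finrank_span_eq K (Set.range col)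
  have hn : Module.finrank K (Submodule.span K (Set.range col)) = n := by
    rw [top_le_iff.mp hspan, finrank_top, Module.finrank_fin_fun]
  choose S hS using hg
  refine ⟨S ∘ Fin.cast hn.symm, fun h0 => ?_⟩
  have hli' : LinearIndependent K (fun j : Fin n => g (Fin.cast hn.symm j)) :=
    hli.comp _ (Fin.cast_injective _)
  have : IsUnit (Matrix.of fun i j => g (Fin.cast hn.symm j) i) :=
    Matrix.linearIndependent_cols_iff_isUnit.mp hli'
  rw [Matrix.isUnit_iff_isUnit_det, isUnit_iff_ne_zero] at this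
  refine this ?_
  rw [← h0, minor]
  refine congrArg Matrix.det ?_
  ext i j
  simp only [Matrix.of_apply, Function.comp_apply, ← hS, hcol]

end Generic

variable {F : Type*} [Field F] [Algebra Qb F] [IsFunctionField Qb F]

theorem exists_gauge_cross (r : ℕ) :
    ∃ G : Gauge, ∀ (v : AbsoluteValue Qb ℝ) (u w : Fin r → Qb),
      supNorm v (cross u w) ≤ G.val v * (supNorm v u * supNorm v w) := by
  refine ⟨Gauge.ofFamily ![(1 : Qb), -1], fun v u w => ?_⟩
  have hB : 0 ≤ supNorm v u * supNorm v w := mul_nonneg (supNorm_nonneg v u) (supNorm_nonneg v w)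
  refine supNorm_le v (mul_nonneg (Gauge.val_nonneg _ v) hB) fun kl => ?_
  have := Gauge.apply_sum_le_ofFamily ![(1 : Qb), -1] ![u kl.1 * w kl.2, u kl.2 * w kl.1] v hB
    fun t => by
      fin_cases t <;> simp only [map_mul, Matrix.cons_val_zero, Matrix.cons_val_one,
        Fin.zero_eta, Fin.mk_one] <;>
      exact mul_le_mul (le_supNorm v u _) (le_supNorm v w _) (v.nonneg _) (supNorm_nonneg v u)
  simpa [Fin.sum_univ_two, cross, sub_eq_add_neg] using this

theorem exists_places_eq_extending {m n : ℕ} (hn : n ≤ m) (P : Fin n → Place Qb F)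
    {D : Divisor Qb F} (hD : ∑ i, Finsupp.single (P i) 1 ≤ D) (hm : Divisor.degree D = m) :
    ∃ P' : Fin m → Place Qb F, D = ∑ i, Finsupp.single (P' i) 1 ∧
      ∀ i, P' (Fin.castLE hn i) = P i := by
  obtain ⟨R, hR⟩ := exists_places_eq (m - n) (sub_nonneg.mpr hD)
    (by rw [map_sub, hm, map_sum]; simp [deg_eq_one, Nat.cast_sub hn])
  have hnm : n + (m - n) = m := by omega
  refine ⟨fun i => Fin.append P R (Fin.cast hnm.symm i), ?_, fun i => ?_⟩
  · rw [show ∑ i, Finsupp.single (Fin.append P R (Fin.cast hnm.symm i)) (1 : ℤ)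
        = ∑ i, Finsupp.single (Fin.append P R i) 1 from
      Fintype.sum_equiv (finCongr hnm.symm) _ _ fun i => rfl, Fin.sum_univ_add]
    simp [← hR]
  · have : Fin.cast hnm.symm (Fin.castLE hn i) = Fin.castAdd (m - n) i := Fin.ext rfl
    simp [this]

/-- Split a product over `Fin m` at the first `n` indices. -/
theorem prod_split_castLE {α : Type*} [CommMonoid α] {n m : ℕ} (hn : n ≤ m) (f : Fin m → α) :
    (∏ i, f i) = (∏ i, f (Fin.castLE hn i)) *
      ∏ i ∈ (Finset.univ.map ⟨Fin.castLE hn, Fin.castLE_injective hn⟩)ᶜ, f i := by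
  rw [← Finset.prod_mul_prod_compl (Finset.univ.map ⟨Fin.castLE hn, Fin.castLE_injective hn⟩),
    Finset.prod_map]
  rfl

/-- The coefficient of a section at a place is controlled by the lines to its known zeros. -/
theorem exists_gauge_step {E : Divisor Qb F}
    (hE : 4 * (genusFF Qb F : ℤ) + 2 ≤ Divisor.degree E) {d : ℕ} (hd : 1 ≤ d)
    (M : Divisor Qb F) {n : ℕ} (hn : n ≤ d) :
    ∃ G : Gauge, ∀ (v : AbsoluteValue Qb ℝ) (a : Fin (ell Qb F M) → Qb)
      (P : Fin n → Place Qb F) (Q : Place Qb F),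
      (∀ R, secOf M a ∈ filt R (-M R + ∑ i, incid (P i) R)) →
      v (coefAt Q (-M Q + ∑ i, incid (P i) Q) (secOf M a)) * supNorm v (evVec (d • E - M) Q)
          * ∏ i, supNorm v (evVec E (P i))
        ≤ G.val v * supNorm v a * (∏ i, supNorm v (lineVec E (P i) Q))
          * supNorm v (evVec E Q) ^ (d - n) := by
  classical
  have hEg : 2 * (genusFF Qb F : ℤ) ≤ Divisor.degree E := by omega
  set k : ℕ := d * ((Divisor.degree E).toNat - 1) with hkdef
  have he : ((Divisor.degree E).toNat : ℤ) = Divisor.degree E := Int.toNat_of_nonneg (by omega)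
  have hm : ((d + k : ℕ) : ℤ) = d * Divisor.degree E := by
    rw [hkdef, Nat.cast_add, Nat.cast_mul, Nat.cast_sub (by omega), he]
    push_cast; ring
  have hk : 1 ≤ k := Nat.one_le_iff_ne_zero.mpr (Nat.mul_ne_zero (by omega) (by omega))
  obtain ⟨G1, hG1⟩ := exists_gauge_key hE hk hm
  obtain ⟨G2, hG2⟩ := exists_gauge_cross (ell Qb F E)
  have hmem : ∀ (r : Fin (ell Qb F (d • E - M))) (j : Fin (ell Qb F M)),
      secBasis M j * secBasis (d • E - M) r ∈ riemannRochSpace (d • E) := fun r j => by
    have := mul_mem_riemannRochSpace (secBasis_mem M j) (secBasis_mem (d • E - M) r)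
    rwa [add_sub_cancel] at this
  choose t ht using fun r j => exists_eq_sum_secBasis (hmem r j)
  obtain ⟨G5, hG5⟩ := exists_gauge_ge fun p : Fin (ell Qb F (d • E - M)) × Fin (ell Qb F (d • E)) =>
    Gauge.ofFamily fun j => t p.1 j p.2
  refine ⟨G1 * G5 * G2.pow (d + k - n), fun v a P Q hP => ?_⟩
  set μ := ∑ i, incid (P i) Q with hμ
  set α₀ := coefAt Q (-M Q + μ) (secOf M a) with hα₀
  have hRHS : 0 ≤ (G1 * G5 * G2.pow (d + k - n)).val v * supNorm v a
      * (∏ i, supNorm v (lineVec E (P i) Q)) * supNorm v (evVec E Q) ^ (d - n) :=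
    mul_nonneg (mul_nonneg (mul_nonneg (Gauge.val_nonneg _ v) (supNorm_nonneg v _))
      (Finset.prod_nonneg fun i _ => supNorm_nonneg v _)) (pow_nonneg (supNorm_nonneg v _) _)
  rcases eq_or_ne α₀ 0 with h0 | h0
  · simpa [h0] using hRHS
  rcases isEmpty_or_nonempty (Fin (ell Qb F (d • E - M))) with hemp | hne
  · have : supNorm v (evVec (d • E - M) Q) = 0 :=
      (supNorm_eq_zero_iff v).mpr (funext fun r => (IsEmpty.false r).elim)
    simpa [this] using hRHS
  obtain ⟨r, hr⟩ := exists_eq_supNorm v (evVec (d • E - M) Q)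
  rcases eq_or_ne (evVec (d • E - M) Q r) 0 with hs0 | hs0
  · rw [← hr, hs0, map_zero, mul_zero, zero_mul]; exact hRHS
  set a' : Fin (ell Qb F (d • E)) → Qb := fun i => ∑ j, t r j i * a j with ha'def
  have hA' : secOf (d • E) a' = secOf M a * secBasis (d • E - M) r := by
    simp only [secOf, ha'def, Finset.sum_mul, smul_mul_assoc, ht r, Finset.smul_sum,
      Finset.sum_smul, smul_smul]
    rw [Finset.sum_comm]
    exact Finset.sum_congr rfl fun j _ => Finset.sum_congr rfl fun i _ => by rw [mul_comm]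
  have hA0 : secOf M a ≠ 0 := fun h => h0 (by rw [hα₀, h, map_zero])
  have hsmem := secBasis_mem (d • E - M) r
  obtain ⟨hs_ne, hs_ord⟩ :=
    (coefAt_ne_zero_iff_ord_eq (mem_filt_of_mem_space hsmem Q)).mp hs0
  obtain ⟨-, hA_ord⟩ := (coefAt_ne_zero_iff_ord_eq (hP Q)).mp h0
  have hA'0 : secOf (d • E) a' ≠ 0 := by rw [hA']; exact mul_ne_zero hA0 hs_ne
  have ha' : a' ≠ 0 := fun h => hA'0 ((secOf_eq_zero_iff _).mpr h)
  set D1 : Divisor Qb F := divOf (secOf (d • E) a') + d • E with hD1
  have hD1Q : ∀ R, D1 R = R.ord (secOf M a) + R.ord (secBasis (d • E - M) r) + (d • E) R :=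
    fun R => by rw [hD1, Finsupp.add_apply, divOf_apply, hA', R.ord_mul hA0 hs_ne]
  have hle : (∑ i, Finsupp.single (P i) 1 : Divisor Qb F) ≤ D1 := fun R => by
    rw [sum_incid_eq, hD1Q]
    have h1 := le_ord_of_mem_filt (hP R) hA0
    have h2 := le_ord_of_mem_filt (mem_filt_of_mem_space hsmem R) hs_ne
    rw [Finsupp.sub_apply] at h2
    omega
  have hD1Qμ : D1 Q = μ := by
    rw [hD1Q, hA_ord, hs_ord, Finsupp.sub_apply]
    ring
  have hnm : n ≤ d + k := by omega
  obtain ⟨P', hP', hpre⟩ := exists_places_eq_extending hnm P hle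
    (by rw [hD1, map_add, degree_divOf, map_nsmul, nsmul_eq_mul, hm, zero_add])
  have hzero : IsZeroList E d k a' P' := fun R => by
    rw [← sum_incid_eq P' R, ← hP', hD1, Finsupp.add_apply, divOf_apply]
  obtain ⟨c, hc⟩ := exists_isRel ha' hzero
  set S0 := (Finset.univ : Finset (Fin n)).map ⟨Fin.castLE hnm, Fin.castLE_injective hnm⟩ with hS0
  have hrest : ∀ i ∈ S0ᶜ, P' i ≠ Q := by
    intro i hi heq
    have htot : ∑ j, incid (P' j) Q = μ := by rw [← sum_incid_eq P' Q, ← hP', hD1Qμ]
    rw [← Finset.sum_add_sum_compl S0, hS0, Finset.sum_map] at htot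
    simp only [Function.Embedding.coeFn_mk, hpre] at htot
    rw [← hμ, ← hS0] at htot
    have := Finset.single_le_sum (f := fun j => incid (P' j) Q)
      (fun j _ => by unfold incid; split_ifs <;> omega) hi
    simp only [heq, incid_self] at this
    omega
  set cw := fun m' => evAt (k • E) Q (secOf (k • E) (c m')) with hcwdef
  set α := coefAt Q (-(d • E) Q + μ) (secOf (d • E) a') with hαdef
  have hαval : α = α₀ * evVec (d • E - M) Q r := by
    rw [hαdef, hA', show -(d • E) Q + μ = (-M Q + μ) + -(d • E - M) Q by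
      rw [Finsupp.sub_apply]; ring, coefAt_mul (hP Q) (mem_filt_of_mem_space hsmem Q)]
    rfl
  have hlines : (fun m' : MIdx E (d + k) => ∏ i, lineVec E (P' i) Q (m' i)) = α • cw := by
    funext m'
    refine (coefAt_rel hc Q ?_ ?_ m').symm
    · rw [hA', show -(d • E) Q + μ = (-M Q + μ) + -(d • E - M) Q by
        rw [Finsupp.sub_apply]; ring]
      exact mul_mem_filt (hP Q) (mem_filt_of_mem_space hsmem Q)
    · rw [← sum_incid_eq P' Q, ← hP', hD1Qμ, add_nsmul, Finsupp.add_apply]
      ring
  have hkey := (hG1 v a' ha' P' c hc Q).1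
  have hprod : v α * supNorm v cw = ∏ i, supNorm v (lineVec E (P' i) Q) := by
    rw [← supNorm_smul, ← hlines, supNorm_pi v fun i => lineVec E (P' i) Q]
  have hU : ∀ s : Finset (Fin (d + k)), 0 ≤ ∏ i ∈ s, supNorm v (evVec E (P' i)) := fun s =>
    Finset.prod_nonneg fun i _ => supNorm_nonneg v _
  have hcard : S0ᶜ.card = d + k - n := by
    rw [Finset.card_compl, hS0, Finset.card_map]; simp
  have hWpos : 0 < supNorm v (evVec E Q) := supNorm_pos v (evVec_ne_zero hEg Q)
  have hUpos : 0 < ∏ i ∈ S0ᶜ, supNorm v (evVec E (P' i)) :=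
    Finset.prod_pos fun i _ => supNorm_pos v (evVec_ne_zero hEg _)
  have hlineR : ∏ i ∈ S0ᶜ, supNorm v (lineVec E (P' i) Q) ≤
      G2.val v ^ (d + k - n) * ((∏ i ∈ S0ᶜ, supNorm v (evVec E (P' i)))
        * supNorm v (evVec E Q) ^ (d + k - n)) := by
    rw [← hcard, ← Finset.prod_const, ← Finset.prod_const, ← Finset.prod_mul_distrib,
      ← Finset.prod_mul_distrib]
    refine Finset.prod_le_prod (fun i _ => supNorm_nonneg v _) fun i hi => ?_
    rw [lineVec_of_ne E (hrest i hi)]
    exact hG2 v _ _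
  have ha'le : supNorm v a' ≤ G5.val v * supNorm v a :=
    supNorm_le v (mul_nonneg (G5.val_nonneg v) (supNorm_nonneg v a)) fun i =>
      (Gauge.apply_sum_le_ofFamily (fun j => t r j i) a v (supNorm_nonneg v a)
        fun j => le_supNorm v a j).trans
        (mul_le_mul_of_nonneg_right (hG5 (r, i) v) (supNorm_nonneg v a))
  have hUsplit := prod_split_castLE hnm fun i => supNorm v (evVec E (P' i))
  have hLsplit := prod_split_castLE hnm fun i => supNorm v (lineVec E (P' i) Q)
  simp only [hpre, ← hS0] at hUsplit hLsplit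
  set W := supNorm v (evVec E Q) with hWdef
  set UR := ∏ i ∈ S0ᶜ, supNorm v (evVec E (P' i)) with hURdef
  set UP := ∏ i, supNorm v (evVec E (P i)) with hUPdef
  set LP := ∏ i, supNorm v (lineVec E (P i) Q) with hLPdef
  have hLP : 0 ≤ LP := Finset.prod_nonneg fun i _ => supNorm_nonneg v _
  have hexp : W ^ (d + k - n) = W ^ (d - n) * W ^ k := by rw [← pow_add]; congr 1; omega
  have hfinal : (v α₀ * supNorm v (evVec (d • E - M) Q) * UP) * (UR * W ^ k) ≤
      (G1.val v * G5.val v * G2.val v ^ (d + k - n) * supNorm v a * LP * W ^ (d - n))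
        * (UR * W ^ k) := by
    calc (v α₀ * supNorm v (evVec (d • E - M) Q) * UP) * (UR * W ^ k)
        = v α * (W ^ k * ∏ i, supNorm v (evVec E (P' i))) := by
          rw [hαval, map_mul, hr, hUsplit]; ring
      _ ≤ v α * (G1.val v * (supNorm v a' * supNorm v cw)) :=
          mul_le_mul_of_nonneg_left hkey (v.nonneg _)
      _ = G1.val v * supNorm v a' * (LP * ∏ i ∈ S0ᶜ, supNorm v (lineVec E (P' i) Q)) := by
          rw [← hLsplit, ← hprod]; ring
      _ ≤ G1.val v * (G5.val v * supNorm v a) *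
            (LP * (G2.val v ^ (d + k - n) * (UR * W ^ (d + k - n)))) := by
          refine mul_le_mul (mul_le_mul_of_nonneg_left ha'le (G1.val_nonneg v))
            (mul_le_mul_of_nonneg_left hlineR hLP)
            (mul_nonneg hLP (Finset.prod_nonneg fun i _ => supNorm_nonneg v _))
            (mul_nonneg (G1.val_nonneg v) (mul_nonneg (G5.val_nonneg v) (supNorm_nonneg v a)))
      _ = _ := by rw [hexp]; ring
  simpa using le_of_mul_le_mul_right hfinal (mul_pos hUpos (pow_pos hWpos k))

theorem exists_gauge_minor {E : Divisor Qb F}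
    (hE : 4 * (genusFF Qb F : ℤ) + 2 ≤ Divisor.degree E) {d : ℕ} (hd : 1 ≤ d)
    (M : Divisor Qb F) {n : ℕ} (hn : n ≤ d + 1) :
    ∃ G : Gauge, ∀ (v : AbsoluteValue Qb ℝ) (P : Fin n → Place Qb F),
      supNorm v (minor M P) * (∏ i, supNorm v (evVec (d • E - M) (P i)))
          * (∏ i : Fin n, ∏ j : Fin i.val, supNorm v (evVec E (P (Fin.castLE i.isLt.le j))))
        ≤ G.val v *
          (∏ i : Fin n, ∏ j : Fin i.val,
            supNorm v (lineVec E (P (Fin.castLE i.isLt.le j)) (P i)))
          * ∏ i : Fin n, supNorm v (evVec E (P i)) ^ (d - i.val) := by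
  induction n with
  | zero => exact ⟨1, fun v P => by simpa using supNorm_le v zero_le_one fun S => by simp [minor]⟩
  | succ n ih =>
    obtain ⟨G, hG⟩ := ih (by omega)
    obtain ⟨G', hG'⟩ := exists_gauge_step hE hd M (n := n) (by omega)
    obtain ⟨G6, hG6⟩ : ∃ G6 : Gauge, G6 = Gauge.ofFamily (fun _ : Fin (n + 1) => (1 : Qb)) :=
      ⟨_, rfl⟩
    refine ⟨G' * G6 * G, fun v P => ?_⟩
    set P₀ := fun j : Fin n => P j.castSucc with hP₀
    set Q := P (Fin.last n) with hQ
    set D' := supNorm v (minor M P₀) with hD'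
    have hsec : ∀ S, supNorm v (lastSec M P S) ≤ G6.val v * D' := fun S =>
      supNorm_le v (mul_nonneg (G6.val_nonneg v) (supNorm_nonneg v _)) fun l => by
        have := Gauge.apply_sum_le_ofFamily (fun _ : Fin (n + 1) => (1 : Qb))
          (fun t => if S t = l then
            (-1) ^ (n + t : ℕ) * minor M P₀ (S ∘ t.succAbove) else 0) v (supNorm_nonneg v _)
          fun t => by
            split_ifs
            · rw [map_mul, map_pow, map_neg_eq_map, map_one, one_pow, one_mul]
              exact le_supNorm v (minor M P₀) _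
            · simpa using supNorm_nonneg v (minor M P₀)
        simpa [lastSec, hG6] using this
    set Z := supNorm v (evVec (d • E - M) Q)
    set U := ∏ i : Fin n, supNorm v (evVec E (P₀ i))
    set L := ∏ i : Fin n, supNorm v (lineVec E (P₀ i) Q)
    set W := supNorm v (evVec E Q) ^ (d - n)
    have hL : 0 ≤ L := Finset.prod_nonneg fun i _ => supNorm_nonneg v _
    have hU : 0 ≤ U := Finset.prod_nonneg fun i _ => supNorm_nonneg v _
    have hW : 0 ≤ W := pow_nonneg (supNorm_nonneg v _) _
    have hZ : 0 ≤ Z := supNorm_nonneg v _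
    have hlast : supNorm v (minor M P) * (Z * U) ≤ G'.val v * G6.val v * D' * (L * W) := by
      have key : ∀ S, v (minor M P S) * (Z * U) ≤ G'.val v * G6.val v * D' * (L * W) := by
        intro S
        have h := hG' v (lastSec M P S) P₀ Q
          (mem_filt_of_rows M P₀ (secOf_mem M _) fun i => by
            have := rowAt_lastSec_castSucc M P S i
            exact this)
        rw [hP₀, hQ, ← occ_last] at h
        rw [← rowAt_lastSec_last M P S, rowAt, ← mul_assoc]
        refine h.trans ?_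
        rw [mul_assoc (G'.val v * supNorm v (lastSec M P S)), mul_assoc (G'.val v) (G6.val v) D']
        exact mul_le_mul_of_nonneg_right
          (mul_le_mul_of_nonneg_left (hsec S) (G'.val_nonneg v)) (mul_nonneg hL hW)
      rcases (mul_nonneg hZ hU).eq_or_lt with h0 | h0
      · rw [← h0, mul_zero]
        exact mul_nonneg (mul_nonneg (mul_nonneg (G'.val_nonneg v) (G6.val_nonneg v))
          (supNorm_nonneg v _)) (mul_nonneg hL hW)
      · rw [← le_div_iff₀ h0]
        refine supNorm_le v (div_nonneg ?_ h0.le) fun S => (le_div_iff₀ h0).mpr (key S)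
        exact mul_nonneg (mul_nonneg (mul_nonneg (G'.val_nonneg v) (G6.val_nonneg v))
          (supNorm_nonneg v _)) (mul_nonneg hL hW)
    simp only [Fin.prod_univ_castSucc]
    set A := ∏ i : Fin n, supNorm v (evVec (d • E - M) (P₀ i))
    set B := ∏ i : Fin n, ∏ j : Fin i.val, supNorm v (evVec E (P₀ (Fin.castLE i.isLt.le j)))
    set LL := ∏ i : Fin n, ∏ j : Fin i.val,
      supNorm v (lineVec E (P₀ (Fin.castLE i.isLt.le j)) (P₀ i))
    set WW := ∏ i : Fin n, supNorm v (evVec E (P₀ i)) ^ (d - i.val)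
    have hA : 0 ≤ A := Finset.prod_nonneg fun i _ => supNorm_nonneg v _
    have hB : 0 ≤ B := Finset.prod_nonneg fun i _ => Finset.prod_nonneg fun j _ =>
      supNorm_nonneg v _
    change supNorm v (minor M P) * (A * Z) * (B * U)
      ≤ (G' * G6 * G).val v * (LL * L) * (WW * W)
    calc supNorm v (minor M P) * (A * Z) * (B * U)
        = supNorm v (minor M P) * (Z * U) * (A * B) := by ring
      _ ≤ G'.val v * G6.val v * D' * (L * W) * (A * B) :=
          mul_le_mul_of_nonneg_right hlast (mul_nonneg hA hB)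
      _ = G'.val v * G6.val v * (L * W) * (D' * A * B) := by ring
      _ ≤ G'.val v * G6.val v * (L * W) * (G.val v * LL * WW) :=
          mul_le_mul_of_nonneg_left (hG v P₀)
            (mul_nonneg (mul_nonneg (G'.val_nonneg v) (G6.val_nonneg v)) (mul_nonneg hL hW))
      _ = _ := by simp only [Gauge.val_mul]; ring

theorem sum_sum_castLE {n : ℕ} (f : Fin n → ℝ) :
    ∑ i : Fin n, ∑ j : Fin i.val, f (Fin.castLE i.isLt.le j)
      = ∑ i : Fin n, ((n : ℝ) - 1 - i.val) * f i := by
  induction n with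
  | zero => simp
  | succ n ih =>
    rw [Fin.sum_univ_castSucc, Fin.sum_univ_castSucc]
    have h1 : ∑ i : Fin n, ∑ j : Fin i.castSucc.val,
        f (Fin.castLE i.castSucc.isLt.le j) = _ := ih (fun i => f i.castSucc)
    have h2 : (∑ j : Fin (Fin.last n).val, f (Fin.castLE (Fin.last n).isLt.le j))
        = ∑ i : Fin n, f i.castSucc := rfl
    rw [h1, h2, ← Finset.sum_add_distrib]
    simp only [Fin.val_last, Fin.val_castSucc, Nat.cast_succ, add_sub_cancel_right, sub_self,
      zero_mul, add_zero]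
    exact Finset.sum_congr rfl fun i _ => by ring

/-- Heights: independent places are spread out. -/
theorem exists_minor_height_bound {E : Divisor Qb F}
    (hE : 4 * (genusFF Qb F : ℤ) + 2 ≤ Divisor.degree E) {d : ℕ} (hd : 1 ≤ d)
    (M : Divisor Qb F) (hM : 2 * (genusFF Qb F : ℤ) ≤ Divisor.degree (d • E - M))
    {n : ℕ} (hn : n ≤ d + 1) :
    ∃ C : ℝ, ∀ P : Fin n → Place Qb F, (∃ S, minor M P S ≠ 0) →
      ∑ i, hD (d • E - M) (P i) ≤
        (∑ i : Fin n, ∑ j : Fin i.val, lineHgt E (P (Fin.castLE i.isLt.le j)) (P i))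
          + ((d : ℝ) + 1 - n) * ∑ i, hD E (P i) + C := by
  classical
  obtain ⟨G, hG⟩ := exists_gauge_minor hE hd M hn
  refine ⟨G.logConst, fun P ⟨S₀, hS₀⟩ => ?_⟩
  have hEg : 2 * (genusFF Qb F : ℤ) ≤ Divisor.degree E := by omega
  have ne_pi : ∀ {α : Type} [Fintype α] {r : ℕ} (x : α → Fin r → Qb), (∀ a, x a ≠ 0) →
      (fun I : α → Fin r => ∏ a, x a (I a)) ≠ 0 := by
    intro α _ r x hx
    choose j hj using fun a => Function.ne_iff.mp (hx a)
    exact Function.ne_iff.mpr ⟨j, Finset.prod_ne_zero_iff.mpr fun a _ => hj a⟩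
  set Z := fun I : Fin n → Fin (ell Qb F (d • E - M)) =>
    ∏ i, evVec (d • E - M) (P i) (I i) with hZdef
  set B := fun I : ((i : Fin n) × Fin i.val) → Fin (ell Qb F E) =>
    ∏ p, evVec E (P (Fin.castLE p.1.isLt.le p.2)) (I p) with hBdef
  set L := fun I : ((i : Fin n) × Fin i.val) → Fin (ell Qb F E) × Fin (ell Qb F E) =>
    ∏ p, lineVec E (P (Fin.castLE p.1.isLt.le p.2)) (P p.1) (I p) with hLdef
  set W := fun I : ((i : Fin n) × Fin (d - i.val)) → Fin (ell Qb F E) =>
    ∏ p, evVec E (P p.1) (I p) with hWdef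
  have hZ : Z ≠ 0 := ne_pi _ fun i => evVec_ne_zero hM (P i)
  have hB : B ≠ 0 := ne_pi _ fun p => evVec_ne_zero hEg _
  have hW : W ≠ 0 := ne_pi _ fun p => evVec_ne_zero hEg _
  have hL : L ≠ 0 := by
    choose j hj using fun p : (i : Fin n) × Fin i.val =>
      Function.ne_iff.mp (lineVec_ne_zero hE (P (Fin.castLE p.1.isLt.le p.2)) (P p.1))
    exact Function.ne_iff.mpr ⟨j, Finset.prod_ne_zero_iff.mpr fun p _ => hj p⟩
  have hΔ : minor M P ≠ 0 := fun h => hS₀ (congrFun h S₀)
  set ZB := fun t : (Fin n → Fin (ell Qb F (d • E - M))) ×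
      (((i : Fin n) × Fin i.val) → Fin (ell Qb F E)) => Z t.1 * B t.2 with hZBdef
  have hZB : ZB ≠ 0 := by
    obtain ⟨i, hi⟩ := Function.ne_iff.mp hZ
    obtain ⟨j, hj⟩ := Function.ne_iff.mp hB
    exact Function.ne_iff.mpr ⟨(i, j), mul_ne_zero hi hj⟩
  set x := fun t : (Fin n → Fin (ell Qb F M)) × ((Fin n → Fin (ell Qb F (d • E - M))) ×
      (((i : Fin n) × Fin i.val) → Fin (ell Qb F E))) => minor M P t.1 * ZB t.2 with hxdef
  set y := fun t : (((i : Fin n) × Fin i.val) → Fin (ell Qb F E) × Fin (ell Qb F E)) ×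
      (((i : Fin n) × Fin (d - i.val)) → Fin (ell Qb F E)) => L t.1 * W t.2 with hydef
  have hx : x ≠ 0 := by
    obtain ⟨j, hj⟩ := Function.ne_iff.mp hZB
    exact Function.ne_iff.mpr ⟨(S₀, j), mul_ne_zero hS₀ hj⟩
  have hy : y ≠ 0 := by
    obtain ⟨i, hi⟩ := Function.ne_iff.mp hL
    obtain ⟨j, hj⟩ := Function.ne_iff.mp hW
    exact Function.ne_iff.mpr ⟨(i, j), mul_ne_zero hi hj⟩
  have h := hgt_le_of_forall_supNorm_le hx hy G fun v => by
    rw [hxdef, hydef, supNorm_pair, hZBdef, supNorm_pair, supNorm_pair, hZdef, hBdef, hLdef, hWdef,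
      supNorm_pi v (fun i => evVec (d • E - M) (P i)),
      supNorm_pi v (fun p : (i : Fin n) × Fin i.val => evVec E (P (Fin.castLE p.1.isLt.le p.2))),
      supNorm_pi v (fun p : (i : Fin n) × Fin i.val =>
        lineVec E (P (Fin.castLE p.1.isLt.le p.2)) (P p.1)),
      supNorm_pi v (fun p : (i : Fin n) × Fin (d - i.val) => evVec E (P p.1)),
      Fintype.prod_sigma, Fintype.prod_sigma, Fintype.prod_sigma]
    simp only [Finset.prod_const, Finset.card_univ, Fintype.card_fin]
    rw [← mul_assoc, ← mul_assoc]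
    exact hG v P
  rw [hxdef, hydef, hgt_pair hΔ hZB, hgt_pair hL hW, hZBdef, hgt_pair hZ hB, hZdef, hBdef, hLdef,
    hWdef, hgt_pi (fun i => evVec (d • E - M) (P i)) (fun i => evVec_ne_zero hM _),
    hgt_pi (fun p : (i : Fin n) × Fin i.val => evVec E (P (Fin.castLE p.1.isLt.le p.2)))
      (fun p => evVec_ne_zero hEg _),
    hgt_pi (fun p : (i : Fin n) × Fin i.val =>
      lineVec E (P (Fin.castLE p.1.isLt.le p.2)) (P p.1)) (fun p => lineVec_ne_zero hE _ _),
    hgt_pi (fun p : (i : Fin n) × Fin (d - i.val) => evVec E (P p.1))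
      (fun p => evVec_ne_zero hEg _),
    Fintype.sum_sigma, Fintype.sum_sigma, Fintype.sum_sigma] at h
  simp only [Finset.sum_const, Finset.card_univ, Fintype.card_fin, nsmul_eq_mul] at h
  have h3 := sum_sum_castLE fun i => hD E (P i)
  simp only [hD, lineHgt] at h h3 ⊢
  rw [h3] at h
  have h4 : (∑ i : Fin n, ((d - i.val : ℕ) : ℝ) * hgt (evVec E (P i)))
      - ∑ i : Fin n, ((n : ℝ) - 1 - i.val) * hgt (evVec E (P i))
      = ((d : ℝ) + 1 - n) * ∑ i, hgt (evVec E (P i)) := by
    rw [← Finset.sum_sub_distrib, Finset.mul_sum]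
    refine Finset.sum_congr rfl fun i _ => ?_
    rw [Nat.cast_sub (by omega : i.val ≤ d)]
    ring
  have := hgt_nonneg (minor M P)
  linarith

end FLTAgent.MordellWeil
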