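import Fermat.Agent.MordellWeil.Key

/-!
# The pairing of divisors

`pairing E` is the bilinear pairing of divisors given by heights of lines; it is symmetric and
invariant under linear equivalence up to a bounded error (`exists_pairing_self_bound`).
-/

set_option autoImplicit false

noncomputable section

open AlgebraicCurve FLTAgent.FFRiemannRoch FLTAgent.FFBasic

namespace FLTAgent.MordellWeil

variable {F : Type*} [Field F] [Algebra Qb F] [IsFunctionField Qb F]

/-- Every effective divisor is a list of places. -/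
theorem exists_places_eq (m : ℕ) {D : Divisor Qb F} (hD : 0 ≤ D) (hm : Divisor.degree D = m) :
    ∃ P : Fin m → Place Qb F, D = ∑ i, Finsupp.single (P i) 1 := by
  induction m generalizing D with
  | zero =>
    refine ⟨Fin.elim0, ?_⟩
    simpa using (eq_of_le_of_degree_le hD (by simp [hm])).symm
  | succ m ih =>
    obtain ⟨Q, hQ⟩ : ∃ Q, 0 < D Q := by
      by_contra! h
      have : D = 0 := Finsupp.ext fun Q => le_antisymm (h Q) (hD Q)
      simp [this] at hm
      omega
    have hle : 0 ≤ D - Finsupp.single Q 1 := by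
      intro R
      have := hD R
      simp only [Finsupp.coe_zero, Pi.zero_apply, Finsupp.sub_apply] at this ⊢
      rcases eq_or_ne R Q with rfl | hR
      · simp; omega
      · simp [hR]; omega
    obtain ⟨P, hP⟩ := ih hle (by simp [deg_eq_one, hm])
    refine ⟨Fin.cons Q P, ?_⟩
    rw [Fin.sum_univ_succ]
    simp [← hP]

omit [IsFunctionField Qb F] in
theorem sum_incid_eq {m : ℕ} (P : Fin m → Place Qb F) (Q : Place Qb F) :
    (∑ i, Finsupp.single (P i) (1 : ℤ) : Divisor Qb F) Q = ∑ i, incid (P i) Q := by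
  classical
  rw [Finsupp.finsetSum_apply]
  exact Finset.sum_congr rfl fun i _ => by rw [Finsupp.single_apply, incid]

/-- The lines from the zeros of a section to a point. -/
theorem exists_star_bound {E : Divisor Qb F}
    (hE : 4 * (genusFF Qb F : ℤ) + 2 ≤ Divisor.degree E) {d k : ℕ} (hk : 1 ≤ k)
    (hm : ((d + k : ℕ) : ℤ) = d * Divisor.degree E) :
    ∃ C : ℝ, ∀ (a : Fin (ell Qb F (d • E)) → Qb), a ≠ 0 → ∀ P : Fin (d + k) → Place Qb F,
      IsZeroList E d k a P → ∀ Q,
        |∑ i, lineHgt E (P i) Q - ((∑ i, hD E (P i)) - hgt a + k * hD E Q)| ≤ C := by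
  classical
  obtain ⟨G, hG⟩ := exists_gauge_key hE hk hm
  refine ⟨G.logConst, fun a ha P hP Q => ?_⟩
  have hEg : 2 * (genusFF Qb F : ℤ) ≤ Divisor.degree E := by omega
  obtain ⟨c, hc⟩ := exists_isRel ha hP
  set cw := fun μ => evAt (k • E) Q (secOf (k • E) (c μ)) with hcw
  set α := coefAt Q (-(d • E) Q + ∑ i, incid (P i) Q) (secOf (d • E) a) with hα
  have hA : secOf (d • E) a ≠ 0 := fun h => ha ((secOf_eq_zero_iff _).mp h)
  have hord : Q.ord (secOf (d • E) a) = -(d • E) Q + ∑ i, incid (P i) Q := by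
    have := hP Q; omega
  have hα0 : α ≠ 0 := by rw [hα, ← hord]; exact coefAt_ord_ne_zero Q hA
  have hlines : (fun μ : MIdx E (d + k) => ∏ i, lineVec E (P i) Q (μ i)) = α • cw := by
    funext μ
    refine (coefAt_rel hc Q (mem_filt_of_le hord.ge) ?_ μ).symm
    simp only [add_nsmul, Finsupp.add_apply]
    ring
  have hsum : hgt cw = ∑ i, lineHgt E (P i) Q := by
    rw [← hgt_smul hα0 cw, ← hlines]
    exact hgt_pi (fun i => lineVec E (P i) Q) fun i => lineVec_ne_zero hE (P i) Q
  have hcw0 : cw ≠ 0 := by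
    obtain ⟨μ, hμ⟩ := (isZeroList_of_isRel hE hm ha hc).2 Q
    exact fun h => hμ (congrFun h μ)
  set U := fun I : Fin (d + k) → Fin (ell Qb F E) => ∏ i, evVec E (P i) (I i) with hUdef
  set W := fun I : Fin k → Fin (ell Qb F E) => ∏ i, evVec E Q (I i) with hWdef
  have hU : U ≠ 0 := by
    choose j hj using fun i => Function.ne_iff.mp (evVec_ne_zero hEg (P i))
    exact Function.ne_iff.mpr ⟨j, Finset.prod_ne_zero_iff.mpr fun i _ => hj i⟩
  have hW : W ≠ 0 := by
    obtain ⟨j, hj⟩ := Function.ne_iff.mp (evVec_ne_zero hEg Q)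
    exact Function.ne_iff.mpr ⟨fun _ => j, Finset.prod_ne_zero_iff.mpr fun i _ => hj⟩
  set x := fun t : Fin (ell Qb F (d • E)) × MIdx E (d + k) => a t.1 * cw t.2 with hxdef
  set y := fun t : (Fin k → Fin (ell Qb F E)) × (Fin (d + k) → Fin (ell Qb F E)) =>
    W t.1 * U t.2 with hydef
  have hx : x ≠ 0 := by
    obtain ⟨i, hi⟩ := Function.ne_iff.mp ha
    obtain ⟨j, hj⟩ := Function.ne_iff.mp hcw0
    exact Function.ne_iff.mpr ⟨(i, j), mul_ne_zero hi hj⟩
  have hy : y ≠ 0 := by
    obtain ⟨i, hi⟩ := Function.ne_iff.mp hW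
    obtain ⟨j, hj⟩ := Function.ne_iff.mp hU
    exact Function.ne_iff.mpr ⟨(i, j), mul_ne_zero hi hj⟩
  have hgx : hgt x = hgt a + ∑ i, lineHgt E (P i) Q := by rw [hxdef, hgt_pair ha hcw0, hsum]
  have hgy : hgt y = k * hD E Q + ∑ i, hD E (P i) := by
    rw [hydef, hgt_pair hW hU, hUdef, hWdef,
      hgt_pi (fun i => evVec E (P i)) (fun i => evVec_ne_zero hEg _),
      hgt_pi (fun _ : Fin k => evVec E Q) (fun _ => evVec_ne_zero hEg _)]
    simp [hD]
  have hny : ∀ v, supNorm v y
      = supNorm v (evVec E Q) ^ k * ∏ i, supNorm v (evVec E (P i)) := fun v => by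
    rw [hydef, supNorm_pair, hWdef, hUdef, supNorm_pi v (fun i => evVec E (P i)),
      supNorm_pi v (fun _ : Fin k => evVec E Q)]
    simp
  have hnx : ∀ v, supNorm v x = supNorm v a * supNorm v cw := fun v => by
    rw [hxdef, supNorm_pair]
  have h1 := hgt_le_of_forall_supNorm_le hx hy G fun v => by
    rw [hnx, hny]; exact (hG v a ha P c hc Q).2
  have h2 := hgt_le_of_forall_supNorm_le hy hx G fun v => by
    rw [hnx, hny]; exact (hG v a ha P c hc Q).1
  rw [hgx, hgy] at h1 h2
  exact abs_le.mpr ⟨by linarith, by linarith⟩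

/-! ### The pairing -/

/-- The pairing given by heights of lines. -/
def pairing (E : Divisor Qb F) : Divisor Qb F →+ Divisor Qb F →+ ℝ :=
  Finsupp.liftAddHom fun P => zmultiplesHom _
    (Finsupp.liftAddHom fun Q => zmultiplesHom ℝ (lineHgt E P Q))

@[simp]
theorem pairing_single_single (E : Divisor Qb F) (P Q : Place Qb F) (m n : ℤ) :
    pairing E (Finsupp.single P m) (Finsupp.single Q n) = m * n * lineHgt E P Q := by
  simp [pairing, mul_assoc]

theorem pairing_comm (E : Divisor Qb F) (D D' : Divisor Qb F) :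
    pairing E D D' = pairing E D' D := by
  have aux : ∀ (P : Place Qb F) (m : ℤ) (D' : Divisor Qb F),
      pairing E (Finsupp.single P m) D' = pairing E D' (Finsupp.single P m) := by
    intro P m D'
    induction D' using Finsupp.induction with
    | zero => simp
    | single_add Q n D' _ _ ih' =>
      rw [map_add, map_add, AddMonoidHom.add_apply, ih', pairing_single_single,
        pairing_single_single, lineHgt_comm E P Q]
      ring
  induction D using Finsupp.induction with
  | zero => simp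
  | single_add P m D _ _ ih =>
    rw [map_add, AddMonoidHom.add_apply, map_add, ih, aux]

theorem pairing_apply_eq_sum (E : Divisor Qb F) (X D : Divisor Qb F) :
    pairing E X D = ∑ Q ∈ D.support, (D Q : ℝ) * pairing E X (Finsupp.single Q 1) := by
  conv_lhs => rw [← Finsupp.sum_single D, Finsupp.sum, map_sum]
  refine Finset.sum_congr rfl fun Q _ => ?_
  rw [show Finsupp.single Q (D Q) = D Q • Finsupp.single Q 1 by simp, map_zsmul, zsmul_eq_mul]

/-- The size of a divisor. -/
def normD (D : Divisor Qb F) : ℤ := ∑ Q ∈ D.support, |D Q|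

theorem abs_pairing_le {E X : Divisor Qb F} {κ C : ℝ}
    (h : ∀ Q, |pairing E X (Finsupp.single Q 1) - κ| ≤ C) {D : Divisor Qb F}
    (hD : Divisor.degree D = 0) : |pairing E X D| ≤ C * normD D := by
  have hsum : ∑ Q ∈ D.support, (D Q : ℝ) = 0 := by
    have : Divisor.degree D = ∑ Q ∈ D.support, D Q := by
      rw [degree_eq_sum_support]; simp [deg_eq_one]
    rw [hD] at this
    exact_mod_cast this.symm
  have key : pairing E X D
      = ∑ Q ∈ D.support, (D Q : ℝ) * (pairing E X (Finsupp.single Q 1) - κ) := by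
    simp_rw [mul_sub]
    rw [Finset.sum_sub_distrib, ← Finset.sum_mul, hsum, zero_mul, sub_zero,
      ← pairing_apply_eq_sum]
  rw [key, normD, Int.cast_sum, Finset.mul_sum]
  refine (Finset.abs_sum_le_sum_abs _ _).trans (Finset.sum_le_sum fun Q _ => ?_)
  rw [abs_mul, mul_comm C, Int.cast_abs]
  exact mul_le_mul_of_nonneg_left (h Q) (abs_nonneg _)

theorem exists_pairing_zeroDiv_bound {E : Divisor Qb F}
    (hE : 4 * (genusFF Qb F : ℤ) + 2 ≤ Divisor.degree E) {d : ℕ} (hd : 1 ≤ d) :
    ∃ (C : ℝ) (k : ℕ), ∀ A : F, A ≠ 0 → A ∈ riemannRochSpace (d • E) → ∃ κ : ℝ, ∀ Q,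
      |pairing E (divOf A + d • E) (Finsupp.single Q 1) - (κ + k * hD E Q)| ≤ C := by
  classical
  set k : ℕ := d * ((Divisor.degree E).toNat - 1) with hkdef
  have he : ((Divisor.degree E).toNat : ℤ) = Divisor.degree E := Int.toNat_of_nonneg (by omega)
  have hm : ((d + k : ℕ) : ℤ) = d * Divisor.degree E := by
    rw [hkdef, Nat.cast_add, Nat.cast_mul, Nat.cast_sub (by omega), he]
    push_cast; ring
  have hk : 1 ≤ k := Nat.one_le_iff_ne_zero.mpr (Nat.mul_ne_zero (by omega) (by omega))
  obtain ⟨C, hC⟩ := exists_star_bound hE hk hm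
  refine ⟨C, k, fun A hA0 hA => ?_⟩
  obtain ⟨a, ha⟩ := exists_eq_sum_secBasis hA
  have ha0 : a ≠ 0 := fun h => hA0 (by simp [ha, h])
  have hdeg : Divisor.degree (divOf A + d • E) = ((d + k : ℕ) : ℤ) := by
    rw [map_add, degree_divOf, map_nsmul, nsmul_eq_mul, hm, zero_add]
  obtain ⟨P, hP⟩ := exists_places_eq (d + k) ((mem_riemannRochSpace_iff_divOf hA0).mp hA) hdeg
  have hzero : IsZeroList E d k a P := fun Q => by
    rw [← sum_incid_eq P Q, ← hP, Finsupp.add_apply, divOf_apply]
    rw [show secOf (d • E) a = A from ha.symm]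
  refine ⟨(∑ i, hD E (P i)) - hgt a, fun Q => ?_⟩
  rw [hP, map_sum, AddMonoidHom.finsetSum_apply]
  simpa using hC a ha0 P hzero Q

theorem exists_pairing_divOf_bound {E : Divisor Qb F}
    (hE : 4 * (genusFF Qb F : ℤ) + 2 ≤ Divisor.degree E) (d0 : ℕ) :
    ∃ C : ℝ, ∀ f : F, f ≠ 0 → Divisor.degree (poleDiv (K := Qb) f) ≤ d0 →
      ∀ D : Divisor Qb F, Divisor.degree D = 0 → |pairing E (divOf f) D| ≤ C * normD D := by
  set d := d0 + genusFF Qb F + 1 with hd
  obtain ⟨C, k, hC⟩ := exists_pairing_zeroDiv_bound hE (d := d) (by omega)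
  refine ⟨2 * C, fun f hf hpole D hD => ?_⟩
  have hdeg : (genusFF Qb F : ℤ) ≤ Divisor.degree (d • E - poleDiv (K := Qb) f) := by
    rw [map_sub, map_nsmul, nsmul_eq_mul]
    have : (d : ℤ) * 1 ≤ d * Divisor.degree E := mul_le_mul_of_nonneg_left (by omega) (by omega)
    omega
  obtain ⟨B, hB, hB0⟩ := exists_ne_zero_of_ell_pos
    (D := d • E - poleDiv (K := Qb) f) (by have := ell_ge (d • E - poleDiv (K := Qb) f); omega)
  have hBd : B ∈ riemannRochSpace (d • E) :=
    FFBasic.riemannRochSpace_mono (sub_le_self _ (poleDiv_nonneg f)) hB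
  have hA : f * B ∈ riemannRochSpace (d • E) := by
    have := mul_mem_riemannRochSpace (mem_riemannRochSpace_poleDiv (K := Qb) f) hB
    rwa [add_sub_cancel] at this
  obtain ⟨κ1, h1⟩ := hC (f * B) (mul_ne_zero hf hB0) hA
  obtain ⟨κ2, h2⟩ := hC B hB0 hBd
  have hsplit : divOf (K := Qb) f = (divOf (f * B) + d • E) - (divOf B + d • E) := by
    rw [divOf_mul hf hB0]; abel
  refine abs_pairing_le (κ := κ1 - κ2) (fun Q => ?_) hD
  rw [hsplit, map_sub, AddMonoidHom.sub_apply]
  have := abs_le.mp (h1 Q)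
  have := abs_le.mp (h2 Q)
  exact abs_le.mpr ⟨by linarith, by linarith⟩

theorem degree_le_normD (D : Divisor Qb F) : Divisor.degree (D ⊔ 0) ≤ normD D := by
  classical
  have hsub : (D ⊔ 0).support ⊆ D.support := fun Q hQ => by
    simp only [Finsupp.mem_support_iff, Finsupp.sup_apply, Finsupp.coe_zero,
      Pi.zero_apply] at hQ ⊢
    exact fun h0 => hQ (by simp [h0])
  rw [degree_eq_sum_support, normD]
  simp only [deg_eq_one, Nat.cast_one, mul_one]
  rw [Finset.sum_subset hsub fun Q _ hQ => by simpa using hQ]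
  exact Finset.sum_le_sum fun Q _ => by
    simp only [Finsupp.sup_apply, Finsupp.coe_zero, Pi.zero_apply]
    exact max_le (le_abs_self _) (abs_nonneg _)

omit [IsFunctionField Qb F] in
theorem normD_eq_sum_of_subset {D : Divisor Qb F} {s : Finset (Place Qb F)}
    (h : D.support ⊆ s) : normD D = ∑ Q ∈ s, |D Q| :=
  Finset.sum_subset h fun Q _ hQ => by simp [Finsupp.notMem_support_iff.mp hQ]

omit [IsFunctionField Qb F] in
theorem normD_neg (D : Divisor Qb F) : normD (-D) = normD D := by
  simp [normD]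

omit [IsFunctionField Qb F] in
theorem normD_add_le (D D' : Divisor Qb F) : normD (D + D') ≤ normD D + normD D' := by
  classical
  rw [normD_eq_sum_of_subset (D := D + D') Finsupp.support_add,
    normD_eq_sum_of_subset (D := D) (s := D.support ∪ D'.support) Finset.subset_union_left,
    normD_eq_sum_of_subset (D := D') (s := D.support ∪ D'.support) Finset.subset_union_right,
    ← Finset.sum_add_distrib]
  exact Finset.sum_le_sum fun Q _ => by rw [Finsupp.add_apply]; exact abs_add_le _ _

omit [IsFunctionField Qb F] in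
theorem normD_single (P : Place Qb F) (n : ℤ) : normD (Finsupp.single P n) = |n| := by
  rcases eq_or_ne n 0 with rfl | hn
  · simp [normD]
  · rw [normD, Finsupp.support_single _ hn]; simp

theorem normD_eq_degree {D : Divisor Qb F} (h : 0 ≤ D) : normD D = Divisor.degree D := by
  rw [degree_eq_sum_support, normD]
  exact Finset.sum_congr rfl fun Q _ => by simp [deg_eq_one, abs_of_nonneg (h Q)]

omit [IsFunctionField Qb F] in
theorem normD_sub_le (D D' : Divisor Qb F) : normD (D - D') ≤ normD D + normD D' := by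
  simpa [sub_eq_add_neg, normD_neg] using normD_add_le D (-D')

/-- Linearly equivalent divisors of bounded size have almost the same self-pairing. -/
theorem exists_pairing_self_bound {E : Divisor Qb F}
    (hE : 4 * (genusFF Qb F : ℤ) + 2 ≤ Divisor.degree E) (N : ℕ) :
    ∃ C : ℝ, ∀ X Y : Divisor Qb F, Divisor.degree X = 0 → Divisor.degree Y = 0 →
      normD X ≤ N → normD Y ≤ N → X - Y ∈ Divisor.principal (K := Qb) (F := F) →
      |pairing E X X - pairing E Y Y| ≤ C := by
  obtain ⟨C, hC⟩ := exists_pairing_divOf_bound hE (2 * N)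
  refine ⟨2 * max C 0 * N, fun X Y hX hY hXN hYN ⟨f, hf, hfD⟩ => ?_⟩
  have hdiv : X - Y = divOf f := Finsupp.ext fun Q => by rw [divOf_apply]; exact hfD Q
  have hpole : Divisor.degree (poleDiv (K := Qb) f) ≤ (2 * N : ℕ) := by
    have h1 := degree_le_normD (-divOf (K := Qb) f)
    rw [normD_neg, ← hdiv] at h1
    have h2 := normD_sub_le X Y
    rw [poleDiv, ← hdiv]
    push_cast
    omega
  have key : pairing E X X - pairing E Y Y
      = pairing E (divOf f) X + pairing E (divOf f) Y := by
    rw [← hdiv, map_sub, AddMonoidHom.sub_apply, AddMonoidHom.sub_apply, pairing_comm E Y X]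
    ring
  have hbd : ∀ Z : Divisor Qb F, Divisor.degree Z = 0 → normD Z ≤ N →
      |pairing E (divOf f) Z| ≤ max C 0 * N := fun Z hZ hZN =>
    calc |pairing E (divOf f) Z| ≤ C * normD Z := hC f hf hpole Z hZ
      _ ≤ max C 0 * normD Z := mul_le_mul_of_nonneg_right (le_max_left _ _)
          (by exact_mod_cast Finset.sum_nonneg fun Q _ => abs_nonneg _)
      _ ≤ max C 0 * N := mul_le_mul_of_nonneg_left (by exact_mod_cast hZN) (le_max_right _ _)
  rw [key]
  have h1 := hbd X hX hXN
  have h2 := hbd Y hY hYN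
  have := abs_add_le (pairing E (divOf f) X) (pairing E (divOf f) Y)
  linarith

end FLTAgent.MordellWeil
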