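import Fermat.Agent.MordellWeil.HeightDiv

/-!
# Multiplication by a base point free family

`space_le_span_mul_of_bpf`: multiplication of a base point free family of sections with a large
Riemann–Roch space is surjective.
-/

set_option autoImplicit false

noncomputable section

open AlgebraicCurve FLTAgent.FFRiemannRoch FLTAgent.FFBasic

namespace FLTAgent.MordellWeil

variable {K F : Type*} [Field K] [Field F] [Algebra K F] [IsAlgClosed K] [IsFunctionField K F]

theorem exists_pencil_in_span {X : Divisor K F} {α : Type*} (f : α → F)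
    (hf : ∀ a, f a ∈ riemannRochSpace X) (hbpf : ∀ v, ∃ a, evAt X v (f a) ≠ 0) :
    ∃ s ∈ Submodule.span K (Set.range f), ∃ t ∈ Submodule.span K (Set.range f),
      s ≠ 0 ∧ t ≠ 0 ∧ ∀ v, v.ord s = -X v ∨ v.ord t = -X v := by
  classical
  obtain ⟨v₀⟩ := (inferInstance : Nonempty (Place K F))
  set V := Submodule.span K (Set.range f) with hV
  have hVX : V ≤ riemannRochSpace X := Submodule.span_le.mpr (by rintro _ ⟨a, rfl⟩; exact hf a)
  have hfV : ∀ a, f a ∈ V := fun a => Submodule.subset_span ⟨a, rfl⟩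
  obtain ⟨a₀, ha₀⟩ := hbpf v₀
  have hord : ∀ {v : Place K F} {g : F}, g ∈ riemannRochSpace X → evAt X v g ≠ 0 →
      g ≠ 0 ∧ v.ord g = -X v := fun {v g} hg h =>
    (coefAt_ne_zero_iff_ord_eq (mem_filt_of_mem_space hg v)).mp h
  set s := f a₀ with hs
  have hs0 : s ≠ 0 := (hord (hf a₀) ha₀).1
  set B := insert v₀ (divOf (K := K) s + X).support
  let p : Place K F → Submodule K V := fun v =>
    LinearMap.ker ((evAt X v).comp (Submodule.subtype V))
  have hp : (⊤ : Submodule K V) ∉ B.image p := by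
    intro htop
    obtain ⟨v, -, hv⟩ := Finset.mem_image.mp htop
    obtain ⟨a, ha⟩ := hbpf v
    exact ha (LinearMap.mem_ker.mp
      (show (⟨f a, hfV a⟩ : V) ∈ p v from hv ▸ Submodule.mem_top))
  have : Infinite K := IsAlgClosed.instInfinite
  obtain ⟨t, ht⟩ := (Set.ne_univ_iff_exists_notMem _).mp
    (Subspace.biUnion_ne_univ_of_top_notMem hp)
  simp only [Finset.set_biUnion_finset_image, Set.mem_iUnion, not_exists] at ht
  have hev : ∀ v ∈ B, evAt X v (t : F) ≠ 0 := fun v hv h0 =>
    ht v hv (SetLike.mem_coe.mpr (LinearMap.mem_ker.mpr h0))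
  refine ⟨s, hfV a₀, t, t.2, hs0, (hord (hVX t.2) (hev v₀ (Finset.mem_insert_self _ _))).1,
    fun v => ?_⟩
  by_cases hv : v ∈ B
  · exact Or.inr (hord (hVX t.2) (hev v hv)).2
  · left
    simp only [B, Finset.mem_insert, not_or, Finsupp.mem_support_iff, not_not,
      Finsupp.add_apply, divOf_apply] at hv
    omega

/-- Surjectivity of multiplication by a base point free family. -/
theorem space_le_span_mul_of_bpf {X Z : Divisor K F} {α : Type*} (f : α → F)
    (hf : ∀ a, f a ∈ riemannRochSpace X) (hbpf : ∀ v, ∃ a, evAt X v (f a) ≠ 0)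
    (hX : 0 ≤ Divisor.degree X)
    (hZ : Divisor.degree X + 2 * (genusFF K F : ℤ) - 1 ≤ Divisor.degree Z) :
    riemannRochSpace (X + Z) ≤ Submodule.span K
      (Set.range fun q : α × Fin (ell K F Z) => f q.1 * secBasis Z q.2) := by
  classical
  obtain ⟨s, hs, t, ht, hs0, ht0, hst⟩ := exists_pencil_in_span f hf hbpf
  set V := Submodule.span K (Set.range f) with hV
  have hVX : V ≤ riemannRochSpace X := Submodule.span_le.mpr (by rintro _ ⟨a, rfl⟩; exact hf a)
  have hspan : V * riemannRochSpace Z ≤ Submodule.span K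
      (Set.range fun q : α × Fin (ell K F Z) => f q.1 * secBasis Z q.2) := by
    refine Submodule.mul_le.mpr fun a ha b hb => ?_
    obtain ⟨c, rfl⟩ := exists_eq_sum_secBasis hb
    rw [Finset.mul_sum]
    refine sum_mem fun j _ => ?_
    rw [mul_smul_comm]
    refine Submodule.smul_mem _ _ ?_
    have hmap : a * secBasis Z j ∈ Submodule.map (LinearMap.mulRight K (secBasis Z j)) V :=
      ⟨a, ha, rfl⟩
    rw [hV, Submodule.map_span] at hmap
    refine Submodule.span_mono ?_ hmap
    rintro _ ⟨_, ⟨i, rfl⟩, rfl⟩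
    exact ⟨(i, j), rfl⟩
  rw [add_comm]
  refine (space_add_le_mul_of_pencil hVX hs ht hs0 ht0 hst hX hZ).trans ?_
  rwa [mul_comm]

end FLTAgent.MordellWeil
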