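import Fermat.Agent.FFRiemannRoch.FunctionField
import Fermat.Agent.FFDifferential.Canonical

/-!
# Evaluation of sections at places

Coefficients of expansions at places (`coefAt`), evaluation of sections of a divisor (`evAt`),
the fixed basis `secBasis Z` of a Riemann–Roch space and the point `evVec Z P` it defines.
-/

set_option autoImplicit false

noncomputable section

open AlgebraicCurve FLTAgent.FFBasic FLTAgent.FFDifferential

namespace FLTAgent.MordellWeil

variable {K F : Type*} [Field K] [Field F] [Algebra K F] [IsAlgClosed K] [IsFunctionField K F]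

/-- A chosen uniformizer at a place. -/
def uni (P : Place K F) : P.toValuationSubring :=
  (IsDiscreteValuationRing.exists_irreducible P.toValuationSubring).choose

omit [IsAlgClosed K] [IsFunctionField K F] in
theorem uni_irreducible (P : Place K F) : Irreducible (uni P) :=
  (IsDiscreteValuationRing.exists_irreducible P.toValuationSubring).choose_spec

/-- The expansion at a place in the chosen uniformizer. -/
def expandAt (P : Place K F) : F →+* LaurentSeries K :=
  haveI : P.FiniteResidue := ⟨place_finite_residueField P⟩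
  expand (uni_irreducible P)

theorem order_expandAt (P : Place K F) (f : F) : (expandAt P f).order = P.ord f :=
  haveI : P.FiniteResidue := ⟨place_finite_residueField P⟩
  order_expand (uni_irreducible P) f

theorem expandAt_algebraMap (P : Place K F) (c : K) :
    expandAt P (algebraMap K F c) = HahnSeries.C c :=
  haveI : P.FiniteResidue := ⟨place_finite_residueField P⟩
  expand_algebraMap (uni_irreducible P) c

theorem expandAt_ne_zero {P : Place K F} {f : F} (hf : f ≠ 0) : expandAt P f ≠ 0 :=
  (map_ne_zero _).mpr hf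

/-- The coefficient of index `n` of the expansion at `P`. -/
def coefAt (P : Place K F) (n : ℤ) : F →ₗ[K] K where
  toFun f := (expandAt P f).coeff n
  map_add' f g := by simp
  map_smul' c f := by
    rw [Algebra.smul_def, map_mul, expandAt_algebraMap, HahnSeries.C_mul_eq_smul]
    rfl

theorem coefAt_apply (P : Place K F) (n : ℤ) (f : F) :
    coefAt P n f = (expandAt P f).coeff n := rfl

theorem coefAt_ord_ne_zero (P : Place K F) {f : F} (hf : f ≠ 0) : coefAt P (P.ord f) f ≠ 0 := by
  rw [coefAt_apply, ← order_expandAt P f]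
  exact coeff_order_ne (expandAt_ne_zero hf)

theorem coefAt_eq_zero_of_mem_filt {P : Place K F} {n m : ℤ} {f : F} (hf : f ∈ filt P n)
    (hm : m < n) : coefAt P m f = 0 := by
  rcases mem_filt.mp hf with rfl | h
  · exact (coefAt P m).map_zero
  · rw [coefAt_apply]
    refine HahnSeries.coeff_eq_zero_of_lt_order ?_
    rw [order_expandAt]
    omega

theorem mem_filt_succ_iff {P : Place K F} {n : ℤ} {f : F} :
    f ∈ filt P (n + 1) ↔ f ∈ filt P n ∧ coefAt P n f = 0 := by
  refine ⟨fun h => ⟨filt_antitone P (by omega) h, coefAt_eq_zero_of_mem_filt h (by omega)⟩, ?_⟩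
  rintro ⟨h, h0⟩
  rcases eq_or_ne f 0 with rfl | hf
  · exact zero_mem _
  have hn := le_ord_of_mem_filt h hf
  refine mem_filt_of_le ?_
  by_contra hlt
  exact coefAt_ord_ne_zero P hf (by rwa [show P.ord f = n by omega])

theorem coefAt_ne_zero_iff_ord_eq {P : Place K F} {n : ℤ} {f : F} (h : f ∈ filt P n) :
    coefAt P n f ≠ 0 ↔ f ≠ 0 ∧ P.ord f = n := by
  refine ⟨fun hc => ?_, fun ⟨hf, ho⟩ => ho ▸ coefAt_ord_ne_zero P hf⟩
  have hf : f ≠ 0 := fun h0 => hc (by rw [h0, map_zero])
  refine ⟨hf, le_antisymm (not_lt.mp fun hlt => hc ?_) (le_ord_of_mem_filt h hf)⟩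
  exact coefAt_eq_zero_of_mem_filt (mem_filt_of_le le_rfl) hlt

/-- Leading coefficients multiply. -/
theorem coefAt_mul {P : Place K F} {a b : ℤ} {f g : F} (hf : f ∈ filt P a) (hg : g ∈ filt P b) :
    coefAt P (a + b) (f * g) = coefAt P a f * coefAt P b g := by
  rcases eq_or_ne f 0 with rfl | hf0
  · simp
  rcases eq_or_ne g 0 with rfl | hg0
  · simp
  have ha := le_ord_of_mem_filt hf hf0
  have hb := le_ord_of_mem_filt hg hg0
  have hord : P.ord (f * g) = P.ord f + P.ord g := P.ord_mul hf0 hg0
  by_cases h : P.ord f = a ∧ P.ord g = b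
  · simp only [coefAt_apply, map_mul, ← h.1, ← h.2, ← order_expandAt]
    rw [HahnSeries.coeff_mul_order_add_order, HahnSeries.leadingCoeff_eq,
      HahnSeries.leadingCoeff_eq]
  · rw [coefAt_eq_zero_of_mem_filt (mem_filt_of_le (le_refl (P.ord (f * g)))) (by omega)]
    rcases not_and_or.mp h with h' | h'
    · rw [coefAt_eq_zero_of_mem_filt (mem_filt_of_le (le_refl (P.ord f))) (by omega), zero_mul]
    · rw [coefAt_eq_zero_of_mem_filt (mem_filt_of_le (le_refl (P.ord g))) (by omega), mul_zero]

omit [IsAlgClosed K] [IsFunctionField K F] in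
theorem prod_mem_filt {ι : Type*} (s : Finset ι) {P : Place K F} (a : ι → ℤ) (f : ι → F)
    (hf : ∀ i ∈ s, f i ∈ filt P (a i)) : ∏ i ∈ s, f i ∈ filt P (∑ i ∈ s, a i) := by
  classical
  induction s using Finset.induction with
  | empty => simpa using mem_filt_of_le (v := P) (n := 0) (f := (1 : F)) (by simp)
  | insert i s hi ih =>
    rw [Finset.prod_insert hi, Finset.sum_insert hi]
    exact mul_mem_filt (hf i (Finset.mem_insert_self i s))
      (ih fun j hj => hf j (Finset.mem_insert_of_mem hj))

theorem coefAt_one (P : Place K F) : coefAt P 0 1 = 1 := by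
  rw [coefAt_apply, map_one]
  simp

theorem coefAt_prod {ι : Type*} (s : Finset ι) {P : Place K F} (a : ι → ℤ) (f : ι → F)
    (hf : ∀ i ∈ s, f i ∈ filt P (a i)) :
    coefAt P (∑ i ∈ s, a i) (∏ i ∈ s, f i) = ∏ i ∈ s, coefAt P (a i) (f i) := by
  classical
  induction s using Finset.induction with
  | empty => simp [coefAt_one]
  | insert i s hi ih =>
    have hs : ∀ j ∈ s, f j ∈ filt P (a j) := fun j hj => hf j (Finset.mem_insert_of_mem hj)
    rw [Finset.prod_insert hi, Finset.sum_insert hi, Finset.prod_insert hi,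
      coefAt_mul (hf i (Finset.mem_insert_self i s)) (prod_mem_filt s a f hs), ih hs]

/-! ### Evaluation of sections -/

/-- The value at `P` of a section of `Z`. -/
def evAt (Z : Divisor K F) (P : Place K F) : F →ₗ[K] K := coefAt P (-Z P)

omit [IsAlgClosed K] [IsFunctionField K F] in
theorem mem_filt_of_mem_space {Z : Divisor K F} {f : F} (hf : f ∈ riemannRochSpace Z)
    (P : Place K F) : f ∈ filt P (-Z P) :=
  mem_riemannRochSpace_filt.mp hf P

theorem evAt_congr {Z Z' : Divisor K F} {P : Place K F} (h : Z P = Z' P) :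
    evAt Z P = evAt Z' P := by
  rw [evAt, evAt, h]

theorem evAt_mul {Z Z' : Divisor K F} {f g : F} (hf : f ∈ riemannRochSpace Z)
    (hg : g ∈ riemannRochSpace Z') (P : Place K F) :
    evAt (Z + Z') P (f * g) = evAt Z P f * evAt Z' P g := by
  rw [evAt, show -(Z + Z') P = -Z P + -Z' P by rw [Finsupp.add_apply]; ring]
  exact coefAt_mul (mem_filt_of_mem_space hf P) (mem_filt_of_mem_space hg P)

theorem evAt_prod {ι : Type*} (s : Finset ι) (Z : ι → Divisor K F) (f : ι → F)
    (hf : ∀ i ∈ s, f i ∈ riemannRochSpace (Z i)) (P : Place K F) :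
    evAt (∑ i ∈ s, Z i) P (∏ i ∈ s, f i) = ∏ i ∈ s, evAt (Z i) P (f i) := by
  rw [evAt, Finsupp.finsetSum_apply, ← Finset.sum_neg_distrib]
  exact coefAt_prod s _ f fun i hi => mem_filt_of_mem_space (hf i hi) P

theorem evAt_eq_zero_iff {Z : Divisor K F} {f : F} (hf : f ∈ riemannRochSpace Z) (P : Place K F) :
    evAt Z P f = 0 ↔ f ∈ riemannRochSpace (Z - Finsupp.single P 1) := by
  classical
  have key : f ∈ riemannRochSpace (Z - Finsupp.single P 1) ↔ f ∈ filt P (-Z P + 1) := by
    rw [mem_riemannRochSpace_filt]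
    refine ⟨fun h => ?_, fun h v => ?_⟩
    · have hP := h P
      simp only [Finsupp.sub_apply, Finsupp.single_eq_same] at hP
      rwa [show -Z P + 1 = -(Z P - 1) by ring]
    · rcases eq_or_ne v P with rfl | hv
      · simp only [Finsupp.sub_apply, Finsupp.single_eq_same]
        rwa [show -(Z v - 1) = -Z v + 1 by ring]
      · simpa [hv] using mem_filt_of_mem_space hf v
  rw [key, mem_filt_succ_iff, and_iff_right (mem_filt_of_mem_space hf P)]
  rfl

theorem exists_evAt_ne_zero {Z : Divisor K F}
    (h : 2 * (genusFF K F : ℤ) ≤ Divisor.degree Z) (P : Place K F) :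
    ∃ f ∈ riemannRochSpace Z, evAt Z P f ≠ 0 := by
  obtain ⟨f, hf, hf'⟩ := FFRiemannRoch.exists_mem_notMem_sub_single P h
  exact ⟨f, hf, fun h0 => hf' ((evAt_eq_zero_iff hf P).mp h0)⟩

/-- A fixed basis of `L(Z)`, as functions. -/
def secBasis (Z : Divisor K F) : Fin (FFRiemannRoch.ell K F Z) → F :=
  fun i => (Module.finBasis K (riemannRochSpace Z) i : F)

omit [IsAlgClosed K] in
theorem secBasis_mem (Z : Divisor K F) (i : Fin (FFRiemannRoch.ell K F Z)) :
    secBasis Z i ∈ riemannRochSpace Z :=
  (Module.finBasis K (riemannRochSpace Z) i).2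

omit [IsAlgClosed K] in
theorem exists_eq_sum_secBasis {Z : Divisor K F} {f : F} (hf : f ∈ riemannRochSpace Z) :
    ∃ t : Fin (FFRiemannRoch.ell K F Z) → K, f = ∑ i, t i • secBasis Z i := by
  refine ⟨(Module.finBasis K (riemannRochSpace Z)).repr ⟨f, hf⟩, ?_⟩
  have h := congrArg ((↑) : riemannRochSpace Z → F)
    ((Module.finBasis K (riemannRochSpace Z)).sum_repr ⟨f, hf⟩)
  rw [Submodule.coe_sum] at h
  exact h.symm

omit [IsAlgClosed K] in
theorem linearIndependent_secBasis (Z : Divisor K F) : LinearIndependent K (secBasis Z) :=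
  (Module.finBasis K (riemannRochSpace Z)).linearIndependent.map' (Submodule.subtype _)
    (Submodule.ker_subtype _)

omit [IsAlgClosed K] in
theorem sum_smul_mem {Z : Divisor K F} (t : Fin (FFRiemannRoch.ell K F Z) → K) :
    ∑ i, t i • secBasis Z i ∈ riemannRochSpace Z :=
  sum_mem fun i _ => Submodule.smul_mem _ _ (secBasis_mem Z i)

/-- The value at `P` of the fixed basis of `L(Z)`. -/
def evVec (Z : Divisor K F) (P : Place K F) : Fin (FFRiemannRoch.ell K F Z) → K :=
  fun i => evAt Z P (secBasis Z i)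

theorem evAt_sum_secBasis (Z : Divisor K F) (P : Place K F)
    (t : Fin (FFRiemannRoch.ell K F Z) → K) :
    evAt Z P (∑ i, t i • secBasis Z i) = ∑ i, t i * evVec Z P i := by
  simp [evVec]

theorem evVec_ne_zero {Z : Divisor K F} (h : 2 * (genusFF K F : ℤ) ≤ Divisor.degree Z)
    (P : Place K F) : evVec Z P ≠ 0 := by
  obtain ⟨f, hf, hne⟩ := exists_evAt_ne_zero h P
  obtain ⟨t, rfl⟩ := exists_eq_sum_secBasis hf
  intro h0
  refine hne ?_
  rw [evAt_sum_secBasis]
  simp [h0]

end FLTAgent.MordellWeil
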