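import Fermat.Agent.MordellWeil.Pencil
import Fermat.Agent.MordellWeil.Line

/-!
# The Gauss map

Tangent lines are cut out by sections of `2E + div ω` (`gaussSec`), whence a height of the class
of this divisor bounds the heights of the tangent lines from below (`exists_le_lineHgt_self`).
-/

set_option autoImplicit false

noncomputable section

open AlgebraicCurve FLTAgent.FFRiemannRoch FLTAgent.FFBasic FLTAgent.FFDifferential

namespace FLTAgent.MordellWeil

section Series

variable {K : Type*} [Field K]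

theorem laurent_coeff_mul_eq_zero {a b : LaurentSeries K} {p q m : ℤ}
    (ha : ∀ i < p, a.coeff i = 0) (hb : ∀ i < q, b.coeff i = 0) (hm : m < p + q) :
    (a * b).coeff m = 0 := by
  rw [HahnSeries.coeff_mul]
  refine Finset.sum_eq_zero fun ij hij => ?_
  obtain ⟨-, -, hsum⟩ := Finset.mem_antidiagonal.mp hij
  rcases lt_or_ge ij.1 p with h | h
  · rw [ha _ h, zero_mul]
  · rw [hb _ (by omega), mul_zero]

theorem laurent_coeff_split {a : LaurentSeries K} {p : ℤ} (ha : ∀ i < p, a.coeff i = 0) :
    ∀ i < p + 1, (a - HahnSeries.single p (a.coeff p)).coeff i = 0 := by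
  intro i hi
  rw [HahnSeries.coeff_sub, HahnSeries.coeff_single]
  split_ifs with h
  · simp [h]
  · rw [ha i (by omega), sub_zero]

theorem laurent_coeff_deriv_eq_zero {a : LaurentSeries K} {p : ℤ}
    (ha : ∀ i < p, a.coeff i = 0) :
    ∀ i < p - 1, (LaurentSeries.derivative K a).coeff i = 0 := fun i hi => by
  rw [laurent_coeff_deriv, ha _ (by omega), mul_zero]

theorem laurent_coeff_mul_leading {a b : LaurentSeries K} {p q : ℤ}
    (ha : ∀ i < p, a.coeff i = 0) (hb : ∀ i < q, b.coeff i = 0) :
    (a * b).coeff (p + q) = a.coeff p * b.coeff q := by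
  conv_lhs => rw [← sub_add_cancel a (HahnSeries.single p (a.coeff p))]
  rw [add_mul, HahnSeries.coeff_add,
    laurent_coeff_mul_eq_zero (laurent_coeff_split ha) hb (by omega), zero_add, add_comm p q,
    HahnSeries.coeff_single_mul_add]

/-- The Wronskian of two series. -/
def wr (f g : LaurentSeries K) : LaurentSeries K :=
  f * LaurentSeries.derivative K g - g * LaurentSeries.derivative K f

theorem coeff_wr {f g : LaurentSeries K} {n : ℤ} (hf : ∀ i < n, f.coeff i = 0)
    (hg : ∀ i < n, g.coeff i = 0) :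
    (∀ i < 2 * n, (wr f g).coeff i = 0) ∧
      (wr f g).coeff (2 * n) = f.coeff n * g.coeff (n + 1) - g.coeff n * f.coeff (n + 1) := by
  set a := HahnSeries.single n (f.coeff n) with ha
  set b := HahnSeries.single n (g.coeff n) with hb
  have hf1 := laurent_coeff_split hf
  have hg1 := laurent_coeff_split hg
  rw [← ha] at hf1
  rw [← hb] at hg1
  have hdf1 := laurent_coeff_deriv_eq_zero hf1
  have hdg1 := laurent_coeff_deriv_eq_zero hg1
  have hda : LaurentSeries.derivative K a = HahnSeries.single (n - 1) ((n : K) * f.coeff n) := by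
    ext i
    rw [laurent_coeff_deriv, ha, HahnSeries.coeff_single, HahnSeries.coeff_single]
    rcases eq_or_ne i (n - 1) with rfl | h
    · simp
    · rw [if_neg (by omega), if_neg h, mul_zero]
  have hdb : LaurentSeries.derivative K b = HahnSeries.single (n - 1) ((n : K) * g.coeff n) := by
    ext i
    rw [laurent_coeff_deriv, hb, HahnSeries.coeff_single, HahnSeries.coeff_single]
    rcases eq_or_ne i (n - 1) with rfl | h
    · simp
    · rw [if_neg (by omega), if_neg h, mul_zero]
  have hab : a * LaurentSeries.derivative K b - b * LaurentSeries.derivative K a = 0 := by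
    rw [hda, hdb, ha, hb, HahnSeries.single_mul_single, HahnSeries.single_mul_single, sub_eq_zero]
    congr 1
    ring
  have hwr : wr f g = (a * LaurentSeries.derivative K (g - b) -
    (g - b) * LaurentSeries.derivative K a)
      - (b * LaurentSeries.derivative K (f - a) - (f - a) * LaurentSeries.derivative K b)
      + ((f - a) * LaurentSeries.derivative K (g - b)
        - (g - b) * LaurentSeries.derivative K (f - a)) := by
    simp only [wr, map_sub]
    linear_combination hab
  have hsingle : ∀ i < n, a.coeff i = 0 ∧ b.coeff i = 0 := fun i hi => by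
    simp [ha, hb, hi.ne]
  have hda0 := laurent_coeff_deriv_eq_zero (a := a) (p := n) fun i hi => (hsingle i hi).1
  have hdb0 := laurent_coeff_deriv_eq_zero (a := b) (p := n) fun i hi => (hsingle i hi).2
  refine ⟨fun i hi => ?_, ?_⟩
  · rw [hwr]
    simp only [HahnSeries.coeff_add, HahnSeries.coeff_sub]
    rw [laurent_coeff_mul_eq_zero (fun j hj => (hsingle j hj).1) hdg1 (by omega),
      laurent_coeff_mul_eq_zero hg1 hda0 (by omega),
      laurent_coeff_mul_eq_zero (fun j hj => (hsingle j hj).2) hdf1 (by omega),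
      laurent_coeff_mul_eq_zero hf1 hdb0 (by omega),
      laurent_coeff_mul_eq_zero hf1 hdg1 (by omega),
      laurent_coeff_mul_eq_zero hg1 hdf1 (by omega)]
    ring
  · rw [hwr]
    simp only [HahnSeries.coeff_add, HahnSeries.coeff_sub]
    rw [laurent_coeff_mul_eq_zero hf1 hdg1 (by omega : 2 * n < _),
      laurent_coeff_mul_eq_zero hg1 hdf1 (by omega : 2 * n < _),
      show 2 * n = n + (n + 1 - 1) by ring,
      laurent_coeff_mul_leading (fun j hj => (hsingle j hj).1) hdg1,
      laurent_coeff_mul_leading (fun j hj => (hsingle j hj).2) hdf1,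
      show n + (n + 1 - 1) = (n + 1) + (n - 1) by ring,
      laurent_coeff_mul_leading hg1 hda0, laurent_coeff_mul_leading hf1 hdb0,
      laurent_coeff_deriv, laurent_coeff_deriv, laurent_coeff_deriv, laurent_coeff_deriv]
    simp only [ha, hb, HahnSeries.coeff_sub, HahnSeries.coeff_single]
    simp
    ring

end Series

variable {K F : Type*} [Field K] [Field F] [Algebra K F] [IsAlgClosed K] [IsFunctionField K F]
  [CharZero K]

/-- The coefficient of `φ a dφ b - φ b dφ a` with respect to a differential. -/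
def gaussSec (E : Divisor K F) {ω : Ω[F⁄K]} (hω : ω ≠ 0)
    (kl : Fin (ell K F E) × Fin (ell K F E)) : F :=
  (exists_smul_eq_of_ne_zero hω (secBasis E kl.1 • KaehlerDifferential.D K F (secBasis E kl.2)
    - secBasis E kl.2 • KaehlerDifferential.D K F (secBasis E kl.1))).choose

omit [IsAlgClosed K] in
theorem gaussSec_spec (E : Divisor K F) {ω : Ω[F⁄K]} (hω : ω ≠ 0)
    (kl : Fin (ell K F E) × Fin (ell K F E)) :
    gaussSec E hω kl • ω = secBasis E kl.1 • KaehlerDifferential.D K F (secBasis E kl.2)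
      - secBasis E kl.2 • KaehlerDifferential.D K F (secBasis E kl.1) :=
  (exists_smul_eq_of_ne_zero hω (secBasis E kl.1 • KaehlerDifferential.D K F (secBasis E kl.2)
    - secBasis E kl.2 • KaehlerDifferential.D K F (secBasis E kl.1))).choose_spec

theorem gaussSec_local (E : Divisor K F) {ω : Ω[F⁄K]} (hω : ω ≠ 0)
    (kl : Fin (ell K F E) × Fin (ell K F E)) (Q : Place K F) :
    gaussSec E hω kl ∈ filt Q (-((2 • E + canonicalDivisorOf hω) Q)) ∧
      ∃ c : K, c ≠ 0 ∧ ∀ kl', c * evAt (2 • E + canonicalDivisorOf hω) Q (gaussSec E hω kl')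
        = lineVec E Q Q kl' := by
  have : Q.FiniteResidue := ⟨place_finite_residueField Q⟩
  set n := -E Q with hn
  set ν := canonicalDivisorOf hω Q with hν
  set s := diffSeries (uni_irreducible Q) ω with hs
  have hs0 : s ≠ 0 := fun h => hω (diffSeries_injective (uni_irreducible Q)
    (h.trans (map_zero _).symm))
  have hsord : s.order = ν := by
    rw [hν, canonicalDivisorOf_apply, ordDifferential_eq_order (uni_irreducible Q)]
  have hsν : ∀ i < ν, s.coeff i = 0 := fun i hi =>
    HahnSeries.coeff_eq_zero_of_lt_order (hsord.symm ▸ hi)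
  have hsc : s.coeff ν ≠ 0 := hsord ▸ coeff_order_ne hs0
  have hX : -((2 • E + canonicalDivisorOf hω) Q) = 2 * n - ν := by
    simp only [Finsupp.add_apply, Finsupp.smul_apply, hn, hν, nsmul_eq_mul]
    push_cast; ring
  have hser : ∀ ab, expandAt Q (gaussSec E hω ab) * s
      = wr (expandAt Q (secBasis E ab.1)) (expandAt Q (secBasis E ab.2)) := fun ab => by
    have h := congrArg (diffSeries (uni_irreducible Q)) (gaussSec_spec E hω ab)
    rw [map_sub, diffSeries_smul, diffSeries_smul, diffSeries_smul, diffSeries_D,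
      diffSeries_D] at h
    exact h
  have hφ : ∀ j, ∀ i < n, (expandAt Q (secBasis E j)).coeff i = 0 := fun j i hi =>
    coefAt_eq_zero_of_mem_filt (mem_filt_of_mem_space (secBasis_mem E j) Q) hi
  have hmem : ∀ ab, gaussSec E hω ab ∈ filt Q (2 * n - ν) := fun ab => by
    rcases eq_or_ne (gaussSec E hω ab) 0 with h0 | h0
    · rw [h0]; exact zero_mem _
    · refine mem_filt_of_le ?_
      by_contra hlt
      push Not at hlt
      have hg : ∀ i < Q.ord (gaussSec E hω ab), (expandAt Q (gaussSec E hω ab)).coeff i = 0 :=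
        fun i hi => coefAt_eq_zero_of_mem_filt (mem_filt_of_le le_rfl) hi
      have h1 := laurent_coeff_mul_leading hg hsν
      rw [hser, (coeff_wr (hφ ab.1) (hφ ab.2)).1 _ (by omega)] at h1
      exact mul_ne_zero (coefAt_ord_ne_zero Q h0) hsc h1.symm
  refine ⟨hX ▸ hmem kl, s.coeff ν, hsc, fun ab => ?_⟩
  have h1 := laurent_coeff_mul_leading (a := expandAt Q (gaussSec E hω ab)) (b := s)
    (p := 2 * n - ν) (fun i hi => coefAt_eq_zero_of_mem_filt (hmem ab) hi) hsν
  rw [hser, sub_add_cancel, (coeff_wr (hφ ab.1) (hφ ab.2)).2] at h1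
  rw [evAt, hX, mul_comm, coefAt_apply, ← h1]
  simp only [lineVec, om, incid_self, map_sub, map_smul, smul_eq_mul, evVec, evAt, coefAt_apply,
    ← hn]

theorem gaussSec_mem (E : Divisor K F) {ω : Ω[F⁄K]} (hω : ω ≠ 0)
    (kl : Fin (ell K F E) × Fin (ell K F E)) :
    gaussSec E hω kl ∈ riemannRochSpace (2 • E + canonicalDivisorOf hω) :=
  mem_riemannRochSpace_filt.mpr fun Q => (gaussSec_local E hω kl Q).1

theorem exists_le_lineHgt_self {F : Type*} [Field F] [Algebra Qb F] [IsFunctionField Qb F]
    {E : Divisor Qb F} (hE : 4 * (genusFF Qb F : ℤ) + 2 ≤ Divisor.degree E)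
    {ω : Ω[F⁄Qb]} (hω : ω ≠ 0) :
    ∃ (h : Place Qb F → ℝ) (C : ℝ), hdiv (2 • E + canonicalDivisorOf hω) = bddClass h ∧
      ∀ Q, h Q ≤ lineHgt E Q Q + C := by
  classical
  set X := 2 • E + canonicalDivisorOf hω with hXdef
  set f := gaussSec E hω with hf
  have hbpf : ∀ Q, ∃ kl, evAt X Q (f kl) ≠ 0 := fun Q => by
    obtain ⟨kl, hkl⟩ := Function.ne_iff.mp (lineVec_ne_zero hE Q Q)
    obtain ⟨-, c, -, hev⟩ := gaussSec_local E hω kl Q
    exact ⟨kl, fun h0 => hkl (by rw [← hev kl]; simp [hf, ← hXdef] at h0 ⊢; simp [h0])⟩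
  obtain ⟨P₀⟩ := (inferInstance : Nonempty (Place Qb F))
  have hdX : Divisor.degree X = 2 * Divisor.degree E + (2 * (genusFF Qb F : ℤ) - 2) := by
    rw [hXdef, map_add, map_nsmul, degree_canonicalDivisorOf hω]; simp
  set Z : Divisor Qb F :=
    Finsupp.single P₀ (Divisor.degree X + 2 * (genusFF Qb F : ℤ)) with hZdef
  have hdZ : Divisor.degree Z = Divisor.degree X + 2 * (genusFF Qb F : ℤ) := by
    rw [hZdef, Divisor.degree_single, deg_eq_one, Nat.cast_one, mul_one]
  have hXZ : 2 * (genusFF Qb F : ℤ) ≤ Divisor.degree (X + Z) := by rw [map_add]; omega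
  obtain ⟨C, hC⟩ := exists_hD_le_family hXZ
    (fun q : (Fin (ell Qb F E) × Fin (ell Qb F E)) × Fin (ell Qb F Z) => f q.1 * secBasis Z q.2)
    (space_le_span_mul_of_bpf f (gaussSec_mem E hω) hbpf (by omega) (by omega))
  refine ⟨fun Q => hD (X + Z) Q - hD Z Q, C, ?_, fun Q => ?_⟩
  · have h := hdiv_eq_sub hXZ (show 2 * (genusFF Qb F : ℤ) ≤ Divisor.degree Z by omega)
    rw [add_sub_cancel_right, ← map_sub] at h
    exact h
  · obtain ⟨kl, -⟩ := Function.ne_iff.mp (lineVec_ne_zero hE Q Q)
    obtain ⟨-, c, hc0, hev⟩ := gaussSec_local E hω kl Q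
    have h := (hC Q).2
    rw [show (fun q : (Fin (ell Qb F E) × Fin (ell Qb F E)) × Fin (ell Qb F Z) =>
        evAt (X + Z) Q (f q.1 * secBasis Z q.2)) =
        c⁻¹ • (fun q => lineVec E Q Q q.1 * evVec Z Q q.2) by
      funext q
      rw [evAt_mul (gaussSec_mem E hω q.1) (secBasis_mem Z q.2) Q, Pi.smul_apply, smul_eq_mul,
        ← hev q.1, ← mul_assoc, ← mul_assoc, inv_mul_cancel₀ hc0, one_mul]
      rfl,
      hgt_smul (inv_ne_zero hc0),
      hgt_pair (lineVec_ne_zero hE Q Q) (evVec_ne_zero (by omega) Q)] at h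
    simp only [lineHgt, hD] at h ⊢
    linarith

end FLTAgent.MordellWeil
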