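import Fermat.Agent.MordellWeil.Minors
import Fermat.Agent.MordellWeil.Tangent

/-!
# Positivity of the pairing

`exists_pairing_ge`: for a reduced effective divisor `D` of degree `n`, the self-pairing of
`D - n • O` dominates the heights of the places of `D`.
-/

set_option autoImplicit false

noncomputable section

open AlgebraicCurve FLTAgent.FFRiemannRoch FLTAgent.FFBasic FLTAgent.FFDifferential

namespace FLTAgent.MordellWeil

section Generic

variable {K F : Type*} [Field K] [Field F] [Algebra K F] [IsAlgClosed K] [IsFunctionField K F]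
  [CharZero K]

omit [CharZero K] in
theorem exists_impose_condition {W X : Divisor K F} {T : Finset (Place K F)} (hX : 0 ≤ X)
    (hT : ell K F (W - ∑ v ∈ T, Finsupp.single v 1) = 0) (h : 0 < ell K F (W - X)) :
    ∃ v ∈ T, ell K F (W - (X + Finsupp.single v 1)) + 1 = ell K F (W - X) := by
  classical
  obtain ⟨f, hf, hf0⟩ := exists_ne_zero_of_ell_pos h
  obtain ⟨v, hv, hfv⟩ : ∃ v ∈ T, f ∉ riemannRochSpace (W - (X + Finsupp.single v 1)) := by
    by_contra! hall
    have hmem : f ∈ riemannRochSpace (W - ∑ v ∈ T, Finsupp.single v 1) := by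
      refine mem_riemannRochSpace_iff.mpr fun w => Or.inr ?_
      have hXw : 0 ≤ X w := hX w
      rw [Finsupp.sub_apply, Finsupp.finsetSum_apply]
      simp only [Finsupp.single_apply, Finset.sum_ite_eq']
      split_ifs with hw
      · have := (mem_riemannRochSpace_iff.mp (hall w hw) w).resolve_left hf0
        simp only [Finsupp.sub_apply, Finsupp.add_apply, Finsupp.single_eq_same] at this
        omega
      · have := (mem_riemannRochSpace_iff.mp hf w).resolve_left hf0
        simp only [Finsupp.sub_apply] at this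
        omega
    obtain ⟨g, hg, hg0⟩ : ∃ g ∈ riemannRochSpace (W - ∑ v ∈ T, Finsupp.single v 1), g ≠ 0 :=
      ⟨f, hmem, hf0⟩
    exact hg0 ((Submodule.eq_bot_iff _).mp (Submodule.finrank_eq_zero.mp hT) g hg)
  refine ⟨v, hv, ?_⟩
  have hle : W - (X + Finsupp.single v 1) ≤ W - X := sub_le_sub_left (le_add_single X v) W
  have hlt : ell K F (W - (X + Finsupp.single v 1)) < ell K F (W - X) :=
    Submodule.finrank_lt_finrank_of_lt
      (lt_of_le_of_ne (FFBasic.riemannRochSpace_mono hle) fun e => hfv (e ▸ hf))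
  have := degree_sub_ell_mono hle
  simp only [map_sub, map_add, Divisor.degree_single, deg_eq_one] at this
  omega

omit [CharZero K] in
theorem exists_complement {W : Divisor K F} {T : Finset (Place K F)}
    (hT : ell K F (W - ∑ v ∈ T, Finsupp.single v 1) = 0) :
    ∀ (k : ℕ) (X : Divisor K F), 0 ≤ X → ell K F (W - X) = k →
      ∃ R : Fin k → T, ell K F (W - (X + ∑ i, Finsupp.single (R i : Place K F) 1)) = 0 := by
  intro k
  induction k with
  | zero => exact fun X _ h => ⟨Fin.elim0, by simpa using h⟩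
  | succ k ih =>
    intro X hX h
    obtain ⟨v, hv, hstep⟩ := exists_impose_condition hX hT (by omega)
    obtain ⟨R, hR⟩ := ih (X + Finsupp.single v 1)
      (add_nonneg hX (single_nonneg v zero_le_one)) (by omega)
    refine ⟨Fin.cons ⟨v, hv⟩ R, ?_⟩
    rw [Fin.sum_univ_succ]
    simpa [add_assoc] using hR

end Generic

theorem sum_sum_symm {n : ℕ} (f : Fin n → Fin n → ℝ) (hf : ∀ i j, f i j = f j i) :
    ∑ i, ∑ j, f i j = ∑ i, f i i
      + 2 * ∑ i : Fin n, ∑ j : Fin i.val, f (Fin.castLE i.isLt.le j) i := by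
  induction n with
  | zero => simp
  | succ n ih =>
    simp only [Fin.sum_univ_castSucc, Finset.sum_add_distrib]
    rw [ih (fun i j => f i.castSucc j.castSucc) fun i j => hf _ _]
    have h1 : ∑ i : Fin n, f i.castSucc (Fin.last n) = ∑ i : Fin n, f (Fin.last n) i.castSucc :=
      Finset.sum_congr rfl fun i _ => hf _ _
    change _ = _ + 2 * ((∑ i : Fin n, ∑ j : Fin i.val,
        f (Fin.castLE i.isLt.le j).castSucc i.castSucc) + ∑ j : Fin n, f j.castSucc (Fin.last n))
    rw [h1]
    ring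

variable {F : Type*} [Field F] [Algebra Qb F] [IsFunctionField Qb F]

theorem pairing_sub_smul_self {E : Divisor Qb F} {n : ℕ} (P : Fin n → Place Qb F)
    (O : Place Qb F) :
    pairing E ((∑ i, Finsupp.single (P i) 1) - Finsupp.single O (n : ℤ))
        ((∑ i, Finsupp.single (P i) 1) - Finsupp.single O (n : ℤ))
      = ∑ i, lineHgt E (P i) (P i)
        + 2 * (∑ i : Fin n, ∑ j : Fin i.val, lineHgt E (P (Fin.castLE i.isLt.le j)) (P i))
        - 2 * n * ∑ i, lineHgt E (P i) O + (n : ℝ) ^ 2 * lineHgt E O O := by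
  rw [← sum_sum_symm (fun i j => lineHgt E (P i) (P j)) fun i j => lineHgt_comm E _ _]
  simp only [map_sub, map_sum, AddMonoidHom.sub_apply, AddMonoidHom.finsetSum_apply,
    pairing_single_single, Finset.sum_sub_distrib, Int.cast_one, one_mul, Int.cast_natCast]
  simp only [lineHgt_comm E O, ← Finset.mul_sum]
  rw [Finset.sum_comm]
  ring

theorem exists_positivity_case {E : Divisor Qb F}
    (hE : 4 * (genusFF Qb F : ℤ) + 2 ≤ Divisor.degree E) (O : Place Qb F)
    {ω : Ω[F⁄Qb]} (hω : ω ≠ 0) {n k : ℕ} (hnk : n + k = genusFF Qb F)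
    (R : Fin k → Place Qb F) :
    ∃ (N : ℕ) (C : ℝ), 0 < N ∧ ∀ P : Fin n → Place Qb F, (∀ i, P i ≠ O) →
      ell Qb F (canonicalDivisorOf hω
          - ((∑ i, Finsupp.single (P i) 1) + ∑ i, Finsupp.single (R i) 1)) = 0 →
      ∑ i, hD E (P i) ≤ N * pairing E ((∑ i, Finsupp.single (P i) 1) - Finsupp.single O (n : ℤ))
        ((∑ i, Finsupp.single (P i) 1) - Finsupp.single O (n : ℤ)) + C := by
  classical
  set W := canonicalDivisorOf hω with hW
  set M : Divisor Qb F := W - ∑ i, Finsupp.single (R i) 1 with hMdef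
  set d : ℕ := 4 * genusFF Qb F + 1 with hd
  have hdW : Divisor.degree W = 2 * (genusFF Qb F : ℤ) - 2 := degree_canonicalDivisorOf hω
  have hdR : Divisor.degree (∑ i, Finsupp.single (R i) 1 : Divisor Qb F) = k := by
    simp [map_sum, deg_eq_one]
  have hdM : Divisor.degree M = 2 * (genusFF Qb F : ℤ) - 2 - k := by
    rw [hMdef, map_sub, hdW, hdR]
  have hdE : (d : ℤ) ≤ d * Divisor.degree E := le_mul_of_one_le_right (by omega) (by omega)
  have hM : 2 * (genusFF Qb F : ℤ) ≤ Divisor.degree (d • E - M) := by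
    rw [map_sub, map_nsmul, nsmul_eq_mul, hdM]; omega
  have hEO : 2 * (genusFF Qb F : ℤ) ≤ Divisor.degree (E - Finsupp.single O 1) := by
    simp only [map_sub, Divisor.degree_single, deg_eq_one, Nat.cast_one, mul_one]; omega
  obtain ⟨C1, h1⟩ := exists_minor_height_bound hE (show 1 ≤ d by omega) M hM
    (show n ≤ d + 1 by omega)
  obtain ⟨C2, h2⟩ := exists_lineHgt_le hE O
  obtain ⟨hs, C3, hs_class, h3⟩ := exists_le_lineHgt_self hE hω
  set Φ : Place Qb F → ℝ := fun P => hs P - (2 * n : ℕ) * hD (E - Finsupp.single O 1) P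
    + 2 * hD (d • E - M) P - (2 * (d + 1 - n) : ℕ) * hD E P with hΦ
  set Y : Divisor Qb F := W + (2 * n) • Finsupp.single O 1 - 2 • M with hY
  have hYdeg : 0 < Divisor.degree Y := by
    simp only [hY, map_add, map_sub, map_nsmul, hdW, hdM, Divisor.degree_single, deg_eq_one,
      nsmul_eq_mul]
    push_cast
    omega
  have hclass : hdiv Y = bddClass Φ := by
    have e : Φ = hs - (2 * n) • hD (E - Finsupp.single O 1) + 2 • hD (d • E - M)
        - (2 * (d + 1 - n)) • hD E := by
      funext P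
      simp [hΦ]
    rw [e]
    simp only [map_sub, map_add, map_nsmul]
    rw [← hs_class, ← hdiv_eq hEO, ← hdiv_eq hM,
      ← hdiv_eq (show 2 * (genusFF Qb F : ℤ) ≤ Divisor.degree E by omega)]
    simp only [← map_nsmul, ← map_sub, ← map_add]
    congr 1
    refine Finsupp.ext fun Q => ?_
    simp only [hY, hW, Finsupp.add_apply, Finsupp.sub_apply, Finsupp.smul_apply, nsmul_eq_mul]
    rw [Nat.cast_mul 2 (d + 1 - n), Nat.cast_sub (show n ≤ d + 1 by omega)]
    push_cast
    ring
  obtain ⟨N, C4, hN, h4⟩ := exists_le_of_degree_pos hYdeg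
    (show 2 * (genusFF Qb F : ℤ) ≤ Divisor.degree E by omega) hclass
  refine ⟨N, N * (n * C3 + 2 * C1 + 2 * n * n * C2) + n * C4, hN,
    fun P hPO hell => ?_⟩
  set D : Divisor Qb F := ∑ i, Finsupp.single (P i) 1 with hD'
  have hMD : ell Qb F (M - D) = 0 := by
    rw [hMdef, sub_sub, add_comm]; exact hell
  have hD0 : (0 : Divisor Qb F) ≤ D := Finset.sum_nonneg fun i _ => single_nonneg _ zero_le_one
  have hdD : Divisor.degree D = n := by simp [hD', map_sum, deg_eq_one]
  have hellM : ell Qb F M = n := by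
    have hlow := riemann_roch_canonicalDivisorOf hω (∑ i, Finsupp.single (R i) 1 : Divisor Qb F)
    have hpos : 0 < ell Qb F (∑ i, Finsupp.single (R i) 1 : Divisor Qb F) :=
      ell_pos_iff.mpr ⟨1, one_ne_zero, fun Q => by
        have : 0 ≤ (∑ i, Finsupp.single (R i) (1 : ℤ) : Divisor Qb F) :=
          Finset.sum_nonneg fun i _ => single_nonneg _ zero_le_one
        simpa [divOf_apply] using this Q⟩
    rw [← hW, ← hMdef, hdR] at hlow
    have hup := degree_sub_ell_mono (sub_le_self M hD0 : M - D ≤ M)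
    rw [map_sub, hdD, hMD] at hup
    omega
  have hS : ∃ S, minor M P S ≠ 0 := exists_minor_ne_zero (by rw [← hD', hMD, hellM, zero_add])
  have hm := h1 P hS
  rw [pairing_sub_smul_self P O]
  have hOO := lineHgt_nonneg E O O
  have hsum : ∑ i, Φ (P i) ≤ (∑ i, lineHgt E (P i) (P i)
        + 2 * (∑ i : Fin n, ∑ j : Fin i.val, lineHgt E (P (Fin.castLE i.isLt.le j)) (P i))
        - 2 * n * ∑ i, lineHgt E (P i) O + (n : ℝ) ^ 2 * lineHgt E O O)
      + (n * C3 + 2 * C1 + 2 * n * n * C2) := by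
    have ha : ∑ i, hs (P i) ≤ ∑ i, lineHgt E (P i) (P i) + n * C3 := by
      refine (Finset.sum_le_sum fun i _ => h3 (P i)).trans_eq ?_
      simp [Finset.sum_add_distrib]
    have hb : ∑ i, lineHgt E (P i) O ≤ ∑ i, hD (E - Finsupp.single O 1) (P i) + n * C2 := by
      refine (Finset.sum_le_sum fun i _ => h2 (P i) (hPO i)).trans_eq ?_
      simp [Finset.sum_add_distrib]
    have hb' := mul_le_mul_of_nonneg_left hb (show (0 : ℝ) ≤ 2 * n by positivity)
    have hc : 0 ≤ (n : ℝ) ^ 2 * lineHgt E O O := mul_nonneg (sq_nonneg _) hOO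
    simp only [hΦ, Finset.sum_add_distrib, Finset.sum_sub_distrib, ← Finset.mul_sum]
    push_cast [Nat.cast_sub (show n ≤ d + 1 by omega)]
    linarith
  have hbig : ∑ i, hD E (P i) ≤ N * ∑ i, Φ (P i) + n * C4 := by
    refine (Finset.sum_le_sum fun i _ => h4 (P i)).trans_eq ?_
    simp [Finset.sum_add_distrib, Finset.mul_sum]
  have := mul_le_mul_of_nonneg_left hsum (Nat.cast_nonneg (α := ℝ) N)
  linarith

/-- **Positivity** of the pairing on reduced divisors. -/
theorem exists_pairing_ge {E : Divisor Qb F}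
    (hE : 4 * (genusFF Qb F : ℤ) + 2 ≤ Divisor.degree E) (O : Place Qb F) :
    ∃ (N : ℕ) (C : ℝ), 0 < N ∧ ∀ n, n ≤ genusFF Qb F → ∀ P : Fin n → Place Qb F,
      (∀ i, P i ≠ O) → ell Qb F (∑ i, Finsupp.single (P i) 1) = 1 →
      ∑ i, hD E (P i) ≤ N * pairing E ((∑ i, Finsupp.single (P i) 1) - Finsupp.single O (n : ℤ))
        ((∑ i, Finsupp.single (P i) 1) - Finsupp.single O (n : ℤ)) + C := by
  classical
  obtain ⟨ω, hω⟩ := exists_ne (0 : Ω[F⁄Qb])
  obtain ⟨T, -, -, hh1, -⟩ := exists_nonspecial_effective (K := Qb) (F := F) ∅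
  have hT : ell Qb F (canonicalDivisorOf hω - ∑ v ∈ T, Finsupp.single v 1) = 0 := by
    rw [← h1_eq_ell_canonicalDivisorOf_sub hω]; exact hh1
  let ι := Σ n : Fin (genusFF Qb F + 1), Fin (genusFF Qb F - n.val) → T
  choose N C hN hcase using fun c : ι => exists_positivity_case hE O hω
    (show c.1.val + (genusFF Qb F - c.1.val) = genusFF Qb F by omega) (fun i => (c.2 i).1)
  refine ⟨∑ c, N c + 1, ∑ c, ((∑ c, (N c : ℝ)) + 2) * |C c|, by omega,
    fun n hn P hPO hell => ?_⟩
  have hdeg : Divisor.degree (∑ i, Finsupp.single (P i) 1 : Divisor Qb F) = n := by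
    simp [map_sum, deg_eq_one]
  have hRR := riemann_roch_canonicalDivisorOf hω (∑ i, Finsupp.single (P i) 1 : Divisor Qb F)
  obtain ⟨R, hR⟩ := exists_complement hT (genusFF Qb F - n)
    (∑ i, Finsupp.single (P i) 1 : Divisor Qb F)
    (Finset.sum_nonneg fun i _ => single_nonneg (P i) zero_le_one) (by omega)
  set c₀ : ι := ⟨⟨n, by omega⟩, R⟩
  have h := hcase c₀ P hPO hR
  have h0 : 0 ≤ ∑ i, hD E (P i) := Finset.sum_nonneg fun i _ => hD_nonneg E _
  set q := pairing E ((∑ i, Finsupp.single (P i) 1) - Finsupp.single O (n : ℤ))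
    ((∑ i, Finsupp.single (P i) 1) - Finsupp.single O (n : ℤ))
  set A := |C c₀| with hA
  have hA0 : 0 ≤ A := abs_nonneg _
  have hCA : C c₀ ≤ A := le_abs_self _
  have hN1 : (1 : ℝ) ≤ N c₀ := Nat.one_le_cast.mpr (hN c₀)
  have hqlow : -A ≤ q := by
    by_contra hlt
    push Not at hlt
    nlinarith
  have hNle : (N c₀ : ℝ) ≤ ∑ c, (N c : ℝ) :=
    Finset.single_le_sum (f := fun c => (N c : ℝ)) (fun c _ => Nat.cast_nonneg _)
      (Finset.mem_univ c₀)
  have hsum : ((∑ c, (N c : ℝ)) + 2) * A ≤ ∑ c, ((∑ c, (N c : ℝ)) + 2) * |C c| :=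
    Finset.single_le_sum (f := fun c => ((∑ c, (N c : ℝ)) + 2) * |C c|)
      (fun c _ => mul_nonneg (by linarith) (abs_nonneg _)) (Finset.mem_univ c₀)
  have hS : 0 ≤ (∑ c, (N c : ℝ)) + 1 - N c₀ := by linarith
  have key := mul_le_mul_of_nonneg_left hqlow hS
  push_cast
  nlinarith

end FLTAgent.MordellWeil
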