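import Mathlib.NumberTheory.NumberField.ClassNumber
import Mathlib.NumberTheory.NumberField.Units.DirichletTheorem
import Mathlib.GroupTheory.FiniteAbelian.Basic
import Mathlib.RingTheory.DedekindDomain.AdicValuation

/-!
# Square classes of number fields

`exists_finite_even_outside`: up to squares only finitely many elements of a number field have
even valuation outside a given finite set of primes.
-/

set_option autoImplicit false

noncomputable section

open NumberField IsDedekindDomain WithZero UniqueFactorizationMonoid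
open scoped nonZeroDivisors

namespace FLTAgent.MordellWeil

variable {L : Type*} [Field L] [NumberField L]

theorem exists_finite_units_mod_squares :
    ∃ U : Set (𝓞 L)ˣ, U.Finite ∧ ∀ u : (𝓞 L)ˣ, ∃ r ∈ U, ∃ w : (𝓞 L)ˣ, u = r * w ^ 2 := by
  classical
  set f : Additive (𝓞 L)ˣ →ₗ[ℤ] Additive (𝓞 L)ˣ :=
    LinearMap.lsmul ℤ (Additive (𝓞 L)ˣ) 2 with hf
  have htor : Module.IsTorsion ℤ (Additive (𝓞 L)ˣ ⧸ LinearMap.range f) := by
    intro x
    refine ⟨⟨2, mem_nonZeroDivisors_of_ne_zero two_ne_zero⟩, ?_⟩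
    obtain ⟨x, rfl⟩ := Submodule.Quotient.mk_surjective _ x
    change (2 : ℤ) • Submodule.Quotient.mk (p := LinearMap.range f) x = 0
    rw [← Submodule.Quotient.mk_smul, Submodule.Quotient.mk_eq_zero]
    exact ⟨x, rfl⟩
  have := Module.finite_of_fg_torsion _ htor
  refine ⟨Set.range fun q : Additive (𝓞 L)ˣ ⧸ LinearMap.range f => Additive.toMul q.out,
    Set.finite_range _, fun u => ?_⟩
  refine ⟨_, ⟨Submodule.Quotient.mk (Additive.ofMul u), rfl⟩, ?_⟩
  set q := Submodule.Quotient.mk (p := LinearMap.range f) (Additive.ofMul u)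
  have hmk : Submodule.Quotient.mk q.out = q := Quotient.out_eq q
  obtain ⟨w, hw⟩ := (Submodule.Quotient.eq (LinearMap.range f)).mp hmk.symm
  refine ⟨Additive.toMul w, ?_⟩
  have hw' : (2 : ℤ) • w = Additive.ofMul u - q.out := hw
  have h2 : Additive.ofMul u = q.out + (2 : ℤ) • w := by rw [hw']; abel
  have h3 := congrArg Additive.toMul h2
  simpa using h3

theorem neg_log_valuation_eq_count (v : HeightOneSpectrum (𝓞 L)) {a : 𝓞 L} (ha : a ≠ 0) :
    -log (v.valuation L (algebraMap (𝓞 L) L a))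
      = ((normalizedFactors (Ideal.span {a})).count v.asIdeal : ℤ) := by
  rw [HeightOneSpectrum.valuation_of_algebraMap, v.intValuation_if_neg ha, log_exp, neg_neg,
    Ideal.count_associates_factors_eq (by simpa using ha) v.isPrime v.ne_bot]

theorem exists_sq_eq_span {a : 𝓞 L} (ha : a ≠ 0)
    (hev : ∀ v : HeightOneSpectrum (𝓞 L), Even (log (v.valuation L (algebraMap (𝓞 L) L a)))) :
    ∃ J : Ideal (𝓞 L), J ≠ 0 ∧ J ^ 2 = Ideal.span {a} := by
  classical
  set s := normalizedFactors (Ideal.span {a})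
  refine ⟨∏ p ∈ s.toFinset, p ^ (s.count p / 2), ?_, ?_⟩
  · exact Finset.prod_ne_zero_iff.mpr fun p hp =>
      pow_ne_zero _ (prime_of_normalized_factor p (Multiset.mem_toFinset.mp hp)).ne_zero
  · rw [← Finset.prod_pow]
    have hspan : Ideal.span {a} ≠ 0 := by simpa using ha
    have h : s.prod = Ideal.span {a} := associated_iff_eq.mp (prod_normalizedFactors hspan)
    rw [← h, Finset.prod_multiset_count]
    refine Finset.prod_congr rfl fun p hp => ?_
    rw [← pow_mul]
    congr 1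
    have hp' := prime_of_normalized_factor p (Multiset.mem_toFinset.mp hp)
    have := hev ⟨p, Ideal.isPrime_of_prime hp', hp'.ne_zero⟩
    rw [← even_neg, neg_log_valuation_eq_count _ ha, Int.even_coe_nat] at this
    exact Nat.div_mul_cancel this.two_dvd

theorem exists_finite_even_everywhere :
    ∃ R : Set L, R.Finite ∧ ∀ α : L, α ≠ 0 →
      (∀ v : HeightOneSpectrum (𝓞 L), Even (log (v.valuation L α))) →
      ∃ r ∈ R, ∃ c : L, c ≠ 0 ∧ α = r * c ^ 2 := by
  classical
  obtain ⟨U, hU, hUspec⟩ := exists_finite_units_mod_squares (L := L)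
  let Good : ClassGroup (𝓞 L) → L → Prop := fun cl α => ∃ (a : 𝓞 L) (J : (Ideal (𝓞 L))⁰),
    a ≠ 0 ∧ (J : Ideal (𝓞 L)) ^ 2 = Ideal.span {a} ∧ ClassGroup.mk0 J = cl ∧
      α = algebraMap (𝓞 L) L a
  let rep : ClassGroup (𝓞 L) → L := fun cl => if h : ∃ α, Good cl α then h.choose else 1
  refine ⟨Set.image2 (fun cl u => rep cl * algebraMap (𝓞 L) L (u : (𝓞 L)ˣ)) Set.univ U,
    Set.Finite.image2 _ Set.finite_univ hU, fun α hα hev => ?_⟩
  obtain ⟨x, y, hy, hxy⟩ := IsFractionRing.div_surjective (A := 𝓞 L) α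
  have hy0 : y ≠ 0 := nonZeroDivisors.ne_zero hy
  have hyL : algebraMap (𝓞 L) L y ≠ 0 := by simpa using hy0
  set a := x * y with ha_def
  have haα : algebraMap (𝓞 L) L a = α * algebraMap (𝓞 L) L y ^ 2 := by
    rw [ha_def, map_mul, ← hxy]; field_simp
  have ha : a ≠ 0 := fun h => by
    rw [h, map_zero] at haα
    exact mul_ne_zero hα (pow_ne_zero _ hyL) haα.symm
  have hevA : ∀ v : HeightOneSpectrum (𝓞 L), Even (log (v.valuation L (algebraMap (𝓞 L) L a))) := by
    intro v
    rw [haα, map_mul, map_pow, log_mul ((Valuation.ne_zero_iff _).mpr hα)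
      (pow_ne_zero _ ((Valuation.ne_zero_iff _).mpr hyL)), log_pow]
    exact (hev v).add ⟨_, two_nsmul _⟩
  obtain ⟨J, hJ0, hJ⟩ := exists_sq_eq_span ha hevA
  have hJmem : J ∈ (Ideal (𝓞 L))⁰ := mem_nonZeroDivisors_of_ne_zero hJ0
  set cl := ClassGroup.mk0 ⟨J, hJmem⟩
  have hex : ∃ β, Good cl β := ⟨_, a, ⟨J, hJmem⟩, ha, hJ, rfl, rfl⟩
  obtain ⟨b, J', hb, hJ', hcl, hrep⟩ := hex.choose_spec
  have hrep' : rep cl = algebraMap (𝓞 L) L b := by
    simp only [rep, dif_pos hex]; exact hrep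
  obtain ⟨p, q, hp, hq, hpq⟩ := ClassGroup.mk0_eq_mk0_iff.mp hcl
  have h2 : Ideal.span {p ^ 2 * b} = Ideal.span {q ^ 2 * a} := by
    have := congrArg (· ^ 2) hpq
    simpa [mul_pow, hJ', hJ, Ideal.span_singleton_pow, Ideal.span_singleton_mul_span_singleton]
      using this
  obtain ⟨u, hu⟩ := Ideal.span_singleton_eq_span_singleton.mp h2
  obtain ⟨r, hr, w, rfl⟩ := hUspec u
  refine ⟨_, ⟨cl, Set.mem_univ _, r, hr, rfl⟩,
    algebraMap (𝓞 L) L (p * (w : 𝓞 L)) / algebraMap (𝓞 L) L (q * y),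
    div_ne_zero ?_ ?_, ?_⟩
  · simpa using mul_ne_zero hp w.ne_zero
  · simpa using mul_ne_zero hq hy0
  · simp only [hrep']
    have hu' := congrArg (algebraMap (𝓞 L) L) hu
    simp only [map_mul, map_pow, Units.val_mul, Units.val_pow_eq_pow_val, haα] at hu'
    have hqL : algebraMap (𝓞 L) L q ≠ 0 := by simpa using hq
    simp only [map_mul]
    field_simp
    linear_combination -hu'

/-- Square classes unramified outside a finite set form a finite set. -/
theorem exists_finite_even_outside (S : Set (HeightOneSpectrum (𝓞 L))) (hS : S.Finite) :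
    ∃ R : Set L, R.Finite ∧ ∀ α : L, α ≠ 0 →
      (∀ v ∉ S, Even (log (v.valuation L α))) →
      ∃ r ∈ R, ∃ c : L, c ≠ 0 ∧ α = r * c ^ 2 := by
  classical
  have := hS.to_subtype
  obtain ⟨R1, hR1, hspec⟩ := exists_finite_even_everywhere (L := L)
  let Good : (S → Bool) → L → Prop := fun p α => α ≠ 0 ∧
    (∀ v : S, p v = decide (Even (log (v.1.valuation L α)))) ∧
    ∀ v ∉ S, Even (log (v.valuation L α))
  let rep : (S → Bool) → L := fun p => if h : ∃ α, Good p α then h.choose else 1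
  refine ⟨Set.image2 (fun p r => r / rep p) Set.univ R1,
    Set.Finite.image2 _ Set.finite_univ hR1, fun α hα hev => ?_⟩
  set p : S → Bool := fun v => decide (Even (log (v.1.valuation L α)))
  have hex : ∃ β, Good p β := ⟨α, hα, fun v => rfl, hev⟩
  obtain ⟨hr0, hrS, hrout⟩ := hex.choose_spec
  have hrep : rep p = hex.choose := by simp only [rep, dif_pos hex]
  obtain ⟨r, hr, c, hc, hrc⟩ := hspec (α * rep p) (mul_ne_zero hα (hrep ▸ hr0)) fun v => by
    rw [hrep, map_mul, log_mul ((Valuation.ne_zero_iff _).mpr hα)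
      ((Valuation.ne_zero_iff _).mpr hr0), Int.even_add]
    by_cases hv : v ∈ S
    · have := hrS ⟨v, hv⟩
      simpa [p] using this
    · simp [hev v hv, hrout v hv]
  exact ⟨_, ⟨p, Set.mem_univ _, r, hr, rfl⟩, c, hc, by
    rw [div_mul_eq_mul_div, ← hrc, mul_div_cancel_right₀ _ (hrep ▸ hr0)]⟩

end FLTAgent.MordellWeil
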