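import Fermat.Agent.MordellWeil.Finiteness
import Fermat.Agent.MordellWeil.Incidence
import Fermat.Agent.MordellWeil.InertiaLift
import Fermat.Agent.MordellWeil.SquareClasses
import Fermat.Agent.MordellWeil.Fixed

/-!
# Weak Mordell–Weil

`exists_finite_mod_two`: classes fixed by a number field `L` are covered by finitely many
translates of twice the fixed classes, by the finiteness of square classes.
-/

set_option autoImplicit false

noncomputable section

open AlgebraicCurve FLTAgent.FFRiemannRoch FLTAgent.FFBasic NumberField IsDedekindDomain WithZero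
  FLTAgent.Density FLTAgent.ExtVanishing

namespace FLTAgent.MordellWeil

variable {F : Type*} [Field F] [Algebra Qb F] [IsFunctionField Qb F]
  (ρ : (Qb ≃ₐ[ℚ] Qb) →* SemilinearAut Qb F)

omit [IsFunctionField Qb F] in
theorem smul_nsmul_class (g : SemilinearAut Qb F) (n : ℕ) (x : Pic0 Qb F) :
    g • (n • x) = n • (g • x) :=
  map_nsmul (DistribSMul.toAddMonoidHom (Pic0 Qb F) g) n x

/-- The classes fixed by the automorphisms fixing `L`. -/
def fixedClasses (L : IntermediateField ℚ Qb) : AddSubgroup (Pic0 Qb F) where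
  carrier := {x | ∀ σ ∈ L.fixingSubgroup, ρ σ • x = x}
  zero_mem' σ _ := smul_zero (A := Pic0 Qb F) (ρ σ)
  add_mem' ha hb σ hσ := by rw [smul_add, ha σ hσ, hb σ hσ]
  neg_mem' ha σ hσ := by rw [smul_neg, ha σ hσ]

/-- Outside a finite set, congruent conjugates of a class differing by two-torsion are equal. -/
theorem exists_finset_congr_eq (hρ : ∀ σ a, SemilinearAut.baseAut (ρ σ) a = σ a)
    (L : IntermediateField ℚ Qb) {E : Divisor Qb F}
    (hE : 4 * (genusFF Qb F : ℤ) + 2 ≤ Divisor.degree E) (O : Place Qb F)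
    (hφ : ∀ σ ∈ L.fixingSubgroup, ∀ j, ρ σ • secBasis E j = secBasis E j)
    (hgE : ∀ σ ∈ L.fixingSubgroup, ρ σ • E = E) (hgO : ∀ σ ∈ L.fixingSubgroup, ρ σ • O = O)
    (hfin : {x : Pic0 Qb F | 2 • x = 0}.Finite) :
    ∃ T : Finset Qb, ∀ A : ValuationSubring Qb, (∀ t ∈ T, t ∈ A) → ∀ Q : Pic0 Qb F,
      ∃ S : Finset Qb, (∀ y ∈ S, y ∈ A) ∧ ∀ σ ∈ L.fixingSubgroup,
        (∀ y ∈ S, σ y ∈ A ∧ σ y - y ∈ A.nonunits) →
        2 • (ρ σ • Q - Q) = 0 → ρ σ • Q = Q := by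
  classical
  set n := genusFF Qb F with hndef
  have hEg : 2 * (n : ℤ) ≤ Divisor.degree E := by omega
  have hrepr : ∀ x : Pic0 Qb F, ∃ D, Represents O x n D := fun x => by
    obtain ⟨⟨X, hX⟩, rfl⟩ := Pic0.mk_surjective x
    obtain ⟨D, hD, hdeg, hprin⟩ := exists_effective_sub_single O (Divisor.mem_degZero.mp hX)
    exact ⟨D, hD, hdeg, degree_sub_single hdeg, mk_eq_mk_of_sub_mem (by simpa using neg_mem hprin)⟩
  choose D hD hdeg hcl hx using hrepr
  choose P hP using fun x => exists_places_eq n (hD x) (hdeg x)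
  have hO : (∑ _i : Fin n, Finsupp.single O (1 : ℤ)) = Finsupp.single O (n : ℤ) := by
    rw [← Finsupp.single_finsetSum]
    simp
  have hne : ∀ t : Pic0 Qb F, t ≠ 0 → (∑ i, Finsupp.single (P t i) (1 : ℤ))
      - (∑ _i : Fin n, Finsupp.single O (1 : ℤ)) ∉ Divisor.principal (K := Qb) (F := F) := by
    intro t ht hmem
    refine ht ?_
    rw [← hx t, ← Pic0.mk_zero (K := Qb) (F := F)]
    refine mk_eq_mk_of_sub_mem ?_
    rw [← hP, hO] at hmem
    simpa using hmem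
  choose T hT using fun (t : Pic0 Qb F) (ht : t ≠ 0) =>
    exists_finset_no_congruence hE le_rfl (hne t ht)
  refine ⟨hfin.toFinset.biUnion fun t => if ht : t = 0 then ∅ else T t ht, fun A hA Q => ?_⟩
  choose δ hδ0 hδA iδ hiδ using fun i : Fin n =>
    exists_normalise_val A (evVec_ne_zero (Z := E) hEg (P Q i))
  refine ⟨Finset.univ.image fun t : Fin n × Fin (ell Qb F E) => δ t.1 * evVec E (P Q t.1) t.2,
    fun y hy => ?_, fun σ hσ hcong htwo => ?_⟩
  · obtain ⟨⟨i, j⟩, -, rfl⟩ := Finset.mem_image.mp hy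
    exact hδA i j
  by_contra hne'
  set t := ρ σ • Q - Q with ht
  have ht0 : t ≠ 0 := sub_ne_zero.mpr hne'
  choose c hc0 hc using fun i => exists_evVec_smul (ρ σ) hE (hφ σ hσ) (hgE σ hσ) (P Q i)
  refine hT t ht0 A (fun s hs => hA s (Finset.mem_biUnion.mpr
      ⟨t, hfin.mem_toFinset.mpr htwo, by rwa [dif_neg ht0]⟩))
    (P Q) (fun i => ρ σ • P Q i) (fun i j => δ i * evVec E (P Q i) j)
    (fun i j => σ (δ i * evVec E (P Q i) j)) δ (fun i => σ (δ i) / c i)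
    (fun i => rfl) (fun i => funext fun j => ?_) (fun i j => hδA i j) (fun i j => ?_)
    (fun i => ⟨iδ i, hiδ i⟩) (fun i => ⟨iδ i, by rw [hiδ i, map_one]⟩) (fun i j => ?_) ?_
  · rw [hc i]
    simp only [Pi.smul_apply, smul_eq_mul, hρ, map_mul]
    field_simp [hc0 i]
  · exact (hcong _ (Finset.mem_image.mpr ⟨(i, j), Finset.mem_univ _, rfl⟩)).1
  · exact (hcong _ (Finset.mem_image.mpr ⟨(i, j), Finset.mem_univ _, rfl⟩)).2
  · have hmk : Pic0.mk (SemilinearAut.degZeroSMulHom (ρ σ) ⟨_, hcl Q⟩)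
        = Pic0.mk (⟨_, hcl Q⟩ + ⟨_, hcl t⟩) := by
      rw [← SemilinearAut.pic0_smul_mk, Pic0.mk_add, hx, hx, ht]
      abel
    have h2 := neg_mem (sub_mem_of_mk_eq hmk)
    have hsum : (∑ i, Finsupp.single (ρ σ • P Q i) (1 : ℤ)) = ρ σ • D Q := by
      rw [hP Q, Finset.smul_sum]; simp
    rw [← hP, ← hP, hsum, hO]
    convert h2 using 1
    simp [smul_sub, hgO σ hσ]
    abel

/-- A quadratic subgroup has a Kummer generator. -/
theorem exists_sqrt_of_index_two (L : IntermediateField ℚ Qb) (K0 : Subgroup (Qb ≃ₐ[ℚ] Qb))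
    (hK0 : K0 ≤ L.fixingSubgroup) (hopen : IsOpen (K0 : Set (Qb ≃ₐ[ℚ] Qb)))
    (hquad : ∀ a ∈ L.fixingSubgroup, ∀ b ∈ L.fixingSubgroup, a ∉ K0 → b ∉ K0 → a * b ∈ K0)
    {τ : Qb ≃ₐ[ℚ] Qb} (hτ : τ ∈ L.fixingSubgroup) (hτ0 : τ ∉ K0) :
    ∃ (α : L) (β : Qb), α ≠ 0 ∧ β ^ 2 = (α : Qb) ∧ τ β ≠ β ∧ ∀ k ∈ K0, k β = β := by
  have hcl := InfiniteGalois.fixingSubgroup_fixedField
    (⟨K0, Subgroup.isClosed_of_isOpen _ hopen⟩ : ClosedSubgroup (Qb ≃ₐ[ℚ] Qb))
  obtain ⟨x, hx, hτx⟩ : ∃ x : Qb, (∀ k ∈ K0, k x = x) ∧ τ x ≠ x := by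
    by_contra! h
    refine hτ0 ?_
    change τ ∈ (⟨K0, Subgroup.isClosed_of_isOpen _ hopen⟩ : ClosedSubgroup (Qb ≃ₐ[ℚ] Qb)).1
    rw [← hcl, IntermediateField.mem_fixingSubgroup_iff]
    exact fun y hy => h y fun k hk => hy ⟨k, hk⟩
  have hnorm : ∀ k ∈ K0, τ⁻¹ * k * τ ∈ K0 := fun k hk => by
    have h1 : τ⁻¹ ∉ K0 := fun h => hτ0 (by simpa using inv_mem h)
    have h2 : k * τ ∉ K0 := fun h => hτ0 (by simpa using mul_mem (inv_mem hk) h)
    simpa [mul_assoc] using hquad _ (inv_mem hτ) _ (mul_mem (hK0 hk) hτ) h1 h2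
  have hτx' : ∀ k ∈ K0, k (τ x) = τ x := fun k hk => by
    have := congrArg τ (hx _ (hnorm k hk))
    simpa [AlgEquiv.mul_apply] using this
  have hττ : τ (τ x) = x := by
    simpa [AlgEquiv.mul_apply] using hx _ (hquad _ hτ _ hτ hτ0 hτ0)
  set β := x - τ x with hβ
  have hK : ∀ k ∈ K0, k β = β := fun k hk => by rw [hβ, map_sub, hx k hk, hτx' k hk]
  have hτβ : τ β = -β := by rw [hβ, map_sub, hττ]; ring
  have hβ0 : β ≠ 0 := sub_ne_zero.mpr (Ne.symm hτx)
  have hfix : ∀ σ ∈ L.fixingSubgroup, σ (β ^ 2) = β ^ 2 := fun σ hσ => by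
    rw [map_pow]
    by_cases hs : σ ∈ K0
    · rw [hK σ hs]
    · have h1 : τ⁻¹ ∉ K0 := fun h => hτ0 (by simpa using inv_mem h)
      have h2 := hK _ (hquad _ (inv_mem hτ) _ hσ h1 hs)
      have h3 : σ β = -β := by
        have := congrArg τ h2
        rw [hτβ] at this
        simpa [AlgEquiv.mul_apply] using this
      rw [h3, neg_sq]
  have hmem : β ^ 2 ∈ L := by
    rw [← InfiniteGalois.fixedField_fixingSubgroup L, IntermediateField.mem_fixedField_iff]
    exact hfix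
  refine ⟨⟨β ^ 2, hmem⟩, β, fun h => pow_ne_zero 2 hβ0 (congrArg Subtype.val h), rfl, ?_, hK⟩
  rw [hτβ]
  intro h
  exact hβ0 (self_eq_neg.mp h.symm)

theorem exists_natCast_mul_isIntegral (t : Qb) :
    ∃ d : ℕ, d ≠ 0 ∧ IsIntegral ℤ ((d : Qb) * t) := by
  obtain ⟨⟨y, hy⟩, h⟩ := IsIntegral.exists_multiple_integral_of_isLocalization (nonZeroDivisors ℤ)
    t (Algebra.IsIntegral.isIntegral (R := ℚ) t)
  refine ⟨y.natAbs, Int.natAbs_ne_zero.mpr (nonZeroDivisors.ne_zero hy), ?_⟩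
  rw [Submonoid.smul_def, zsmul_eq_mul] at h
  rcases Int.natAbs_eq y with e | e
  · rw [← Int.cast_natCast, ← e]; exact h
  · rw [← Int.cast_natCast, show (y.natAbs : ℤ) = -y by omega, Int.cast_neg, neg_mul]
    exact h.neg

/-- **Weak Mordell–Weil**: finitely many classes represent the fixed classes modulo two. -/
theorem exists_finite_mod_two (hρ : ∀ σ a, SemilinearAut.baseAut (ρ σ) a = σ a)
    (hopen : FixedFunctions ρ) (hdiv : ∀ x : Pic0 Qb F, ∃ y, 2 • y = x)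
    (hfin : {x : Pic0 Qb F | 2 • x = 0}.Finite)
    (L : IntermediateField ℚ Qb) [NumberField L] {E : Divisor Qb F}
    (hE : 4 * (genusFF Qb F : ℤ) + 2 ≤ Divisor.degree E) (O : Place Qb F)
    (hφ : ∀ σ ∈ L.fixingSubgroup, ∀ j, ρ σ • secBasis E j = secBasis E j)
    (hgE : ∀ σ ∈ L.fixingSubgroup, ρ σ • E = E) (hgO : ∀ σ ∈ L.fixingSubgroup, ρ σ • O = O)
    (htor : ∀ x : Pic0 Qb F, 2 • x = 0 → x ∈ fixedClasses ρ L) :
    ∃ S : Set (Pic0 Qb F), S.Finite ∧ S ⊆ fixedClasses ρ L ∧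
      ∀ x ∈ fixedClasses ρ L, ∃ s ∈ S, ∃ w ∈ fixedClasses ρ L, x = s + 2 • w := by
  classical
  choose half hhalf using hdiv
  set χ : Pic0 Qb F → (Qb ≃ₐ[ℚ] Qb) → Pic0 Qb F := fun x σ => ρ σ • half x - half x with hχ
  have hχ2 : ∀ x ∈ fixedClasses ρ L, ∀ σ ∈ L.fixingSubgroup, 2 • χ x σ = 0 :=
    fun x hx σ hσ => by
      simp only [hχ]
      rw [nsmul_sub, ← smul_nsmul_class, hhalf, hx σ hσ, sub_self]
  have hχmul : ∀ x ∈ fixedClasses ρ L, ∀ σ ∈ L.fixingSubgroup, ∀ τ ∈ L.fixingSubgroup,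
      χ x (σ * τ) = χ x σ + χ x τ := fun x hx σ hσ τ hτ => by
    have h := htor _ (hχ2 x hx τ hτ) σ hσ
    simp only [hχ, map_mul, mul_smul, smul_sub] at h ⊢
    rw [sub_eq_sub_iff_add_eq_add] at h
    rw [← sub_eq_zero]
    have h' := sub_eq_zero.mpr h
    abel_nf at h' ⊢
    exact h'
  obtain ⟨T, hT⟩ := exists_finset_congr_eq ρ hρ L hE O hφ hgE hgO hfin
  choose d hd0 hdint using fun t : T => exists_natCast_mul_isIntegral (t : Qb)
  set S0 : Set (HeightOneSpectrum (𝓞 L)) :=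
    ⋃ t : T, {v | v.asIdeal ∣ Ideal.span {(d t : 𝓞 L)}} with hS0
  have hS0f : S0.Finite := Set.finite_iUnion fun t =>
    Ideal.finite_factors (by simp [hd0 t])
  obtain ⟨R, hR, hRspec⟩ := exists_finite_even_outside S0 hS0f
  set Z : Set Qb := ⋃ r ∈ R, {z | z ^ 2 = ((r : L) : Qb)} with hZ
  have hZf : Z.Finite := hR.biUnion fun r _ => by
    refine ((Polynomial.finite_setOfPred_isRoot
      (Polynomial.X_pow_sub_C_ne_zero two_pos ((r : L) : Qb)))).subset fun z hz => ?_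
    simp only [Set.mem_ofPred_eq] at hz
    simp [Polynomial.IsRoot, hz]
  have hvanish : ∀ x ∈ fixedClasses ρ L, ∀ τ ∈ L.fixingSubgroup, (∀ z ∈ Z, τ z = z) →
      χ x τ = 0 := by
    intro x hx τ hτ hτZ
    by_contra hne
    obtain ⟨lam, hlam⟩ := Module.Projective.exists_dual_ne_zero (ZMod 2)
      (x := (⟨χ x τ, Pic0.mem_torsion.mpr (by rw [natCast_zsmul]; exact hχ2 x hx τ hτ)⟩ :
        Pic0.torsion Qb F 2)) (fun h => hne (congrArg Subtype.val h))
    let ψ : L.fixingSubgroup → ZMod 2 := fun σ =>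
      lam ⟨χ x σ, Pic0.mem_torsion.mpr (by rw [natCast_zsmul]; exact hχ2 x hx σ σ.2)⟩
    have hψmul : ∀ a b, ψ (a * b) = ψ a + ψ b := fun a b => by
      simp only [ψ]
      rw [← map_add]
      congr 1
      exact Subtype.ext (hχmul x hx a a.2 b b.2)
    let ψh : L.fixingSubgroup →* Multiplicative (ZMod 2) :=
      MonoidHom.mk' (fun a => Multiplicative.ofAdd (ψ a)) fun a b => by rw [hψmul]; rfl
    let K0 : Subgroup (Qb ≃ₐ[ℚ] Qb) := ψh.ker.map L.fixingSubgroup.subtype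
    have hmemK : ∀ (σ : Qb ≃ₐ[ℚ] Qb) (hσ : σ ∈ L.fixingSubgroup), σ ∈ K0 ↔ ψ ⟨σ, hσ⟩ = 0 :=
      fun σ hσ => by
        refine ⟨?_, fun h => ⟨⟨σ, hσ⟩, by simp [ψh, h], rfl⟩⟩
        rintro ⟨⟨σ', hσ'⟩, h, rfl⟩
        simpa [ψh] using h
    have hχK : ∀ σ ∈ L.fixingSubgroup, χ x σ = 0 → σ ∈ K0 := fun σ hσ h => by
      rw [hmemK σ hσ]
      simp only [ψ, h]
      exact map_zero lam
    have hK0le : K0 ≤ L.fixingSubgroup := Subgroup.map_subtype_le _
    have hK0open : IsOpen (K0 : Set (Qb ≃ₐ[ℚ] Qb)) := by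
      obtain ⟨L', hL', hfix⟩ := hopen.cls (half x)
      have := hL'
      refine Subgroup.isOpen_mono (H₁ := (L ⊔ L').fixingSubgroup) (fun σ hσ => ?_)
        (IntermediateField.fixingSubgroup_isOpen _)
      have hσL := IntermediateField.fixingSubgroup_antitone (le_sup_left (a := L) (b := L')) hσ
      refine hχK σ hσL ?_
      simp only [hχ]
      rw [hfix σ (IntermediateField.fixingSubgroup_antitone (le_sup_right (a := L) (b := L')) hσ),
        sub_self]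
    have hquad : ∀ a ∈ L.fixingSubgroup, ∀ b ∈ L.fixingSubgroup, a ∉ K0 → b ∉ K0 → a * b ∈ K0 := by
      intro a ha b hb h1 h2
      rw [hmemK a ha] at h1
      rw [hmemK b hb] at h2
      rw [hmemK _ (mul_mem ha hb)]
      have h := hψmul ⟨a, ha⟩ ⟨b, hb⟩
      change ψ ⟨a * b, _⟩ = _ at h
      rw [h]
      generalize ψ ⟨a, ha⟩ = u at h1 ⊢
      generalize ψ ⟨b, hb⟩ = w at h2 ⊢
      revert h1 h2
      revert u w
      decide
    have hτK : τ ∉ K0 := fun h => hlam ((hmemK τ hτ).mp h)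
    obtain ⟨α, β, hα, hβ, hτβ, hKβ⟩ :=
      exists_sqrt_of_index_two L K0 hK0le hK0open hquad hτ hτK
    obtain ⟨r, hr, c, -, hrc⟩ := hRspec α hα fun v hv => by
      by_contra hodd
      rw [Int.not_even_iff_odd] at hodd
      obtain ⟨q, A, hq, hqA, hA⟩ := exists_place_of_prime L v
      have hTA : ∀ t ∈ T, t ∈ A := fun t ht => by
        have hdv : (d ⟨t, ht⟩ : 𝓞 L) ∉ v.asIdeal := fun h =>
          hv (Set.mem_iUnion.mpr ⟨⟨t, ht⟩, Ideal.dvd_span_singleton.mpr h⟩)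
        have h1 := natCast_notMem_nonunits_of_notMem L hA hdv
        rw [A.mem_nonunits_iff_or] at h1
        push Not at h1
        have := mul_mem h1.2 (mem_of_isIntegral A (hdint ⟨t, ht⟩))
        rwa [inv_mul_cancel_left₀ h1.1] at this
      obtain ⟨S, hSA, hS⟩ := hT A hTA (half x)
      obtain ⟨σ, hσ, hσβ, hσS⟩ := exists_inertia_sqrt_congr L hq hqA hA hα hodd hβ S hSA
      refine hσβ (hKβ σ (hχK σ hσ ?_))
      simp only [hχ]
      rw [hS σ hσ hσS (hχ2 x hx σ hσ), sub_self]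
    obtain ⟨z, hz⟩ := IsAlgClosed.exists_pow_nat_eq ((r : L) : Qb) two_pos
    have hτc : τ (c : Qb) = (c : Qb) := (IntermediateField.mem_fixingSubgroup_iff _ _).mp hτ _ c.2
    have hsq : β ^ 2 = (z * (c : Qb)) ^ 2 := by
      rw [hβ, hrc, mul_pow, hz]
      push_cast
      rfl
    have hτz : τ z = z := hτZ z (Set.mem_iUnion₂.mpr ⟨r, hr, hz⟩)
    refine hτβ ?_
    rcases sq_eq_sq_iff_eq_or_eq_neg.mp hsq with h | h <;> simp [h, hτz, hτc]
  set M := IntermediateField.adjoin ℚ Z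
  have : FiniteDimensional ℚ M :=
    have : Finite Z := hZf.to_subtype
    IntermediateField.finiteDimensional_adjoin fun z _ => Algebra.IsIntegral.isIntegral z
  have hdet : ∀ x ∈ fixedClasses ρ L, ∀ σ ∈ L.fixingSubgroup, ∀ τ ∈ L.fixingSubgroup,
      σ.toAlgHom.comp M.val = τ.toAlgHom.comp M.val → χ x σ = χ x τ := by
    intro x hx σ hσ τ hτ h
    have h0 : χ x (τ⁻¹ * σ) = 0 := hvanish x hx _ (mul_mem (inv_mem hτ) hσ) fun z hz => by
      have := DFunLike.congr_fun h ⟨z, IntermediateField.subset_adjoin ℚ Z hz⟩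
      change σ z = τ z at this
      rw [AlgEquiv.mul_apply, this]
      exact τ.symm_apply_apply z
    have := hχmul x hx τ hτ _ (mul_mem (inv_mem hτ) hσ)
    rwa [mul_inv_cancel_left, h0, add_zero] at this
  -- the restriction of `χ x` determines it and takes finitely many values
  let Res := {φ : M →ₐ[ℚ] Qb // ∃ σ ∈ L.fixingSubgroup, σ.toAlgHom.comp M.val = φ}
  let key : Pic0 Qb F → Res → Pic0 Qb F := fun x φ => χ x φ.2.choose
  set K := key '' (fixedClasses ρ L : Set (Pic0 Qb F)) with hK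
  have hKf : K.Finite := (Set.Finite.pi (fun _ : Res => hfin)).subset fun f hf φ _ => by
    obtain ⟨x, hx, rfl⟩ := hf
    exact hχ2 x hx _ φ.2.choose_spec.1
  choose pre hpre hprekey using fun f : K => f.2
  have := hKf.to_subtype
  refine ⟨Set.range pre, Set.finite_range _, Set.range_subset_iff.mpr hpre, fun x hx => ?_⟩
  set f : K := ⟨key x, x, hx, rfl⟩
  refine ⟨pre f, Set.mem_range_self _, half x - half (pre f), fun σ hσ => ?_, ?_⟩
  · let φ : Res := ⟨_, σ, hσ, rfl⟩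
    have h := congrFun (hprekey f) φ
    have e1 := hdet x hx σ hσ _ φ.2.choose_spec.1 φ.2.choose_spec.2.symm
    have e2 := hdet _ (hpre f) σ hσ _ φ.2.choose_spec.1 φ.2.choose_spec.2.symm
    have e : χ x σ = χ (pre f) σ := by rw [e1, e2]; exact h.symm
    simp only [hχ] at e
    rw [smul_sub]
    exact sub_eq_sub_iff_sub_eq_sub.mp e
  · rw [nsmul_sub, hhalf, hhalf]
    abel

end FLTAgent.MordellWeil
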